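import Mathlib

/-!
# Two-dimensional pseudocharacters with an odd involution

Abstract algebra: from a trace function `T` on an algebra with anti-involution satisfying
`T (u v) = T (v u)` and `T (u v) + T (u v*) = T u T v`, and an idempotent `e` with `e* = 1 - e`, we
get matrix coefficients satisfying Wiles's identities.
-/

set_option autoImplicit false

namespace Fermat.Agent.RepTwo

section Abstract

variable {L : Type*} [CommRing L] {A : Type*} [Ring A] [Algebra L A]

/-- data of a trace function with anti-involution and an idempotent -/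
structure TraceAlg (L : Type*) [CommRing L] (A : Type*) [Ring A] [Algebra L A] where
  T : A →ₗ[L] L
  star : A →ₗ[L] A
  star_mul : ∀ u v, star (u * v) = star v * star u
  T_comm : ∀ u v, T (u * v) = T (v * u)
  T_mul : ∀ u v, T (u * v) + T (u * star v) = T u * T v
  e : A
  e_mul_e : e * e = e
  star_e : star e = 1 - e
  star_one : star 1 = 1

namespace TraceAlg

variable (P : TraceAlg L A)

/-- complementary idempotent -/
def f : A := 1 - P.e

theorem e_mul_f : P.e * P.f = 0 := by rw [f, mul_sub, mul_one, P.e_mul_e, sub_self]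
theorem f_mul_e : P.f * P.e = 0 := by rw [f, sub_mul, one_mul, P.e_mul_e, sub_self]
theorem f_mul_f : P.f * P.f = P.f := by
  rw [f, mul_sub, mul_one, sub_mul, one_mul, P.e_mul_e, sub_self, sub_zero]
theorem star_f : P.star P.f = P.e := by
  rw [f, map_sub, P.star_one, P.star_e]; abel
theorem e_add_f : P.e + P.f = 1 := by rw [f]; abel

def a (u : A) : L := P.T (P.e * u)
def d (u : A) : L := P.T (P.f * u)
def x (u v : A) : L := P.T (P.e * u * P.f * v)

theorem a_add_d (u : A) : P.a u + P.d u = P.T u := by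
  rw [a, d, ← map_add, ← add_mul, P.e_add_f, one_mul]

theorem T_eue (u : A) : P.T (P.e * u * P.e) = P.a u := by
  rw [a, P.T_comm, ← mul_assoc, P.e_mul_e]

theorem T_fuf (u : A) : P.T (P.f * u * P.f) = P.d u := by
  rw [d, P.T_comm, ← mul_assoc, P.f_mul_f]

theorem T_eueve (u v : A) : P.T (P.e * u * P.e * v) = P.a u * P.a v := by
  have h := P.T_mul (P.e * u * P.e) (P.e * v * P.e)
  rw [P.T_eue, P.T_eue, P.star_mul, P.star_mul, P.star_e] at h
  have h1 : P.e * u * P.e * ((1 - P.e) * (P.star v * (1 - P.e))) = 0 := by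
    have : P.e * u * P.e * ((1 - P.e) * (P.star v * (1 - P.e))) =
      P.e * u * (P.e * (1 - P.e)) * (P.star v * (1 - P.e)) := by noncomm_ring
    rw [this]
    have h2 : P.e * (1 - P.e) = 0 := P.e_mul_f
    rw [h2]; simp
  have h2 : P.T (P.e * u * P.e * (P.e * v * P.e)) = P.T (P.e * u * P.e * v) := by
    calc P.T (P.e * u * P.e * (P.e * v * P.e))
        = P.T ((P.e * u * (P.e * P.e) * v) * P.e) := by congr 1; noncomm_ring
      _ = P.T (P.e * ((P.e * u * (P.e * P.e) * v))) := P.T_comm _ _
      _ = P.T ((P.e * P.e) * u * (P.e * P.e) * v) := by congr 1; noncomm_ring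
      _ = _ := by rw [P.e_mul_e]
  rw [h1, map_zero, add_zero, h2] at h
  exact h

theorem T_fufvf (u v : A) : P.T (P.f * u * P.f * v) = P.d u * P.d v := by
  have h := P.T_mul (P.f * u * P.f) (P.f * v * P.f)
  rw [P.T_fuf, P.T_fuf, P.star_mul, P.star_mul, P.star_f] at h
  have h1 : P.f * u * P.f * (P.e * (P.star v * P.e)) = 0 := by
    have : P.f * u * P.f * (P.e * (P.star v * P.e)) =
      P.f * u * (P.f * P.e) * (P.star v * P.e) := by noncomm_ring
    rw [this, P.f_mul_e]; simp
  have h2 : P.T (P.f * u * P.f * (P.f * v * P.f)) = P.T (P.f * u * P.f * v) := by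
    calc P.T (P.f * u * P.f * (P.f * v * P.f))
        = P.T ((P.f * u * (P.f * P.f) * v) * P.f) := by congr 1; noncomm_ring
      _ = P.T (P.f * ((P.f * u * (P.f * P.f) * v))) := P.T_comm _ _
      _ = P.T ((P.f * P.f) * u * (P.f * P.f) * v) := by congr 1; noncomm_ring
      _ = _ := by rw [P.f_mul_f]
  rw [h1, map_zero, add_zero, h2] at h
  exact h

theorem x_eq_T_f (u v : A) : P.x u v = P.T (P.f * v * P.e * u) := by
  unfold x
  rw [show P.e * u * P.f * v = (P.e * u) * (P.f * v) by noncomm_ring, P.T_comm]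
  congr 1; noncomm_ring

theorem a_mul (u v : A) : P.a (u * v) = P.a u * P.a v + P.x u v := by
  rw [← P.T_eueve, x, ← map_add, a]
  congr 1
  calc P.e * (u * v) = P.e * u * (P.e + P.f) * v := by rw [P.e_add_f]; noncomm_ring
    _ = _ := by noncomm_ring

theorem d_mul (u v : A) : P.d (u * v) = P.d u * P.d v + P.x v u := by
  rw [← P.T_fufvf, x_eq_T_f, ← map_add, d]
  congr 1
  calc P.f * (u * v) = P.f * u * (P.f + P.e) * v := by
        rw [add_comm, P.e_add_f]; noncomm_ring
    _ = _ := by noncomm_ring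

theorem x_mul_left (u v w : A) : P.x (u * v) w = P.a u * P.x v w + P.d v * P.x u w := by
  have h1 : P.x (u * v) w = P.T (P.e * u * P.e * (v * P.f * w)) +
      P.T (P.e * u * P.f * v * P.f * w) := by
    rw [← map_add, x]
    congr 1
    calc P.e * (u * v) * P.f * w = P.e * u * (P.e + P.f) * v * P.f * w := by
          rw [P.e_add_f]; noncomm_ring
      _ = _ := by noncomm_ring
  have h2 : P.T (P.e * u * P.f * v * P.f * w) = P.T (P.f * v * P.f * (w * P.e * u)) := by
    rw [show P.e * u * P.f * v * P.f * w = (P.e * u) * (P.f * v * P.f * w) by noncomm_ring,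
      P.T_comm]
    congr 1; noncomm_ring
  rw [h1, T_eueve, h2, T_fufvf]
  have h3 : P.a (v * P.f * w) = P.x v w := by
    rw [a, x]; congr 1; noncomm_ring
  have h4 : P.d (w * P.e * u) = P.x u w := by
    rw [d, x_eq_T_f]; congr 1; noncomm_ring
  rw [h3, h4]

theorem x_mul_right (u v w : A) : P.x u (v * w) = P.x u v * P.a w + P.d v * P.x u w := by
  have h1 : P.x u (v * w) = P.T (P.e * (u * P.f * v) * P.e * w) +
      P.T (P.e * u * P.f * v * P.f * w) := by
    rw [← map_add, x]
    congr 1
    calc P.e * u * P.f * (v * w) = P.e * u * P.f * v * (P.e + P.f) * w := by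
          rw [P.e_add_f]; noncomm_ring
      _ = _ := by noncomm_ring
  have h2 : P.T (P.e * u * P.f * v * P.f * w) = P.T (P.f * v * P.f * (w * P.e * u)) := by
    rw [show P.e * u * P.f * v * P.f * w = (P.e * u) * (P.f * v * P.f * w) by noncomm_ring,
      P.T_comm]
    congr 1; noncomm_ring
  rw [h1, T_eueve, h2, T_fufvf]
  have h3 : P.a (u * P.f * v) = P.x u v := by
    rw [a, x]; congr 1; noncomm_ring
  have h4 : P.d (w * P.e * u) = P.x u w := by
    rw [d, x_eq_T_f]; congr 1; noncomm_ring
  rw [h3, h4]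

/-- Wiles's identity. -/
theorem x_mul_x (u v u' v' : A) : P.x u v * P.x u' v' = P.x u' v * P.x u v' := by
  have h1 : P.T (P.e * (u * P.f * v) * P.e * (u' * P.f * v')) = P.x u v * P.x u' v' := by
    rw [T_eueve]
    congr 1
    · rw [a, x]; congr 1; noncomm_ring
    · rw [a, x]; congr 1; noncomm_ring
  have h2 : P.T (P.f * (v * P.e * u') * P.f * (v' * P.e * u)) = P.x u' v * P.x u v' := by
    rw [T_fufvf]
    congr 1
    · rw [d, x_eq_T_f]; congr 1; noncomm_ring
    · rw [d, x_eq_T_f]; congr 1; noncomm_ring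
  rw [← h1, ← h2]
  rw [show P.e * (u * P.f * v) * P.e * (u' * P.f * v') =
    (P.e * u) * (P.f * v * P.e * (u' * P.f * v')) by noncomm_ring, P.T_comm]
  congr 1; noncomm_ring

end TraceAlg

end Abstract

end Fermat.Agent.RepTwo
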