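import Mathlib
import Fermat.Agent.RepTwo.PseudoAlg

/-!
# Two-dimensional pseudocharacters with an odd involution come from representations
-/

set_option autoImplicit false

namespace Fermat.Agent.RepTwo

section PseudoChar

variable {L : Type*} [Field L] {G : Type*} [Group G]

/-- A two-dimensional pseudocharacter `t` with determinant `c`. -/
structure IsPseudoChar (t : G → L) (c : G →* L) : Prop where
  one : t 1 = 2
  comm : ∀ g h, t (g * h) = t (h * g)
  mul : ∀ g h, t (g * h) + c h * t (g * h⁻¹) = t g * t h

variable {t : G → L} {c : G →* L}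

/-- the linear extension of `t` -/
noncomputable def traceLin (t : G → L) : MonoidAlgebra L G →ₗ[L] L where
  toFun x := Finsupp.linearCombination L t x.coeff
  map_add' x y := by simp
  map_smul' a x := by simp

omit [Group G] in
@[simp] theorem traceLin_single (g : G) (r : L) :
    traceLin t (MonoidAlgebra.single g r) = r * t g := by
  simp [traceLin]

/-- the anti-involution `g ↦ c(g) g⁻¹` -/
noncomputable def starLin (c : G →* L) : MonoidAlgebra L G →ₗ[L] MonoidAlgebra L G where
  toFun x := Finsupp.linearCombination L (fun g => MonoidAlgebra.single g⁻¹ (c g)) x.coeff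
  map_add' x y := by simp
  map_smul' a x := by simp

@[simp] theorem starLin_single (g : G) (r : L) :
    starLin c (MonoidAlgebra.single g r) = MonoidAlgebra.single g⁻¹ (r * c g) := by
  simp [starLin, MonoidAlgebra.smul_single]

theorem starLin_mul (u v : MonoidAlgebra L G) :
    starLin c (u * v) = starLin c v * starLin c u := by
  induction u using MonoidAlgebra.induction_linear with
  | zero => simp
  | add x y hx hy => rw [add_mul, map_add, map_add, mul_add, hx, hy]
  | single g r =>
    induction v using MonoidAlgebra.induction_linear with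
    | zero => simp
    | add x y hx hy => rw [mul_add, map_add, map_add, add_mul, hx, hy]
    | single h s =>
      rw [MonoidAlgebra.single_mul_single, starLin_single, starLin_single, starLin_single,
        MonoidAlgebra.single_mul_single, mul_inv_rev, map_mul]
      congr 1; ring

theorem IsPseudoChar.traceLin_comm (h : IsPseudoChar t c) (u v : MonoidAlgebra L G) :
    traceLin t (u * v) = traceLin t (v * u) := by
  induction u using MonoidAlgebra.induction_linear with
  | zero => simp
  | add x y hx hy => rw [add_mul, map_add, mul_add, map_add, hx, hy]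
  | single g r =>
    induction v using MonoidAlgebra.induction_linear with
    | zero => simp
    | add x y hx hy => rw [mul_add, map_add, add_mul, map_add, hx, hy]
    | single k s =>
      rw [MonoidAlgebra.single_mul_single, MonoidAlgebra.single_mul_single, traceLin_single,
        traceLin_single, h.comm, mul_comm r s]

theorem IsPseudoChar.traceLin_mul (h : IsPseudoChar t c) (u v : MonoidAlgebra L G) :
    traceLin t (u * v) + traceLin t (u * starLin c v) = traceLin t u * traceLin t v := by
  induction u using MonoidAlgebra.induction_linear with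
  | zero => simp
  | add x y hx hy =>
    rw [add_mul, add_mul, map_add, map_add, map_add, add_mul, ← hx, ← hy]; ring
  | single g r =>
    induction v using MonoidAlgebra.induction_linear with
    | zero => simp
    | add x y hx hy =>
      rw [mul_add, map_add, map_add, mul_add, map_add, map_add, mul_add, ← hx, ← hy]; ring
    | single k s =>
      rw [starLin_single, MonoidAlgebra.single_mul_single, MonoidAlgebra.single_mul_single,
        traceLin_single, traceLin_single, traceLin_single, traceLin_single]
      have := h.mul g k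
      linear_combination (r * s) * this

/-- The trace algebra attached to a pseudocharacter and an odd involution. -/
noncomputable def IsPseudoChar.traceAlg (h : IsPseudoChar t c) (h2 : (2 : L) ≠ 0) {c₀ : G}
    (hc₀ : c₀ * c₀ = 1) (hodd : c c₀ = -1) : TraceAlg L (MonoidAlgebra L G) where
  T := traceLin t
  star := starLin c
  star_mul := starLin_mul
  T_comm := h.traceLin_comm
  T_mul := h.traceLin_mul
  e := MonoidAlgebra.single 1 (2⁻¹) + MonoidAlgebra.single c₀ (2⁻¹)
  e_mul_e := by
    rw [add_mul, mul_add, mul_add]
    simp only [MonoidAlgebra.single_mul_single, one_mul, mul_one, hc₀]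
    have h4 : (2⁻¹ * 2⁻¹ : L) + 2⁻¹ * 2⁻¹ = 2⁻¹ := by field_simp; norm_num
    calc _ = (MonoidAlgebra.single (1 : G) (2⁻¹ * 2⁻¹ : L) + MonoidAlgebra.single 1 (2⁻¹ * 2⁻¹)) +
          (MonoidAlgebra.single c₀ (2⁻¹ * 2⁻¹ : L) + MonoidAlgebra.single c₀ (2⁻¹ * 2⁻¹)) := by abel
      _ = _ := by rw [← MonoidAlgebra.single_add, ← MonoidAlgebra.single_add, h4]
  star_e := by
    rw [map_add, starLin_single, starLin_single, hodd, inv_one, map_one, mul_one,
      MonoidAlgebra.one_def]
    have h5 : c₀⁻¹ = c₀ := inv_eq_of_mul_eq_one_left hc₀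
    have h6 : (1 : L) = 2⁻¹ + 2⁻¹ := by field_simp; norm_num
    have h8 : MonoidAlgebra.single (1 : G) (1 : L) =
        MonoidAlgebra.single 1 2⁻¹ + MonoidAlgebra.single 1 2⁻¹ := by
      rw [← MonoidAlgebra.single_add, ← h6]
    rw [h5, h8]
    have h7 : MonoidAlgebra.single c₀ ((2 : L)⁻¹ * -1) = - MonoidAlgebra.single c₀ (2 : L)⁻¹ := by
      rw [eq_neg_iff_add_eq_zero, ← MonoidAlgebra.single_add]
      have : ((2 : L)⁻¹ * -1 + 2⁻¹) = 0 := by ring
      rw [this, MonoidAlgebra.single_zero]
    rw [h7]
    abel
  star_one := by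
    rw [MonoidAlgebra.one_def, starLin_single, inv_one, map_one, mul_one]

/-- A pseudocharacter with an odd involution comes from a matrix representation, whose entries
are of the form `T (w * g)`. -/
theorem IsPseudoChar.exists_matrix_rep (h : IsPseudoChar t c) (h2 : (2 : L) ≠ 0) {c₀ : G}
    (hc₀ : c₀ * c₀ = 1) (hodd : c c₀ = -1) :
    ∃ (M : G →* Matrix (Fin 2) (Fin 2) L) (w : Fin 2 → Fin 2 → MonoidAlgebra L G),
      (∀ g, (M g).trace = t g) ∧ (∀ g, (M g).det = c g) ∧
      ∀ g i j, M g i j = traceLin t (w i j * MonoidAlgebra.of L G g) := by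
  classical
  set P := h.traceAlg h2 hc₀ hodd with hP
  let o : G →* MonoidAlgebra L G := MonoidAlgebra.of L G
  have hT : ∀ u, P.T u = traceLin t u := fun u => rfl
  have hto : ∀ g, P.T (o g) = t g := fun g => by
    rw [hT]
    change traceLin t (MonoidAlgebra.single g 1) = t g
    rw [traceLin_single, one_mul]
  have hc0t : t c₀ = 0 := by
    have h3 := h.mul c₀ c₀
    rw [hc₀, hodd, mul_inv_cancel, h.one] at h3
    have h4 : t c₀ * t c₀ = 0 := by rw [← h3]; ring
    exact mul_self_eq_zero.mp h4
  have ha1 : P.a 1 = 1 := by
    rw [TraceAlg.a, mul_one, hT]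
    change traceLin t (MonoidAlgebra.single 1 (2⁻¹) + MonoidAlgebra.single c₀ (2⁻¹)) = 1
    rw [map_add, traceLin_single, traceLin_single, h.one, hc0t, mul_zero, add_zero,
      inv_mul_cancel₀ h2]
  have hT1 : P.T 1 = 2 := by
    have := hto 1
    rwa [map_one, h.one] at this
  have hd1 : P.d 1 = 1 := by
    have := P.a_add_d 1
    rw [ha1, hT1] at this
    linear_combination this
  have hx1l : ∀ u, P.x 1 u = 0 := by
    intro u
    have := P.a_mul 1 u
    rw [one_mul, ha1, one_mul] at this
    linear_combination -this
  have hx1r : ∀ u, P.x u 1 = 0 := by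
    intro u
    have := P.a_mul u 1
    rw [mul_one, ha1, mul_one] at this
    linear_combination -this
  -- the determinant
  have key : ∀ (M : G →* Matrix (Fin 2) (Fin 2) L), (∀ g, (M g).trace = t g) →
      ∀ g, (M g).det = c g := by
    intro M hM g
    have h3 := h.mul g g
    rw [mul_inv_cancel, h.one, ← hM, ← hM, map_mul] at h3
    rw [Matrix.trace_fin_two, Matrix.trace_fin_two, Matrix.mul_apply, Matrix.mul_apply,
      Fin.sum_univ_two, Fin.sum_univ_two] at h3
    rw [Matrix.det_fin_two]
    have h4 : 2 * (M g 0 0 * M g 1 1 - M g 0 1 * M g 1 0) = 2 * c g := by linear_combination (-1 : L) * h3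
    exact mul_left_cancel₀ h2 h4
  by_cases hx : ∀ g k, P.x (o g) (o k) = 0
  · -- reducible case
    let M : G →* Matrix (Fin 2) (Fin 2) L :=
      { toFun := fun g => !![P.a (o g), 0; 0, P.d (o g)]
        map_one' := by
          rw [map_one, ha1, hd1]
          exact Matrix.one_fin_two.symm
        map_mul' := fun g k => by
          rw [map_mul, P.a_mul, P.d_mul, hx, hx, Matrix.mul_fin_two]
          congr 1 <;> simp }
    have hM : ∀ g, (M g).trace = t g := fun g => by
      change (!![P.a (o g), 0; 0, P.d (o g)]).trace = t g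
      rw [Matrix.trace_fin_two_of, P.a_add_d, hto]
    refine ⟨M, fun i j => if i = j then (if i = 0 then P.e else P.f) else 0, hM, key M hM, ?_⟩
    intro g i j
    fin_cases i <;> fin_cases j
    · change P.a (o g) = _; simp; rfl
    · change (0 : L) = _; simp
    · change (0 : L) = _; simp
    · change P.d (o g) = _; simp; rfl
  · push Not at hx
    obtain ⟨u₁, g₁, hx⟩ := hx
    set X := P.x (o u₁) (o g₁) with hX
    -- `x(k, g) = β(k) y(g)`
    have hβ : ∀ k g, P.x k g = P.x k (o g₁) / X * P.x (o u₁) g := by
      intro k g
      have := P.x_mul_x (o u₁) (o g₁) k g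
      rw [div_mul_eq_mul_div, eq_div_iff hx, mul_comm, ← this]
    let M : G →* Matrix (Fin 2) (Fin 2) L :=
      { toFun := fun g => !![P.a (o g), P.x (o g) (o g₁) / X; P.x (o u₁) (o g), P.d (o g)]
        map_one' := by
          rw [map_one, ha1, hd1, hx1l, hx1r, zero_div]
          exact Matrix.one_fin_two.symm
        map_mul' := fun g k => by
          rw [map_mul, P.a_mul, P.d_mul, P.x_mul_left, P.x_mul_right, Matrix.mul_fin_two]
          congr 1
          rw [hβ (o g) (o k), hβ (o k) (o g)]
          ext i j
          fin_cases i <;> fin_cases j <;> simp <;> ring }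
    have hM : ∀ g, (M g).trace = t g := fun g => by
      change (!![P.a (o g), P.x (o g) (o g₁) / X; P.x (o u₁) (o g), P.d (o g)]).trace = t g
      rw [Matrix.trace_fin_two_of, P.a_add_d, hto]
    refine ⟨M, fun i j => !![P.e, X⁻¹ • (P.f * o g₁ * P.e); P.e * o u₁ * P.f, P.f] i j,
      hM, key M hM, ?_⟩
    intro g i j
    fin_cases i <;> fin_cases j
    · rfl
    · change P.x (o g) (o g₁) / X = traceLin t (X⁻¹ • (P.f * o g₁ * P.e) * o g)
      rw [smul_mul_assoc, map_smul, P.x_eq_T_f, smul_eq_mul, div_eq_inv_mul, hT]
    · rfl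
    · rfl

end PseudoChar

end Fermat.Agent.RepTwo
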