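import Fermat.Agent.RepTwo.Attach
import Fermat.Prelude.Def_FLTPrelim_GaloisRep
import Fermat.Prelude.Def_EllipticCurve_FrobeniusTrace

/-!
Finite level of Galois representations on finite modules with open stabilisers.
-/

set_option autoImplicit false

namespace Fermat.Agent.RepTwo

open Module TensorProduct CuspForm ModularFormClass

local notation "Γℚ" => (AlgebraicClosure ℚ ≃ₐ[ℚ] AlgebraicClosure ℚ)
local notation "ℤbar" => integralClosure ℤ ℂ

/-- A Galois representation on a finite module with open stabilisers has finite level. -/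
theorem factors_of_finite {R U : Type} [Semiring R] [AddCommMonoid U] [Module R U] [Finite U]
    (ρ : Γℚ →* Module.End R U)
    (h : ∀ x : U, ∃ L : IntermediateField ℚ (AlgebraicClosure ℚ), FiniteDimensional ℚ L ∧
      ∀ σ : Γℚ, (∀ y ∈ L, σ y = y) → ρ σ x = x) : GaloisFactorsThroughFiniteLevel ρ := by
  choose L hL hLx using h
  refine ⟨⨆ x, L x, IntermediateField.finiteDimensional_iSup_of_finite, fun σ hσ => ?_⟩
  ext x
  exact hLx x σ fun y hy => hσ y (le_iSup L x hy)

/-- every finite set of algebraic numbers generates a finite extension -/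
theorem exists_finite_extension (s : Finset (AlgebraicClosure ℚ)) :
    ∃ L : IntermediateField ℚ (AlgebraicClosure ℚ), FiniteDimensional ℚ L ∧ ∀ x ∈ s, x ∈ L := by
  have halg := AlgebraicClosure.isAlgebraic ℚ
  refine ⟨IntermediateField.adjoin ℚ (s : Set (AlgebraicClosure ℚ)),
    IntermediateField.finiteDimensional_adjoin fun x _ =>
      (halg.isAlgebraic x).isIntegral, fun x hx =>
      IntermediateField.subset_adjoin ℚ _ hx⟩

open scoped WeierstrassCurve.Affine
open WeierstrassCurve WeierstrassCurve.Affine.Point in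
/-- Every point of an elliptic curve is fixed by an open subgroup. -/
theorem exists_level_point (W : WeierstrassCurve ℚ)
    (P : (W⁄(AlgebraicClosure ℚ)).Point) :
    ∃ L : IntermediateField ℚ (AlgebraicClosure ℚ), FiniteDimensional ℚ L ∧
      ∀ σ : Γℚ, (∀ y ∈ L, σ y = y) → σ • P = P := by
  rcases P with _ | ⟨x, y, hxy⟩
  · exact ⟨⊥, inferInstance, fun σ _ => rfl⟩
  · classical
    obtain ⟨L, hL, h⟩ := exists_finite_extension {x, y}
    refine ⟨L, hL, fun σ hσ => ?_⟩
    have hx : σ x = x := hσ x (h x (by simp))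
    have hy : σ y = y := hσ y (h y (by simp))
    rw [algEquiv_smul_def]
    have h1 : WeierstrassCurve.Affine.Point.map (W' := W) σ.toAlgHom (.some x y hxy) =
        .some (σ.toAlgHom x) (σ.toAlgHom y) _ :=
      WeierstrassCurve.Affine.Point.map_some σ.toAlgHom hxy
    rw [h1]
    congr 1

open WeierstrassCurve WeierstrassCurve.Affine.Point in
/-- The Galois representation on the `n`-torsion of an elliptic curve has finite level as soon as
the torsion is finite. -/
theorem factors_galoisRepModuleEnd (W : WeierstrassCurve ℚ) (n : ℕ)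
    [Finite (Submodule.torsionBy ℤ (W⁄(AlgebraicClosure ℚ)).Point n)] :
    GaloisFactorsThroughFiniteLevel
      (galoisRepModuleEnd (K := AlgebraicClosure ℚ) ℚ W n) := by
  apply factors_of_finite
  intro x
  obtain ⟨L, hL, h⟩ := exists_level_point W (x : (W⁄(AlgebraicClosure ℚ)).Point)
  refine ⟨L, hL, fun σ hσ => ?_⟩
  rw [galoisRepModuleEnd_apply]
  exact Subtype.ext (h σ hσ)

/-- A number field, Galois over `ℚ`, splitting two representations of finite level. -/
theorem exists_numberField {M M' : Type} [Monoid M] [Monoid M'] {ρ : Γℚ →* M} {ρ' : Γℚ →* M'}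
    (h : GaloisFactorsThroughFiniteLevel ρ) (h' : GaloisFactorsThroughFiniteLevel ρ') :
    ∃ (F : Type) (_ : Field F) (_ : NumberField F) (_ : IsGalois ℚ F)
        (_ : Algebra F (AlgebraicClosure ℚ)) (_ : IsScalarTower ℚ F (AlgebraicClosure ℚ)),
        (AlgEquiv.restrictNormalHom (F := ℚ) (K₁ := AlgebraicClosure ℚ) F).ker ≤
          ρ.ker ⊓ ρ'.ker := by
  obtain ⟨L, hL, h1⟩ := GaloisFactors_prod h h'
  have halg := AlgebraicClosure.isAlgebraic ℚ
  have hN : Normal ℚ (AlgebraicClosure ℚ) := inferInstance
  let F : IntermediateField ℚ (AlgebraicClosure ℚ) := IntermediateField.normalClosure ℚ L (AlgebraicClosure ℚ)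
  have hLF : L ≤ F := L.le_normalClosure
  have hfin : FiniteDimensional ℚ F := normalClosure.is_finiteDimensional ℚ L (AlgebraicClosure ℚ)
  have hnor : Normal ℚ F := normalClosure.normal ℚ L (AlgebraicClosure ℚ)
  have hnf : NumberField F := { to_charZero := inferInstance, to_finiteDimensional := hfin }
  have hgal : IsGalois ℚ F := ⟨⟩
  refine ⟨F, inferInstance, hnf, hgal, inferInstance, inferInstance, fun σ hσ => ?_⟩
  rw [MonoidHom.mem_ker] at hσ
  have h2 : ∀ x ∈ L, σ x = x := by
    intro x hx
    have h3 := AlgEquiv.restrictNormal_commutes σ F ⟨x, hLF hx⟩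
    have h4 : AlgEquiv.restrictNormal σ F = 1 := hσ
    rw [h4] at h3
    exact h3.symm
  have h5 := h1 σ h2
  exact ⟨congrArg Prod.fst h5, congrArg Prod.snd h5⟩

end Fermat.Agent.RepTwo
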