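import Fermat.Agent.RepTwo.Final
import Fermat.Agent.Top.SupportFinal
import Fermat.Agent.JZ.FieldInputs
import Fermat.Agent.JZ.OpenStab
import Fermat.Agent.S24Lib.NormInputs

/-!
The geometric inputs on `JZero N`, except for the Eichler–Shimura relation.
-/

set_option autoImplicit false

namespace Fermat.Agent.RepTwo

open Module AlgebraicCurve ModularCurve Fermat.Agent.JZ

/-- The Hecke operators on `JZero N` commute. -/
theorem heckeOperatorsCommuteBar (N : ℕ) [NeZero N] : HeckeOperatorsCommuteBar N :=
  heckeOperatorsCommuteBar_of modularFieldInputsBar (FF.normInputs _) N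

theorem hasPrincipalDivisors_bar (N : ℕ) [NeZero N] :
    HasPrincipalDivisors (AlgebraicClosure ℚ) (modularFunctionFieldBar N) := by
  have : FF.IsFnField (AlgebraicClosure ℚ) (modularFunctionFieldBar N) :=
    modularFieldInputsBar.fnField N
  exact FF.hasPrincipalDivisors _ _

/-- Open stabilisers on `JZero N`. -/
theorem torsionLevel (N m : ℕ) [NeZero N] : TorsionLevel N m := by
  intro x _
  have := hasPrincipalDivisors_bar N
  exact exists_level_pic0_of_hasPrincipalDivisors (F₀ := modularFunctionFieldFull N) x

/-- The geometric facts on `JZero N` from the Eichler–Shimura relation. -/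
theorem jZeroGeometry_of_es {N p : ℕ} [NeZero N] [NeZero p] (h : JZeroES N p) :
    JZeroGeometry N p :=
  ⟨Top.finite_pTor N p, torsionLevel N p, heckeOperatorsCommuteBar N, h, Top.supportMap N p⟩

end Fermat.Agent.RepTwo
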