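import Mathlib

/-!
# Dickson polynomials: trace of powers
`dick t d k` is the trace of the `k`-th power of a `2 × 2` matrix with trace `t`, determinant `d`.
-/

set_option autoImplicit false

namespace Fermat.Agent.RepTwo

/-- trace of the `k`-th power in terms of the trace `t` and the determinant `d` -/
def dick {R : Type*} [CommRing R] (t d : R) : ℕ → R
  | 0 => 2
  | 1 => t
  | (k + 2) => t * dick t d (k + 1) - d * dick t d k

section

variable {R : Type*} [CommRing R]

@[simp] theorem dick_zero (t d : R) : dick t d 0 = 2 := rfl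
@[simp] theorem dick_one (t d : R) : dick t d 1 = t := rfl
theorem dick_add_two (t d : R) (k : ℕ) :
    dick t d (k + 2) = t * dick t d (k + 1) - d * dick t d k := rfl

theorem map_dick {S : Type*} [CommRing S] (f : R →+* S) (t d : R) :
    ∀ k, f (dick t d k) = dick (f t) (f d) k
  | 0 => by rw [dick_zero, dick_zero]; exact map_ofNat f 2
  | 1 => rfl
  | (k + 2) => by
    rw [dick_add_two, dick_add_two, map_sub, map_mul, map_mul, map_dick f t d (k + 1),
      map_dick f t d k]

theorem dick_mem {A : Subring R} {t d : R} (ht : t ∈ A) (hd : d ∈ A) : ∀ k, dick t d k ∈ A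
  | 0 => by rw [dick_zero]; exact ofNat_mem A 2
  | 1 => ht
  | (k + 2) => A.sub_mem (A.mul_mem ht (dick_mem ht hd (k + 1))) (A.mul_mem hd (dick_mem ht hd k))

variable {A : Type*} [Ring A] [Algebra R A]

theorem algebraMap_dick {f : A} {t d : R}
    (hf : f * f - algebraMap R A t * f + algebraMap R A d = 0) :
    ∀ k, algebraMap R A (dick t d k) = f ^ k + (algebraMap R A t - f) ^ k := by
  have hc : Commute f (algebraMap R A t - f) :=
    Commute.sub_right (Algebra.commutes t f).symm (Commute.refl f)
  have hd : f * (algebraMap R A t - f) = algebraMap R A d := by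
    rw [mul_sub, ← Algebra.commutes t f]
    rw [← sub_eq_zero, ← neg_eq_zero, ← hf]
    abel
  intro k
  induction k using Nat.strong_induction_on with
  | _ k ih =>
    match k, ih with
    | 0, _ => rw [dick_zero, pow_zero, pow_zero, map_ofNat]; norm_num
    | 1, _ => rw [dick_one, pow_one, pow_one]; abel
    | (k + 2), ih =>
      rw [dick_add_two, map_sub, map_mul, map_mul, ih (k + 1) (by omega), ih k (by omega), ← hd]
      set g := algebraMap R A t - f with hg
      have ht : algebraMap R A t = f + g := by rw [hg]; abel
      rw [ht]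
      have hfg : Commute f g := hc
      -- (f+g)(f^{k+1}+g^{k+1}) - fg(f^k+g^k) = f^{k+2}+g^{k+2}
      have e1 : f * g ^ (k + 1) = f * g * g ^ k := by rw [mul_assoc, ← pow_succ']
      have e2 : g * f ^ (k + 1) = f * g * f ^ k := by
        rw [hfg.eq, mul_assoc, ← pow_succ']
      calc (f + g) * (f ^ (k + 1) + g ^ (k + 1)) - f * g * (f ^ k + g ^ k)
          = f * f ^ (k + 1) + g * g ^ (k + 1) + (f * g ^ (k + 1) + g * f ^ (k + 1)
            - (f * g * f ^ k + f * g * g ^ k)) := by noncomm_ring
        _ = f ^ (k + 2) + g ^ (k + 2) := by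
          rw [e1, e2, ← pow_succ', ← pow_succ']
          abel

/-- If `f² - t f + d = 0` then `(f^k)² - D_k(t,d) f^k + d^k = 0`. -/
theorem pow_quadratic {f : A} {t d : R}
    (hf : f * f - algebraMap R A t * f + algebraMap R A d = 0) (k : ℕ) :
    f ^ k * f ^ k - algebraMap R A (dick t d k) * f ^ k + algebraMap R A (d ^ k) = 0 := by
  have hc : Commute f (algebraMap R A t - f) :=
    Commute.sub_right (Algebra.commutes t f).symm (Commute.refl f)
  have hd : f * (algebraMap R A t - f) = algebraMap R A d := by
    rw [mul_sub, ← Algebra.commutes t f]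
    rw [← sub_eq_zero, ← neg_eq_zero, ← hf]
    abel
  rw [algebraMap_dick hf k, map_pow, ← hd, hc.mul_pow]
  set g := algebraMap R A t - f
  have hfg : Commute (f ^ k) (g ^ k) := hc.pow_pow k k
  rw [add_mul, hfg.eq]
  abel

end

section Matrix

variable {R : Type*} [CommRing R]

theorem matrix_quadratic (M : Matrix (Fin 2) (Fin 2) R) :
    M * M - algebraMap R _ M.trace * M + algebraMap R _ M.det = 0 := by
  rw [Matrix.trace_fin_two, Matrix.det_fin_two, Matrix.algebraMap_eq_diagonal,
    Matrix.algebraMap_eq_diagonal]
  ext i j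
  fin_cases i <;> fin_cases j <;>
    simp [Matrix.mul_apply, Matrix.diagonal_apply, Fin.sum_univ_two] <;> ring

theorem matrix_trace_pow (M : Matrix (Fin 2) (Fin 2) R) :
    ∀ k, (M ^ k).trace = dick M.trace M.det k
  | 0 => by simp
  | 1 => by simp
  | (k + 2) => by
    rw [dick_add_two, ← matrix_trace_pow M (k + 1), ← matrix_trace_pow M k]
    have h := matrix_quadratic M
    have h2 : M ^ (k + 2) = algebraMap R _ M.trace * M ^ (k + 1) -
        algebraMap R _ M.det * M ^ k := by
      have h3 : M * M = algebraMap R _ M.trace * M - algebraMap R _ M.det := by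
        rw [← sub_eq_zero, ← h]; abel
      calc M ^ (k + 2) = (M * M) * M ^ k := by rw [pow_succ', pow_succ', mul_assoc]
        _ = _ := by rw [h3, sub_mul, mul_assoc, ← pow_succ']
    rw [h2, Matrix.trace_sub, ← Algebra.smul_def, ← Algebra.smul_def, Matrix.trace_smul,
      Matrix.trace_smul, smul_eq_mul, smul_eq_mul]

end Matrix

section LinearMap

variable {R V : Type*} [CommRing R] [AddCommGroup V] [Module R V] [Module.Free R V]
  [Module.Finite R V]

/-- trace of a power of an endomorphism of a free rank two module -/
theorem trace_pow_of_finrank_two (h2 : Module.finrank R V = 2) (f : Module.End R V) (k : ℕ) :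
    LinearMap.trace R V (f ^ k) = dick (LinearMap.trace R V f) (LinearMap.det f) k := by
  rcases subsingleton_or_nontrivial R with h | h
  · exact Subsingleton.elim _ _
  let b := Module.finBasisOfFinrankEq R V h2
  rw [LinearMap.trace_eq_matrix_trace R b, LinearMap.trace_eq_matrix_trace R b,
    ← LinearMap.det_toMatrix b, ← matrix_trace_pow]
  congr 1
  exact map_pow (LinearMap.toMatrixAlgEquiv b) f k

theorem quadratic_of_finrank_two (h2 : Module.finrank R V = 2) (f : Module.End R V) :
    f * f - algebraMap R _ (LinearMap.trace R V f) * f + algebraMap R _ (LinearMap.det f) = 0 := by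
  rcases subsingleton_or_nontrivial R with h | h
  · exact @Subsingleton.elim _ (Module.subsingleton R _) _ _
  let b := Module.finBasisOfFinrankEq R V h2
  apply (LinearMap.toMatrixAlgEquiv b).injective
  have := matrix_quadratic (LinearMap.toMatrixAlgEquiv b f)
  rw [map_add, map_sub, map_mul, map_mul, map_zero, AlgEquiv.commutes, AlgEquiv.commutes]
  rw [LinearMap.trace_eq_matrix_trace R b, ← LinearMap.det_toMatrix b]
  exact this

end LinearMap

end Fermat.Agent.RepTwo
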