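import Mathlib
import Fermat.Prelude.Def_CuspForm_HeckeAlgebra
import Fermat.Prelude.Def_GaloisRep_Adic
import Fermat.Agent.RepTwo.Dickson
import Fermat.Agent.Frob.Basic

/-!
# Abstract Eichler–Shimura modules

`ESModule N p S n` is a Galois module with commuting Hecke operators `T_ℓ` (`ℓ ∉ S`, `ℓ ∤ N`),
unramified outside `N p`, on which all Frobenius elements satisfy the Eichler–Shimura relation
and on which the Hecke algebra acts faithfully modulo `p ^ n`.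
(In the application, `V = J₀(N)[p^m]` for `m` large with respect to `n`.)
-/

set_option autoImplicit false

open Polynomial

namespace Fermat.Agent.RepTwo

/-- The absolute Galois group of `ℚ`. -/
abbrev GQ : Type := AlgebraicClosure ℚ ≃ₐ[ℚ] AlgebraicClosure ℚ

/-- primes away from `N` and `S` -/
abbrev GoodPrime (N : ℕ) (S : Set ℕ) : Type := {ℓ : ℕ // ℓ.Prime ∧ ¬ ℓ ∣ N ∧ ℓ ∉ S}

/-- polynomials in the Hecke operators `T_ℓ`, `ℓ` prime, `ℓ ∤ N`, `ℓ ∉ S`. -/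
abbrev HeckePoly (N : ℕ) (S : Set ℕ) : Type := MvPolynomial (GoodPrime N S) ℤ

/-- evaluation of Hecke polynomials in the Hecke algebra of cusp forms. -/
noncomputable def evalHecke (N : ℕ) [NeZero N] (S : Set ℕ) :
    HeckePoly N S →ₐ[ℤ] CuspForm.heckeAlgebra N 2 S :=
  MvPolynomial.aeval fun ℓ => CuspForm.heckeAlgebra.T ℓ.2.1 ℓ.2.2.1 ℓ.2.2.2

@[simp] theorem evalHecke_X {N : ℕ} [NeZero N] {S : Set ℕ} (ℓ : GoodPrime N S) :
    evalHecke N S (MvPolynomial.X ℓ) = CuspForm.heckeAlgebra.T ℓ.2.1 ℓ.2.2.1 ℓ.2.2.2 :=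
  MvPolynomial.aeval_X _ _

/-- An Eichler–Shimura module of precision `n`. -/
structure ESModule (N p : ℕ) [NeZero N] (S : Set ℕ) (n : ℕ) : Type 1 where
  V : Type
  [instAddCommGroup : AddCommGroup V]
  [instModule : Module (HeckePoly N S) V]
  /-- the Galois action, commuting with the Hecke operators -/
  act : GQ →* Module.End (HeckePoly N S) V
  torsion : ∃ m : ℕ, ∀ x : V, (p ^ m : ℕ) • x = 0
  finiteLevel : GaloisFactorsThroughFiniteLevel act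
  unramified : ∀ q : ℕ, q.Prime → ¬ q ∣ N * p →
    ∀ A : ValuationSubring (AlgebraicClosure ℚ), A.LiesOverPrime q →
      ∀ σ ∈ A.inertiaSubgroupIn ℚ, act σ = 1
  frobenius : ∀ ℓ : GoodPrime N S, (ℓ : ℕ) ≠ p →
    ∀ A : ValuationSubring (AlgebraicClosure ℚ), A.LiesOverPrime (ℓ : ℕ) →
      ∀ σ : GQ, A.IsFrobeniusAt σ (ℓ : ℕ) →
        act σ * act σ - algebraMap (HeckePoly N S) _ (MvPolynomial.X ℓ) * act σ
          + algebraMap (HeckePoly N S) _ ((ℓ : ℕ) : HeckePoly N S) = 0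
  faithful : ∀ t : HeckePoly N S, (∀ v : V, t • v = 0) →
    ∃ u : CuspForm.heckeAlgebra N 2 S, evalHecke N S t = (p ^ n : ℕ) • u

attribute [instance] ESModule.instAddCommGroup ESModule.instModule

/-- The Frobenius density theorem in the form used here. -/
def FrobeniusDensity : Prop :=
  ∀ (L : IntermediateField ℚ (AlgebraicClosure ℚ)) [FiniteDimensional ℚ L] (σ : GQ) (B : ℕ),
    ∃ ℓ : ℕ, ℓ.Prime ∧ B < ℓ ∧ ∃ A : ValuationSubring (AlgebraicClosure ℚ), A.LiesOverPrime ℓ ∧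
      ∃ τ : GQ, A.IsFrobeniusAt τ ℓ ∧ ∃ k : ℕ, ∀ x ∈ L, σ x = (τ ^ k) x

section Cyclotomic

open Fermat.Agent.Frob

variable {L : Type*} [Field L]

theorem mul_mem_nonunits {A : ValuationSubring L} {x y : L} (hx : x ∈ A.nonunits) (hy : y ∈ A) :
    x * y ∈ A.nonunits := by
  rw [ValuationSubring.mem_nonunits_iff] at *
  rw [map_mul]
  exact mul_lt_one_of_lt_of_le hx ((A.valuation_le_one_iff _).2 hy)

/-- a root of unity of order prime to the residue characteristic which is `1` modulo the maximal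
ideal is `1`. -/
theorem eq_one_of_sub_one_mem_nonunits {A : ValuationSubring L} {n : ℕ} {ζ : L} (hζ : ζ ^ n = 1)
    (hA : ζ ∈ A) (hn : (n : L) ∉ A.nonunits) (h : ζ - 1 ∈ A.nonunits) : ζ = 1 := by
  by_contra hne
  have hsub : ζ - 1 ≠ 0 := sub_ne_zero.mpr hne
  have hsum : ∑ i ∈ Finset.range n, ζ ^ i = 0 := by
    have h1 : (∑ i ∈ Finset.range n, ζ ^ i) * (ζ - 1) = 0 := by
      rw [geom_sum_mul, hζ, sub_self]
    exact (mul_eq_zero.mp h1).resolve_right hsub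
  apply hn
  -- `n = n - ∑ ζ^i = - ∑ (ζ^i - 1)`, each term divisible by `ζ - 1`
  have h1 : (n : L) = (ζ - 1) * (- ∑ i ∈ Finset.range n, ∑ j ∈ Finset.range i, ζ ^ j) := by
    rw [mul_neg, Finset.mul_sum]
    have : ∀ i ∈ Finset.range n, (ζ - 1) * ∑ j ∈ Finset.range i, ζ ^ j = ζ ^ i - 1 :=
      fun i _ => mul_geom_sum ζ i
    rw [Finset.sum_congr rfl this, Finset.sum_sub_distrib, hsum]
    simp
  rw [h1]
  refine mul_mem_nonunits h (neg_mem (sum_mem fun i _ => sum_mem fun j _ => pow_mem hA j))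

theorem rootOfUnity_mem (A : ValuationSubring L) {n : ℕ} (hn : n ≠ 0) {ζ : L} (hζ : ζ ^ n = 1) :
    ζ ∈ A := by
  refine mem_of_isIntegral A ⟨X ^ n - 1, monic_X_pow_sub_C 1 hn, ?_⟩
  simp [hζ]

theorem natCast_pow_notMem_nonunits [CharZero L] (A : ValuationSubring L) {ℓ p : ℕ}
    (hℓ : ℓ.Prime) (hp : p.Prime) (hne : ℓ ≠ p) (hA : A.LiesOverPrime ℓ) (m : ℕ) :
    ((p ^ m : ℕ) : L) ∉ A.nonunits := by
  have h := natCast_notMem_nonunits A hℓ hA (a := ((p ^ m : ℕ) : ℤ)) (by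
    intro h
    have h2 : ℓ ∣ p ^ m := by exact_mod_cast h
    exact hne ((Nat.prime_dvd_prime_iff_eq hℓ hp).mp (hℓ.dvd_of_dvd_pow h2)))
  simpa using h

variable {K : Type*} [Field K] [Algebra K L]

/-- A Frobenius element at a place above `ℓ ≠ p` raises `p`-power roots of unity to the `ℓ`-th
power. -/
theorem frobenius_apply_root [CharZero L] {A : ValuationSubring L} {ℓ p m : ℕ}
    (hℓ : ℓ.Prime) (hp : p.Prime) (hne : ℓ ≠ p) (hA : A.LiesOverPrime ℓ)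
    {F : L ≃ₐ[K] L} (hF : A.IsFrobeniusAt F ℓ) {ζ : L} (hζ : ζ ^ (p ^ m) = 1) :
    F ζ = ζ ^ ℓ := by
  have hpm : p ^ m ≠ 0 := pow_ne_zero m hp.ne_zero
  have hζA : ζ ∈ A := rootOfUnity_mem A hpm hζ
  have hζ0 : ζ ≠ 0 := by
    rintro rfl
    rw [zero_pow hpm] at hζ
    exact zero_ne_one hζ
  have h1 := ((isFrobeniusAt_iff A F ℓ).mp hF).2 ζ hζA
  have hinv : (ζ ^ ℓ)⁻¹ ^ (p ^ m) = 1 := by
    rw [inv_pow, ← pow_mul, mul_comm, pow_mul, hζ, one_pow, inv_one]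
  have hz : (F ζ * (ζ ^ ℓ)⁻¹) ^ (p ^ m) = 1 := by
    rw [mul_pow, hinv, mul_one, ← map_pow, hζ, map_one]
  have h2 : F ζ * (ζ ^ ℓ)⁻¹ - 1 ∈ A.nonunits := by
    have := mul_mem_nonunits h1 (rootOfUnity_mem A hpm hinv)
    rwa [sub_mul, mul_inv_cancel₀ (pow_ne_zero _ hζ0)] at this
  have h3 := eq_one_of_sub_one_mem_nonunits hz (rootOfUnity_mem A hpm hz)
    (natCast_pow_notMem_nonunits A hℓ hp hne hA m) h2
  rwa [mul_inv_eq_one₀ (pow_ne_zero _ hζ0)] at h3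

/-- inertia at a place above `ℓ ≠ p` fixes `p`-power roots of unity. -/
theorem inertia_apply_root [CharZero L] {A : ValuationSubring L} {ℓ p m : ℕ}
    (hℓ : ℓ.Prime) (hp : p.Prime) (hne : ℓ ≠ p) (hA : A.LiesOverPrime ℓ)
    {F : L ≃ₐ[K] L} (hF : F ∈ A.inertiaSubgroupIn K) {ζ : L} (hζ : ζ ^ (p ^ m) = 1) :
    F ζ = ζ := by
  have hpm : p ^ m ≠ 0 := pow_ne_zero m hp.ne_zero
  have hζA : ζ ∈ A := rootOfUnity_mem A hpm hζ
  have hζ0 : ζ ≠ 0 := by
    rintro rfl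
    rw [zero_pow hpm] at hζ
    exact zero_ne_one hζ
  have h1 := ((mem_inertiaSubgroupIn_iff A F).mp hF).2 ζ hζA
  have hinv : (ζ)⁻¹ ^ (p ^ m) = 1 := by
    rw [inv_pow, hζ, inv_one]
  have hz : (F ζ * ζ⁻¹) ^ (p ^ m) = 1 := by
    rw [mul_pow, hinv, mul_one, ← map_pow, hζ, map_one]
  have h2 : F ζ * ζ⁻¹ - 1 ∈ A.nonunits := by
    have := mul_mem_nonunits h1 (rootOfUnity_mem A hpm hinv)
    rwa [sub_mul, mul_inv_cancel₀ hζ0] at this
  have h3 := eq_one_of_sub_one_mem_nonunits hz (rootOfUnity_mem A hpm hz)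
    (natCast_pow_notMem_nonunits A hℓ hp hne hA m) h2
  rwa [mul_inv_eq_one₀ hζ0] at h3

theorem pow_apply_root {F : L ≃ₐ[K] L} {ζ : L} {ℓ : ℕ} (h : F ζ = ζ ^ ℓ) (k : ℕ) :
    (F ^ k) ζ = ζ ^ (ℓ ^ k) := by
  induction k with
  | zero => simp
  | succ k ih =>
    rw [pow_succ', AlgEquiv.mul_apply, ih, map_pow, h, ← pow_mul, pow_succ, mul_comm]

end Cyclotomic

end Fermat.Agent.RepTwo
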