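import Fermat.Agent.RepTwo.FiniteLevel
import Fermat.Agent.JZ.Galois
import Fermat.Agent.Top.Faithful

/-!
From geometric facts on `JZero N` to the abstract Eichler–Shimura input `HasESEigen`.
-/

set_option autoImplicit false

namespace Fermat.Agent.RepTwo

open Module TensorProduct CuspForm ModularFormClass AlgebraicCurve ModularCurve Fermat.Agent.Top

local notation "Γℚ" => (AlgebraicClosure ℚ ≃ₐ[ℚ] AlgebraicClosure ℚ)
local notation "ℤbar" => integralClosure ℤ ℂ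

/-- The lattice `M = Hom_par(Γ₀(N), ℤ)` modulo `m` embeds Hecke-equivariantly in `J₀(N)[m]`. -/
def SupportMap (N m : ℕ) [NeZero N] : Prop :=
  ∃ ι : parM N ℤ →+ JZero N, (∀ φ, m • ι φ = 0) ∧ (∀ φ, ι φ = 0 → ∃ φ', φ = m • φ') ∧
    ∀ ℓ : Nat.Primes, ¬ (ℓ : ℕ) ∣ N → ∀ φ, ι (hopPar N ℤ ℓ φ) = heckeOperatorBar N ℓ (ι φ)

/-- Open stabilisers on the torsion of `JZero N`. -/
def TorsionLevel (N m : ℕ) : Prop :=
  ∀ x : JZero N, m • x = 0 → ∃ E : IntermediateField ℚ (AlgebraicClosure ℚ),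
    FiniteDimensional ℚ E ∧ ∀ σ : Γℚ, (∀ y ∈ E, σ y = y) → σ • x = x

section Specialization

variable {K L : Type*} [Field K] [Field L] [Algebra K L] {N p : ℕ} {J : Type*} [AddCommGroup J]
  [Module HeckeAlg J] [DistribMulAction (L ≃ₐ[K] L) J] [SMulCommClass (L ≃ₐ[K] L) HeckeAlg J]

theorem unramifiedOutside_of_specializationExists
    (h : SpecializationExists (K := K) (L := L) N p J) :
    UnramifiedOutside (K := K) (L := L) N p J := by
  intro ℓ hℓ hd A hA σ hσ x ⟨n, hn⟩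
  obtain ⟨J', _, _, sp, F, hsp, -⟩ := h ℓ hℓ hd A hA
  rw [← sub_eq_zero]
  apply hsp.injective_torsion
  · refine ⟨n, ?_⟩
    have h1 : p ^ n • σ • x = σ • (p ^ n • x) :=
      (map_nsmul (DistribSMul.toAddMonoidHom J σ) (p ^ n) x).symm
    rw [nsmul_sub, h1, hn, smul_zero, sub_zero]
  · rw [map_sub, hsp.inertia_comm σ hσ, sub_self]

theorem frobeniusQuadratic_of_specializationExists
    (h : SpecializationExists (K := K) (L := L) N p J) :
    FrobeniusQuadratic (K := K) (L := L) N p J := by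
  intro ℓ hℓ hd A hA σ hσ x ⟨n, hn⟩
  obtain ⟨J', _, _, sp, F, hsp, hrel⟩ := h ℓ hℓ hd A hA
  have hσn : ∀ y : J, p ^ n • y = 0 → p ^ n • σ • y = 0 := by
    intro y hy
    have h1 : p ^ n • σ • y = σ • (p ^ n • y) :=
      (map_nsmul (DistribSMul.toAddMonoidHom J σ) (p ^ n) y).symm
    rw [h1, hy, smul_zero]
  apply hsp.injective_torsion
  · refine ⟨n, ?_⟩
    have h1 : p ^ n • heckeGen ⟨ℓ, hℓ⟩ • σ • x = heckeGen ⟨ℓ, hℓ⟩ • (p ^ n • σ • x) :=
      (map_nsmul (DistribSMul.toAddMonoidHom J (heckeGen ⟨ℓ, hℓ⟩)) (p ^ n) (σ • x)).symm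
    have h2 : p ^ n • ℓ • x = ℓ • (p ^ n • x) := smul_comm _ _ _
    rw [nsmul_add, nsmul_sub, hσn _ (hσn _ hn), h1, hσn _ hn, smul_zero, h2, hn, smul_zero,
      sub_zero, add_zero]
  · rw [map_add, map_sub, hsp.frobenius_comm σ hσ, hsp.frobenius_comm σ hσ, hsp.hecke_comm,
      hsp.frobenius_comm σ hσ, map_nsmul]
    exact hrel _

end Specialization

/-- The Eichler–Shimura relation and unramifiedness for the `p`-power torsion of `JZero N`. -/
structure JZeroES (N p : ℕ) [NeZero N] : Prop where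
  unram : ∀ ℓ : ℕ, ℓ.Prime → ¬ ℓ ∣ N * p → ∀ A : ValuationSubring (AlgebraicClosure ℚ),
    A.LiesOverPrime ℓ → ∀ σ ∈ A.inertiaSubgroupIn ℚ, ∀ x : JZero N,
      (∃ n : ℕ, p ^ n • x = 0) → σ • x = x
  frob : ∀ ℓ : ℕ, (hℓ : ℓ.Prime) → ¬ ℓ ∣ N * p → ∀ A : ValuationSubring (AlgebraicClosure ℚ),
    A.LiesOverPrime ℓ → ∀ σ : Γℚ, A.IsFrobeniusAt σ ℓ → ∀ x : JZero N,
      (∃ n : ℕ, p ^ n • x = 0) →
        σ • σ • x - heckeOperatorBar N ⟨ℓ, hℓ⟩ (σ • x) + ℓ • x = 0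

/-- `JZeroES` from the conclusion of `S37`. -/
theorem jzeroES_of_specializationExists {N p : ℕ} [NeZero N] (hcomm : HeckeOperatorsCommuteBar N)
    (h : letI := heckeModuleBar N
      ∀ (_ : SMulCommClass Γℚ HeckeAlg (JZero N)),
        SpecializationExists (K := ℚ) (L := AlgebraicClosure ℚ) N p (JZero N)) :
    JZeroES N p := by
  letI := heckeModuleBar N
  haveI := JZ.smulCommClass_heckeModuleBar N
  have h' := h inferInstance
  refine ⟨?_, ?_⟩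
  · exact unramifiedOutside_of_specializationExists h'
  · intro ℓ hℓ hd A hA σ hσ x hx
    have h1 := frobeniusQuadratic_of_specializationExists h' ℓ hℓ hd A hA σ hσ x hx
    have h2 : heckeGen ⟨ℓ, hℓ⟩ • σ • x = heckeOperatorBar N ⟨ℓ, hℓ⟩ (σ • x) :=
      heckeModuleBar_heckeGen_smul hcomm ⟨ℓ, hℓ⟩ (σ • x)
    rw [← h2]
    exact h1

section Abstract

variable (J : Type) [AddCommGroup J] (p : ℕ)

/-- the `p`-torsion of an abelian group -/
def pTor : AddSubgroup J := (nsmulAddMonoidHom (α := J) p).ker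

variable {J p}

theorem mem_pTor {x : J} : x ∈ pTor J p ↔ p • x = 0 := Iff.rfl

noncomputable instance instModulePTor : Module (ZMod p) (pTor J p) :=
  AddCommGroup.zmodModule fun x => Subtype.ext (by
    rw [AddSubgroupClass.coe_nsmul]; exact x.2)

/-- the restriction of an endomorphism to the `p`-torsion -/
noncomputable def pTorEnd (f : J →+ J) : Module.End (ZMod p) (pTor J p) :=
  AddMonoidHom.toZModLinearMap p
    ((f.comp (pTor J p).subtype).codRestrict (pTor J p) (fun x => by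
      rw [mem_pTor, AddMonoidHom.comp_apply, ← map_nsmul]
      have := mem_pTor.mp x.2
      rw [AddSubgroup.subtype_apply, this, map_zero]))

@[simp] theorem coe_pTorEnd_apply (f : J →+ J) (x : pTor J p) :
    ((pTorEnd f x : pTor J p) : J) = f x := rfl

variable [DistribMulAction Γℚ J]

variable (J p) in
/-- the Galois representation on the `p`-torsion -/
noncomputable def pTorRep : Γℚ →* Module.End (ZMod p) (pTor J p) where
  toFun σ := pTorEnd (DistribSMul.toAddMonoidHom J σ)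
  map_one' := LinearMap.ext fun x => Subtype.ext (one_smul Γℚ (x : J))
  map_mul' σ τ := LinearMap.ext fun x => Subtype.ext (mul_smul σ τ (x : J))

@[simp] theorem coe_pTorRep_apply (σ : Γℚ) (x : pTor J p) :
    ((pTorRep J p σ x : pTor J p) : J) = σ • (x : J) := rfl

/-- Abstract Eichler–Shimura data on the `p`-torsion of a Galois module with operators. -/
theorem isESMod_pTor {B : ℕ} [Fact p.Prime] (T : ℕ → J →+ J) [Finite (pTor J p)]
    (hlevel : ∀ x : J, p • x = 0 → ∃ E : IntermediateField ℚ (AlgebraicClosure ℚ),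
      FiniteDimensional ℚ E ∧ ∀ σ : Γℚ, (∀ y ∈ E, σ y = y) → σ • x = x)
    (hcommσ : ∀ (σ : Γℚ) (ℓ : ℕ), ℓ.Prime → ¬ ℓ ∣ B → ∀ x : J, p • x = 0 →
      σ • T ℓ x = T ℓ (σ • x))
    (hunram : ∀ ℓ : ℕ, ℓ.Prime → ¬ ℓ ∣ B → ∀ A : ValuationSubring (AlgebraicClosure ℚ),
      A.LiesOverPrime ℓ → ∀ σ ∈ A.inertiaSubgroupIn ℚ, ∀ x : J, p • x = 0 → σ • x = x)
    (hfrob : ∀ ℓ : ℕ, ℓ.Prime → ¬ ℓ ∣ B → ∀ A : ValuationSubring (AlgebraicClosure ℚ),
      A.LiesOverPrime ℓ → ∀ σ : Γℚ, A.IsFrobeniusAt σ ℓ → ∀ x : J, p • x = 0 →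
        σ • σ • x - T ℓ (σ • x) + ℓ • x = 0) :
    IsESMod p B (pTorRep J p) (fun ℓ => pTorEnd (T ℓ)) := by
  refine ⟨?_, ?_, ?_, ?_⟩
  · refine factors_of_finite (pTorRep J p) fun x => ?_
    obtain ⟨E, hE, h⟩ := hlevel x x.2
    exact ⟨E, hE, fun σ hσ => Subtype.ext (h σ hσ)⟩
  · intro σ ℓ hℓ hd
    exact LinearMap.ext fun x => Subtype.ext (hcommσ σ ℓ hℓ hd x x.2)
  · intro ℓ hℓ hd A hA σ hσ
    exact LinearMap.ext fun x => Subtype.ext (hunram ℓ hℓ hd A hA σ hσ x x.2)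
  · intro ℓ hℓ hd A hA σ hσ
    refine LinearMap.ext fun x => Subtype.ext ?_
    have h1 := hfrob ℓ hℓ hd A hA σ hσ x x.2
    rw [LinearMap.add_apply, LinearMap.sub_apply, Module.End.mul_apply, Module.End.mul_apply,
      LinearMap.smul_apply, Module.End.one_apply, LinearMap.zero_apply, AddSubgroup.coe_add,
      AddSubgroupClass.coe_sub, Nat.cast_smul_eq_nsmul, AddSubgroupClass.coe_nsmul]
    exact h1

/-- the eigenvector in the `p`-torsion -/
theorem exists_eigenvector_pTor [Fact p.Prime] [Finite (pTor J p)] {N : ℕ} [NeZero N]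
    (T : Nat.Primes → J →+ J) (hcomm : ∀ ℓ ℓ' : Nat.Primes, ∀ x, T ℓ (T ℓ' x) = T ℓ' (T ℓ x))
    (ι : parM N ℤ →+ J) (hι1 : ∀ φ, p • ι φ = 0) (hι2 : ∀ φ, ι φ = 0 → ∃ φ', φ = p • φ')
    (hι3 : ∀ ℓ : Nat.Primes, ¬ (ℓ : ℕ) ∣ N → ∀ φ, ι (hopPar N ℤ ℓ φ) = T ℓ (ι φ))
    {g : CuspForm (CongruenceSubgroup.Gamma0 N) 2} (hg : g.IsNormalizedEigenform)
    (K : Type) [Field K] [Algebra (ZMod p) K] (ψ : ℤbar →+* K) :
    ∃ x : K ⊗[ZMod p] (pTor J p), x ≠ 0 ∧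
      ∀ ℓ : Nat.Primes, ¬ (ℓ : ℕ) ∣ N * p → ∀ a : ℤbar, (a : ℂ) = qCoeff g ℓ →
        (pTorEnd (p := p) (T ℓ)).baseChange K x = ψ a • x := by
  classical
  have hchar : (p : K) = 0 := by
    have : ((p : ZMod p) : ZMod p) = 0 := ZMod.natCast_self p
    rw [← map_natCast (algebraMap (ZMod p) K), this, map_zero]
  obtain ⟨χ, hχ1, hχ2⟩ := exists_eigenChar_mod_p hg hchar ψ
  let S : Set ℕ := {p}
  let T' : GoodPrime N S → Module.End (ZMod p) (pTor J p) := fun i => pTorEnd (T ⟨i.1, i.2.1⟩)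
  have hTcomm : ∀ i j, T' i * T' j = T' j * T' i := by
    intro i j
    exact LinearMap.ext fun x => Subtype.ext (hcomm ⟨i.1, i.2.1⟩ ⟨j.1, j.2.1⟩ x)
  let Φ : HeckePoly N S →+* Module.End (ZMod p) (pTor J p) := (evalEnd T' hTcomm).toRingHom
  -- `ι` with values in the torsion
  let ι' : parM N ℤ →+ pTor J p := ι.codRestrict (pTor J p) hι1
  let T'' : GoodPrime N S → Module.End ℤ (parM N ℤ) := fun i => hopPar N ℤ ⟨i.1, i.2.1⟩
  have hT'' : ∀ i j, T'' i * T'' j = T'' j * T'' i := fun i j => hopPar_comm N ℤ _ _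
  have h3 : ∀ t : HeckePoly N S, evalPar N ℤ (polyIncl N S t) = evalEnd T'' hT'' t := by
    intro t
    refine eq_evalEnd (T := T'') hT'' ((evalPar N ℤ).toRingHom.comp (polyIncl N S).toRingHom)
      (fun i => ?_) t
    show evalPar N ℤ (polyIncl N S (MvPolynomial.X i)) = _
    rw [polyIncl_X]
    exact evalEnd_X _ (hopPar_comm N ℤ) (⟨i.1, i.2.1⟩ : Nat.Primes)
  have hker : RingHom.ker Φ ≤ RingHom.ker (χ.comp (polyIncl N S).toRingHom) := by
    intro t ht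
    rw [RingHom.mem_ker] at ht ⊢
    rw [RingHom.comp_apply]
    apply hχ2
    intro φ
    apply hι2
    have h2 : ι' (evalEnd T'' hT'' t φ) = evalEnd T' hTcomm t (ι' φ) :=
      evalEnd_natural hT'' hTcomm ι' (fun i φ => Subtype.ext (hι3 ⟨i.1, i.2.1⟩ i.2.2.1 φ)) t φ
    have h4 : evalEnd T' hTcomm t = 0 := ht
    rw [h4, LinearMap.zero_apply] at h2
    have h5 : evalPar N ℤ ((polyIncl N S).toRingHom t) φ = evalEnd T'' hT'' t φ :=
      DFunLike.congr_fun (h3 t) φ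
    rw [h5]
    exact congrArg Subtype.val h2
  haveI : FiniteDimensional (ZMod p) (pTor J p) := Module.Finite.of_finite
  obtain ⟨x, hx0, hx⟩ := exists_eigenvector_of_ker_le Φ (χ.comp (polyIncl N S).toRingHom) hker
  refine ⟨x, hx0, fun ℓ hd a ha => ?_⟩
  have hℓN : ¬ (ℓ : ℕ) ∣ N := fun h => hd (h.mul_right p)
  have hℓp : (ℓ : ℕ) ∉ S := fun h => hd ((Set.mem_singleton_iff.mp h) ▸ dvd_mul_left p N)
  have h1 := hx (MvPolynomial.X ⟨ℓ, ℓ.2, hℓN, hℓp⟩)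
  have h2 : Φ (MvPolynomial.X ⟨ℓ, ℓ.2, hℓN, hℓp⟩) = pTorEnd (T ℓ) := evalEnd_X _ hTcomm _
  have h4 : (χ.comp (polyIncl N S).toRingHom) (MvPolynomial.X ⟨ℓ, ℓ.2, hℓN, hℓp⟩) = ψ a := by
    rw [RingHom.comp_apply]
    have h5 : (polyIncl N S).toRingHom (MvPolynomial.X ⟨ℓ, ℓ.2, hℓN, hℓp⟩) = heckeGen ℓ :=
      polyIncl_X _
    rw [h5]
    exact hχ1 ℓ a ha
  rw [h2, h4] at h1
  exact h1

end Abstract

/-- **`HasESEigen` from the geometry of `JZero N`.** -/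
theorem hasESEigen_of_jzero {N p : ℕ} [NeZero N] [Fact p.Prime]
    (hfin : Finite (pTor (JZero N) p))
    (hlevel : TorsionLevel N p) (hcomm : HeckeOperatorsCommuteBar N)
    (hES : JZeroES N p) (hsupp : SupportMap N p)
    {g : CuspForm (CongruenceSubgroup.Gamma0 N) 2} (hg : g.IsNormalizedEigenform)
    (K : Type) [Field K] [Algebra (ZMod p) K] (ψ : ℤbar →+* K) : HasESEigen p N g K ψ := by
  classical
  let T : ℕ → JZero N →+ JZero N := fun ℓ =>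
    if h : ℓ.Prime then (heckeOperatorBar N ⟨ℓ, h⟩).toAddMonoidHom else 0
  have hT : ∀ (ℓ : ℕ) (h : ℓ.Prime), T ℓ = (heckeOperatorBar N ⟨ℓ, h⟩).toAddMonoidHom :=
    fun ℓ h => dif_pos h
  have hp1 : ∀ x : JZero N, p • x = 0 → ∃ n : ℕ, p ^ n • x = 0 := fun x hx =>
    ⟨1, by rw [pow_one]; exact hx⟩
  have hMod := isESMod_pTor (J := JZero N) (p := p) (B := N * p) T hlevel
    (fun σ ℓ hℓ _ x _ => by rw [hT ℓ hℓ]; exact (JZ.heckeOperatorBar_smul ⟨ℓ, hℓ⟩ σ x).symm)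
    (fun ℓ hℓ hd A hA σ hσ x hx => hES.unram ℓ hℓ hd A hA σ hσ x (hp1 x hx))
    (fun ℓ hℓ hd A hA σ hσ x hx => by
      rw [hT ℓ hℓ]; exact hES.frob ℓ hℓ hd A hA σ hσ x (hp1 x hx))
  obtain ⟨ι, hι1, hι2, hι3⟩ := hsupp
  obtain ⟨x, hx0, hx⟩ := exists_eigenvector_pTor (J := JZero N) (p := p) (N := N)
    (fun ℓ => (heckeOperatorBar N ℓ).toAddMonoidHom)
    (fun ℓ ℓ' x => DFunLike.congr_fun (hcomm ℓ ℓ') x) ι hι1 hι2 hι3 hg K ψ
  refine ⟨pTor (JZero N) p, inferInstance, inferInstance, hfin, pTorRep (JZero N) p,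
    fun ℓ => pTorEnd (T ℓ), hMod, x, hx0, fun ℓ hℓ hd a ha => ?_⟩
  have h1 := hx ⟨ℓ, hℓ⟩ hd a ha
  show (LinearMap.baseChange K (pTorEnd (T ℓ))) x = ψ a • x
  rw [hT ℓ hℓ]
  exact h1

end Fermat.Agent.RepTwo
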