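import Mathlib
import Fermat.Agent.RepTwo.JZeroES
import Fermat.Agent.RepTwo.ESData

/-!
# The torsion of `JZero N` as Eichler–Shimura modules of every precision
-/

set_option autoImplicit false

namespace Fermat.Agent.RepTwo

open Module CuspForm ModularFormClass AlgebraicCurve ModularCurve Fermat.Agent.Top

local notation "Γℚ" => (AlgebraicClosure ℚ ≃ₐ[ℚ] AlgebraicClosure ℚ)

section Abstract

variable {N : ℕ} [NeZero N] {S : Set ℕ} {J : Type} [AddCommGroup J] [DistribMulAction Γℚ J]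

/-- Commuting Hecke operators on a Galois module. -/
structure HeckeOps (N : ℕ) (S : Set ℕ) (J : Type) [AddCommGroup J]
    [DistribMulAction Γℚ J] where
  T : GoodPrime N S → Module.End ℤ J
  comm : ∀ i j, T i * T j = T j * T i
  gal : ∀ i (σ : Γℚ) (x : J), T i (σ • x) = σ • T i x

/-- Hecke polynomials acting on `J`. -/
noncomputable def HeckeOps.ev (H : HeckeOps N S J) : HeckePoly N S →ₐ[ℤ] Module.End ℤ J :=
  evalEnd H.T H.comm

omit [NeZero N] in
theorem HeckeOps.ev_X (H : HeckeOps N S J) (i : GoodPrime N S) :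
    H.ev (MvPolynomial.X i) = H.T i := evalEnd_X _ _ i

omit [NeZero N] in
theorem HeckeOps.ev_gal (H : HeckeOps N S J) (t : HeckePoly N S) (σ : Γℚ) (x : J) :
    H.ev t (σ • x) = σ • H.ev t x :=
  (evalEnd_natural H.comm H.comm (DistribSMul.toAddMonoidHom J σ)
    (fun i y => (H.gal i σ y).symm) t x).symm

/-- the torsion as a module over the Hecke polynomials -/
@[reducible] noncomputable def HeckeOps.modulePTor (H : HeckeOps N S J) (m : ℕ) :
    Module (HeckePoly N S) (pTor J m) where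
  smul t x := ⟨H.ev t x, by
    rw [mem_pTor, ← map_nsmul, mem_pTor.mp x.2, map_zero]⟩
  one_smul x := Subtype.ext (by
    change H.ev 1 (x : J) = x
    rw [map_one]; rfl)
  mul_smul s t x := Subtype.ext (by
    change H.ev (s * t) (x : J) = H.ev s (H.ev t x)
    rw [map_mul]; rfl)
  smul_zero t := Subtype.ext (map_zero (H.ev t))
  smul_add t x y := Subtype.ext (map_add (H.ev t) (x : J) y)
  add_smul s t x := Subtype.ext (by
    change H.ev (s + t) (x : J) = H.ev s x + H.ev t x
    rw [map_add]; rfl)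
  zero_smul x := Subtype.ext (by
    change H.ev 0 (x : J) = 0
    rw [map_zero]; rfl)

/-- An Eichler–Shimura module realised in a Galois module `J`. -/
structure Realized (H : HeckeOps N S J) {p : ℕ} {n : ℕ} (E : ESModule N p S n) (m : ℕ) where
  j : E.V →+ J
  inj : Function.Injective j
  mem_range : ∀ x : J, p ^ m • x = 0 ↔ ∃ v, j v = x
  act : ∀ (σ : GQ) (v : E.V), j (E.act σ v) = σ • j v
  smul : ∀ (t : HeckePoly N S) (v : E.V), j (t • v) = H.ev t (j v)

/-- Eichler–Shimura data for `p`-power torsion. -/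
structure HeckeOps.IsES (H : HeckeOps N S J) (p : ℕ) : Prop where
  finite : ∀ m : ℕ, Finite (pTor J (p ^ m))
  level : ∀ (m : ℕ) (x : J), p ^ m • x = 0 → ∃ E : IntermediateField ℚ (AlgebraicClosure ℚ),
    FiniteDimensional ℚ E ∧ ∀ σ : Γℚ, (∀ y ∈ E, σ y = y) → σ • x = x
  unram : ∀ ℓ : ℕ, ℓ.Prime → ¬ ℓ ∣ N * p → ∀ A : ValuationSubring (AlgebraicClosure ℚ),
    A.LiesOverPrime ℓ → ∀ σ ∈ A.inertiaSubgroupIn ℚ, ∀ x : J,
      (∃ n : ℕ, p ^ n • x = 0) → σ • x = x
  frob : ∀ ℓ : GoodPrime N S, ¬ (ℓ : ℕ) ∣ N * p → ∀ A : ValuationSubring (AlgebraicClosure ℚ),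
    A.LiesOverPrime ℓ → ∀ σ : Γℚ, A.IsFrobeniusAt σ ℓ → ∀ x : J,
      (∃ n : ℕ, p ^ n • x = 0) → σ • σ • x - H.T ℓ (σ • x) + (ℓ : ℕ) • x = 0
  support : ∀ m : ℕ, ∃ ι : parM N ℤ →+ J, (∀ φ, p ^ m • ι φ = 0) ∧
    (∀ φ, ι φ = 0 → ∃ φ', φ = p ^ m • φ') ∧
    ∀ (i : GoodPrime N S) φ, ι (hopPar N ℤ ⟨i.1, i.2.1⟩ φ) = H.T i (ι φ)

/-- the Galois action on the torsion -/
noncomputable def HeckeOps.actPTor (H : HeckeOps N S J) (m : ℕ) :
    letI := H.modulePTor m
    GQ →* Module.End (HeckePoly N S) (pTor J m) :=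
  letI := H.modulePTor m
  { toFun := fun σ =>
      { toFun := fun x => ⟨σ • (x : J), by
          rw [mem_pTor]
          have h1 : m • σ • (x : J) = σ • (m • (x : J)) :=
            (map_nsmul (DistribSMul.toAddMonoidHom J σ) m (x : J)).symm
          rw [h1, mem_pTor.mp x.2, smul_zero]⟩
        map_add' := fun x y => Subtype.ext (smul_add σ (x : J) y)
        map_smul' := fun t x => Subtype.ext (by
          change σ • H.ev t (x : J) = H.ev t (σ • (x : J))
          rw [H.ev_gal]) }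
    map_one' := LinearMap.ext fun x => Subtype.ext (one_smul Γℚ (x : J))
    map_mul' := fun σ τ => LinearMap.ext fun x => Subtype.ext (mul_smul σ τ (x : J)) }

theorem HeckeOps.IsES.exists_realized {H : HeckeOps N S J} {p : ℕ} [Fact p.Prime]
    (G : H.IsES p) :
    ∃ c : ℕ, ∀ n : ℕ, ∃ E : ESModule N p S n, Nonempty (Realized H E (n + c)) := by
  obtain ⟨c, hc⟩ := exists_faithful_heckePoly N S p
  refine ⟨c, fun n => ?_⟩
  set m := n + c with hm
  letI : Module (HeckePoly N S) (pTor J (p ^ m)) := H.modulePTor (p ^ m)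
  have hsm : ∀ (t : HeckePoly N S) (x : pTor J (p ^ m)),
      ((t • x : pTor J (p ^ m)) : J) = H.ev t x := fun t x => rfl
  have hfin := G.finite m
  have hX : ∀ (i : GoodPrime N S) (x : pTor J (p ^ m)),
      (((MvPolynomial.X i : HeckePoly N S) • x : pTor J (p ^ m)) : J) = H.T i x :=
    fun i x => by rw [hsm, H.ev_X]
  have hact : ∀ (σ : GQ) (x : pTor J (p ^ m)),
      ((H.actPTor (p ^ m) σ x : pTor J (p ^ m)) : J) = σ • (x : J) := fun σ x => rfl
  obtain ⟨ι, hι1, hι2, hι3⟩ := G.support m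
  have hfaith : ∀ t : HeckePoly N S, (∀ v : pTor J (p ^ m), t • v = 0) →
      ∃ u : CuspForm.heckeAlgebra N 2 S, evalHecke N S t = (p ^ n : ℕ) • u := by
    intro t ht
    have h1 := hc m (by omega) t ?_
    · obtain ⟨u, hu⟩ := h1
      exact ⟨u, by rw [hu]; congr 2; omega⟩
    · intro φ
      apply hι2
      let T'' : GoodPrime N S → Module.End ℤ (parM N ℤ) := fun i => hopPar N ℤ ⟨i.1, i.2.1⟩
      have hT'' : ∀ i j, T'' i * T'' j = T'' j * T'' i := fun i j => hopPar_comm N ℤ _ _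
      have h3 : ∀ t : HeckePoly N S, evalPar N ℤ (polyIncl N S t) = evalEnd T'' hT'' t := by
        intro t
        refine eq_evalEnd (T := T'') hT''
          ((evalPar N ℤ).toRingHom.comp (polyIncl N S).toRingHom) (fun i => ?_) t
        show evalPar N ℤ (polyIncl N S (MvPolynomial.X i)) = _
        rw [polyIncl_X]
        exact evalEnd_X _ (hopPar_comm N ℤ) (⟨i.1, i.2.1⟩ : Nat.Primes)
      have h2 : ι (evalEnd T'' hT'' t φ) = H.ev t (ι φ) :=
        evalEnd_natural hT'' H.comm ι (fun i φ => hι3 i φ) t φ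
      rw [h3, h2]
      have h4 := ht ⟨ι φ, mem_pTor.mpr (hι1 φ)⟩
      exact congrArg Subtype.val h4
  let E : ESModule N p S n :=
    { V := pTor J (p ^ m)
      act := H.actPTor (p ^ m)
      torsion := ⟨m, fun x => Subtype.ext (by
        rw [AddSubgroupClass.coe_nsmul]; exact mem_pTor.mp x.2)⟩
      finiteLevel := factors_of_finite (H.actPTor (p ^ m)) fun x => by
        obtain ⟨L, hL, h⟩ := G.level m x (mem_pTor.mp x.2)
        exact ⟨L, hL, fun σ hσ => Subtype.ext (h σ hσ)⟩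
      unramified := fun q hq hd A hA σ hσ => LinearMap.ext fun x => Subtype.ext
        (G.unram q hq hd A hA σ hσ x ⟨m, mem_pTor.mp x.2⟩)
      frobenius := fun ℓ hne A hA σ hσ => LinearMap.ext fun x => Subtype.ext (by
        have hd : ¬ (ℓ : ℕ) ∣ N * p := fun h => by
          rcases (Nat.Prime.dvd_mul ℓ.2.1).mp h with h | h
          · exact ℓ.2.2.1 h
          · exact hne ((Nat.prime_dvd_prime_iff_eq ℓ.2.1 Fact.out).mp h)
        have h1 := G.frob ℓ hd A hA σ hσ x ⟨m, mem_pTor.mp x.2⟩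
        rw [LinearMap.add_apply, LinearMap.sub_apply, Module.End.mul_apply, Module.End.mul_apply,
          Module.algebraMap_end_apply, Module.algebraMap_end_apply, LinearMap.zero_apply,
          AddSubgroup.coe_add, AddSubgroupClass.coe_sub, Nat.cast_smul_eq_nsmul,
          AddSubgroupClass.coe_nsmul, hX, hact, hact]
        exact h1)
      faithful := hfaith }
  exact ⟨E, ⟨{
    j := (pTor J (p ^ m)).subtype
    inj := Subtype.val_injective
    mem_range := fun x => ⟨fun h => ⟨⟨x, mem_pTor.mpr h⟩, rfl⟩, fun ⟨v, hv⟩ => by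
      rw [← hv]; exact mem_pTor.mp v.2⟩
    act := fun σ v => rfl
    smul := fun t v => rfl }⟩⟩

end Abstract

/-- The geometric facts on `JZero N` at a prime `p` used for `p`-adic representations. -/
structure JZeroGeom (N p : ℕ) [NeZero N] : Prop where
  finite : ∀ m : ℕ, Finite (pTor (JZero N) (p ^ m))
  level : ∀ m : ℕ, TorsionLevel N (p ^ m)
  comm : HeckeOperatorsCommuteBar N
  es : JZeroES N p
  support : ∀ m : ℕ, SupportMap N (p ^ m)

/-- the Hecke operators on `JZero N`. -/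
noncomputable def jOps {N : ℕ} [NeZero N] (hcomm : HeckeOperatorsCommuteBar N) (S : Set ℕ) :
    HeckeOps N S (JZero N) where
  T i := heckeOperatorBar N ⟨i.1, i.2.1⟩
  comm _ _ := hcomm _ _
  gal i σ x := JZ.heckeOperatorBar_smul ⟨i.1, i.2.1⟩ σ x

theorem JZeroGeom.isES {N p : ℕ} [NeZero N] (G : JZeroGeom N p) (S : Set ℕ) :
    (jOps G.comm S).IsES p where
  finite := G.finite
  level := G.level
  unram := G.es.unram
  frob ℓ := G.es.frob ℓ ℓ.2.1
  support m := by
    obtain ⟨ι, h1, h2, h3⟩ := G.support m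
    exact ⟨ι, h1, h2, fun i φ => h3 ⟨i.1, i.2.1⟩ i.2.2.1 φ⟩

theorem JZeroGeom.nonempty_esModule {N p : ℕ} [NeZero N] [Fact p.Prime] (G : JZeroGeom N p)
    (S : Set ℕ) (n : ℕ) : Nonempty (ESModule N p S n) := by
  obtain ⟨c, h⟩ := (G.isES S).exists_realized
  obtain ⟨E, -⟩ := h n
  exact ⟨E⟩

end Fermat.Agent.RepTwo
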