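import Mathlib
import Fermat.Agent.RepTwo.ESData

/-!
# Trace approximations

For `g` in the absolute Galois group and a finite extension `L/ℚ`, `IsApprox N S L g r c` says that
`g` agrees on `L` with `F^k` for a Frobenius `F` at a good prime `ℓ`, `r = D_k(X_ℓ, ℓ)` and
`c = ℓ^k`.
-/

set_option autoImplicit false

open Polynomial

namespace Fermat.Agent.RepTwo

variable {N p : ℕ} [NeZero N] {S : Set ℕ}

structure IsApprox (N p : ℕ) (S : Set ℕ) (L : IntermediateField ℚ (AlgebraicClosure ℚ))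
    (g : GQ) (r : HeckePoly N S) (c : ℕ) (ℓ : GoodPrime N S)
    (A : ValuationSubring (AlgebraicClosure ℚ)) (F : GQ) (k : ℕ) : Prop where
  ne : (ℓ : ℕ) ≠ p
  lies : A.LiesOverPrime (ℓ : ℕ)
  frob : A.IsFrobeniusAt F (ℓ : ℕ)
  eqOn : ∀ x ∈ L, g x = (F ^ k) x
  hr : r = dick (MvPolynomial.X ℓ) ((ℓ : ℕ) : HeckePoly N S) k
  hc : c = (ℓ : ℕ) ^ k

omit [NeZero N] in
theorem IsApprox.mono {L L' : IntermediateField ℚ (AlgebraicClosure ℚ)} (h : L' ≤ L) {g : GQ}
    {r : HeckePoly N S} {c : ℕ} {ℓ : GoodPrime N S} {A : ValuationSubring (AlgebraicClosure ℚ)}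
    {F : GQ} {k : ℕ} (H : IsApprox N p S L g r c ℓ A F k) : IsApprox N p S L' g r c ℓ A F k :=
  { H with eqOn := fun x hx => H.eqOn x (h hx) }

omit [NeZero N] in
theorem exists_isApprox (hFD : FrobeniusDensity) {S : Finset ℕ} (hpS : p ∈ S)
    (hNS : ∀ q : ℕ, q.Prime → q ∣ N → q ∈ S)
    (L : IntermediateField ℚ (AlgebraicClosure ℚ)) [FiniteDimensional ℚ L] (g : GQ) :
    ∃ r c ℓ A F k, IsApprox N p (↑S : Set ℕ) L g r c ℓ A F k := by
  obtain ⟨ℓ, hℓ, hB, A, hA, F, hF, k, hk⟩ := hFD L g (S.sup id)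
  have hℓS : ℓ ∉ S := fun h => by
    have := Finset.le_sup (f := id) h
    exact absurd hB (not_lt.mpr this)
  have hℓN : ¬ ℓ ∣ N := fun h => hℓS (hNS ℓ hℓ h)
  exact ⟨_, _, ⟨ℓ, hℓ, hℓN, hℓS⟩, A, F, k,
    { ne := fun h => hℓS (by change ℓ = p at h; rw [h]; exact hpS)
      lies := hA
      frob := hF
      eqOn := hk
      hr := rfl
      hc := rfl }⟩

/-- if `g` and `h` agree on `L` then any monoid hom trivial on the elements fixing `L` takes the
same value. -/
theorem map_eq_of_eqOn {M : Type*} [Monoid M] (ρ : GQ →* M)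
    {L : IntermediateField ℚ (AlgebraicClosure ℚ)}
    (hρ : ∀ σ : GQ, (∀ x ∈ L, σ x = x) → ρ σ = 1) {g h : GQ} (hgh : ∀ x ∈ L, g x = h x) :
    ρ g = ρ h := by
  have h1 : ρ (h⁻¹ * g) = 1 := by
    apply hρ
    intro x hx
    rw [AlgEquiv.mul_apply, hgh x hx]
    exact h.symm_apply_apply x
  calc ρ g = ρ (h * (h⁻¹ * g)) := by rw [mul_inv_cancel_left]
    _ = ρ h * ρ (h⁻¹ * g) := map_mul _ _ _
    _ = ρ h := by rw [h1, mul_one]

theorem ESModule.quadratic {n : ℕ} (E : ESModule N p S n)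
    {L : IntermediateField ℚ (AlgebraicClosure ℚ)}
    (hL : ∀ σ : GQ, (∀ x ∈ L, σ x = x) → E.act σ = 1) {g : GQ}
    {r : HeckePoly N S} {c : ℕ} {ℓ : GoodPrime N S} {A : ValuationSubring (AlgebraicClosure ℚ)}
    {F : GQ} {k : ℕ} (H : IsApprox N p S L g r c ℓ A F k) :
    E.act g * E.act g - algebraMap (HeckePoly N S) _ r * E.act g
      + algebraMap (HeckePoly N S) _ (c : HeckePoly N S) = 0 := by
  have h1 := pow_quadratic (E.frobenius ℓ H.ne A H.lies F H.frob) k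
  have h2 : E.act g = E.act F ^ k := by rw [← map_pow]; exact map_eq_of_eqOn E.act hL H.eqOn
  rw [h2, H.hr, H.hc]
  push_cast at h1 ⊢
  exact h1

omit [NeZero N] in
/-- the cyclotomic character modulo `p ^ m` of an approximated element -/
theorem IsApprox.apply_root (hp : p.Prime) {L : IntermediateField ℚ (AlgebraicClosure ℚ)}
    {g : GQ} {r : HeckePoly N S} {c : ℕ} {ℓ : GoodPrime N S}
    {A : ValuationSubring (AlgebraicClosure ℚ)} {F : GQ} {k : ℕ}
    (H : IsApprox N p S L g r c ℓ A F k) {m : ℕ} {ζ : AlgebraicClosure ℚ} (hζL : ζ ∈ L)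
    (hζ : ζ ^ (p ^ m) = 1) : g ζ = ζ ^ c := by
  rw [H.eqOn ζ hζL, H.hc]
  exact pow_apply_root (frobenius_apply_root ℓ.2.1 hp H.ne H.lies H.frob hζ) k

theorem modEq_of_apply_root {m : ℕ} (hm : m ≠ 0) {ζ : AlgebraicClosure ℚ}
    (hζ : IsPrimitiveRoot ζ m) {c c' : ℕ} (h : ζ ^ c = ζ ^ c') : c ≡ c' [MOD m] := by
  rw [hζ.eq_orderOf]
  obtain ⟨u, rfl⟩ := hζ.isUnit hm
  rw [orderOf_units, ← pow_eq_pow_iff_modEq]
  exact_mod_cast h

/-- The key congruence: if `g`, `g'` act in the same way on `E` and on `μ_{p^m}` then the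
approximated traces agree modulo `p ^ n`. -/
theorem ESModule.eval_sub_eval (hp : p.Prime) {n : ℕ} (E : ESModule N p S n) {m : ℕ}
    (hm : ∀ x : E.V, (p ^ m : ℕ) • x = 0)
    {L : IntermediateField ℚ (AlgebraicClosure ℚ)}
    (hL : ∀ σ : GQ, (∀ x ∈ L, σ x = x) → E.act σ = 1)
    {ζ : AlgebraicClosure ℚ} (hζL : ζ ∈ L) (hζ : IsPrimitiveRoot ζ (p ^ m))
    {g g' : GQ} (hact : E.act g = E.act g') (hroot : g ζ = g' ζ)
    {r r' : HeckePoly N S} {c c' : ℕ} {ℓ ℓ' : GoodPrime N S}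
    {A A' : ValuationSubring (AlgebraicClosure ℚ)} {F F' : GQ} {k k' : ℕ}
    (H : IsApprox N p S L g r c ℓ A F k) (H' : IsApprox N p S L g' r' c' ℓ' A' F' k') :
    ∃ u : CuspForm.heckeAlgebra N 2 S,
      evalHecke N S r - evalHecke N S r' = (p ^ n : ℕ) • u := by
  rw [← map_sub]
  apply E.faithful
  have h1 := E.quadratic hL H
  have h2 := E.quadratic hL H'
  have hcc : c ≡ c' [MOD (p ^ m)] := by
    apply modEq_of_apply_root (pow_ne_zero m hp.ne_zero) hζ
    rw [← H.apply_root hp hζL hζ.pow_eq_one, ← H'.apply_root hp hζL hζ.pow_eq_one, hroot]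
  -- `c` and `c'` act in the same way
  have hc : ∀ v : E.V, (c : HeckePoly N S) • v = (c' : HeckePoly N S) • v := by
    intro v
    rw [Nat.cast_smul_eq_nsmul, Nat.cast_smul_eq_nsmul]
    have key : ∀ a b : ℕ, a ≤ b → a ≡ b [MOD (p ^ m)] → a • v = b • v := by
      intro a b hab h
      obtain ⟨d, hd⟩ := (Nat.modEq_iff_dvd' hab).mp h
      have : b = a + p ^ m * d := by omega
      rw [this, add_smul, mul_comm, mul_smul, hm, smul_zero, add_zero]
    rcases le_total c c' with h | h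
    · exact key c c' h hcc
    · exact (key c' c h hcc.symm).symm
  intro v
  -- surjectivity of `act g`
  have hsurj : ∃ w, E.act g w = v := ⟨E.act g⁻¹ v, by
    rw [← Module.End.mul_apply, ← map_mul, mul_inv_cancel, map_one, Module.End.one_apply]⟩
  obtain ⟨w, rfl⟩ := hsurj
  have e1 := LinearMap.congr_fun h1 w
  have e2 := LinearMap.congr_fun h2 w
  rw [← hact] at e2
  simp only [LinearMap.add_apply, LinearMap.sub_apply, Module.End.mul_apply,
    Module.algebraMap_end_apply, LinearMap.zero_apply] at e1 e2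
  rw [hc] at e1
  rw [sub_smul]
  have e3 : E.act g (E.act g w) + (c' : HeckePoly N S) • w = r • E.act g w := by
    rw [← sub_eq_zero, ← e1]; abel
  have e4 : E.act g (E.act g w) + (c' : HeckePoly N S) • w = r' • E.act g w := by
    rw [← sub_eq_zero, ← e2]; abel
  rw [← e3, ← e4, sub_self]

end Fermat.Agent.RepTwo
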