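import Mathlib

/-!
Burnside's theorem and the "quadratic algebra" lemma: a group acting on a nonzero
finite-dimensional space over an algebraically closed field such that every group
element satisfies `g² - t(g) g + d(g) = 0` with `d` a character gives rise to a two-dimensional
representation with trace `t` and determinant `d`.
-/

set_option autoImplicit false

namespace Fermat.Agent.RepTwo

open Module

section Burnside

variable {K : Type*} [Field K] {G : Type*} [Group G]
variable {V : Type*} [AddCommGroup V] [Module K V]

/-- The `K`-subalgebra of `End V` generated by a representation is the span of its image. -/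
theorem adjoin_range_eq_span (ρ : G →* Module.End K V) :
    Subalgebra.toSubmodule (Algebra.adjoin K (Set.range ρ)) = Submodule.span K (Set.range ρ) := by
  rw [Algebra.adjoin_eq_span]
  congr 1
  have : (Submonoid.closure (Set.range ρ) : Submonoid (Module.End K V)) = MonoidHom.mrange ρ := by
    rw [← MonoidHom.coe_mrange, Submonoid.closure_eq]
  rw [this, MonoidHom.coe_mrange]

/-- Burnside's theorem: an irreducible finite-dimensional representation over an algebraically
closed field has image spanning the full endomorphism algebra. -/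
theorem span_range_eq_top [IsAlgClosed K] [FiniteDimensional K V] [Nontrivial V]
    (ρ : G →* Module.End K V)
    (hirr : ∀ W : Submodule K V, (∀ g, ∀ x ∈ W, ρ g x ∈ W) → W = ⊥ ∨ W = ⊤) :
    Submodule.span K (Set.range ρ) = ⊤ := by
  classical
  set A : Subalgebra K (Module.End K V) := Algebra.adjoin K (Set.range ρ) with hA
  have hsimple : IsSimpleModule A V := by
    refine { eq_bot_or_eq_top := ?_, exists_pair_ne := ?_ }
    · exact ⟨⊥, ⊤, fun h => by
        obtain ⟨v, hv⟩ := exists_ne (0 : V)
        have : v ∈ (⊤ : Submodule A V) := Submodule.mem_top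
        rw [← h] at this
        exact hv ((Submodule.mem_bot _).mp this)⟩
    · intro W
      rcases hirr (W.restrictScalars K) (fun g x hx => by
        have := W.smul_mem (⟨ρ g, Algebra.subset_adjoin ⟨g, rfl⟩⟩ : A) hx
        exact this) with h | h
      · left
        exact (Submodule.restrictScalars_eq_bot_iff (S := K) (R := A) (M := V)).mp h
      · right
        exact (Submodule.restrictScalars_eq_top_iff (S := K) (R := A) (M := V)).mp h
  rw [← adjoin_range_eq_span, ← hA, eq_top_iff]
  intro f _
  have hschur := IsSimpleModule.algebraMap_end_bijective_of_isAlgClosed (A := A) (V := V) K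
  let F : Module.End (Module.End A V) V :=
    { toFun := f
      map_add' := f.map_add
      map_smul' := fun φ x => by
        obtain ⟨c, rfl⟩ := hschur.2 φ
        simp }
  let b := Module.finBasis K V
  obtain ⟨r, hr⟩ := jacobson_density F (Finset.univ.image b)
  have : f = (r : Module.End K V) := by
    refine b.ext fun i => ?_
    exact hr (b i) (Finset.mem_image_of_mem _ (Finset.mem_univ i))
  rw [this]
  exact r.2

end Burnside

section Quadratic

variable {K : Type*} [Field K] {G : Type*} [Group G]
variable {V : Type*} [AddCommGroup V] [Module K V]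

/-- If every `ρ g` satisfies `ρ(g)² - t(g) ρ(g) + d(g) = 0` with `d` a character, then for all
`A B` in the span of the image, `A B + B A` is a combination of `1, A, B`. -/
theorem exists_anticomm_of_quadratic (ρ : G →* Module.End K V) (t : G → K) (d : G →* Kˣ)
    (h : ∀ g, ρ g * ρ g - t g • ρ g + (d g : K) • (1 : Module.End K V) = 0)
    {A B : Module.End K V} (hA : A ∈ Submodule.span K (Set.range ρ))
    (hB : B ∈ Submodule.span K (Set.range ρ)) :
    ∃ α β γ : K, A * B + B * A = α • (1 : Module.End K V) + β • A + γ • B := by
  classical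
  -- the relation `d g • ρ g⁻¹ = t g • 1 - ρ g`
  have hinv : ∀ g, (d g : K) • ρ g⁻¹ = t g • (1 : Module.End K V) - ρ g := by
    intro g
    have h1 : ρ g * ρ g⁻¹ = 1 := by rw [← map_mul, mul_inv_cancel, map_one]
    have h2 := congrArg (fun X => X * ρ g⁻¹) (h g)
    simp only [add_mul, sub_mul, mul_assoc, smul_mul_assoc, one_mul, zero_mul, h1, mul_one] at h2
    rw [← sub_eq_zero]
    rw [← h2]
    abel
  -- set-up: linear maps out of the free module on `G`
  let Φ : (G →₀ K) →ₗ[K] Module.End K V := Finsupp.linearCombination K ρ
  let Ψ : (G →₀ K) →ₗ[K] Module.End K V := Finsupp.linearCombination K fun g => (d g : K) • ρ g⁻¹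
  let T : (G →₀ K) →ₗ[K] K := Finsupp.linearCombination K t
  have hΦΨ : ∀ x, Ψ x = T x • (1 : Module.End K V) - Φ x := by
    intro x
    induction x using Finsupp.induction_linear with
    | zero => simp
    | add x y hx hy => rw [map_add, map_add, map_add, hx, hy, add_smul]; abel
    | single g c =>
      simp only [Ψ, T, Φ, Finsupp.linearCombination_single]
      rw [hinv, smul_sub, smul_eq_mul, mul_smul]
  have key : ∀ x y : G →₀ K, ∃ τ : K, Ψ y * Ψ x = τ • (1 : Module.End K V) - Φ x * Φ y := by
    intro x y
    induction x using Finsupp.induction_linear with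
    | zero => exact ⟨0, by simp⟩
    | add x x' hx hx' =>
      obtain ⟨τ, hτ⟩ := hx
      obtain ⟨τ', hτ'⟩ := hx'
      exact ⟨τ + τ', by rw [map_add, map_add, mul_add, add_mul, hτ, hτ', add_smul]; abel⟩
    | single g c =>
      induction y using Finsupp.induction_linear with
      | zero => exact ⟨0, by simp⟩
      | add y y' hy hy' =>
        obtain ⟨τ, hτ⟩ := hy
        obtain ⟨τ', hτ'⟩ := hy'
        exact ⟨τ + τ', by rw [map_add, map_add, mul_add, add_mul, hτ, hτ', add_smul]; abel⟩
      | single g' c' =>
        refine ⟨c * c' * t (g * g'), ?_⟩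
        simp only [Ψ, Φ, Finsupp.linearCombination_single]
        have h3 := hinv (g * g')
        have h4 : ((d g' : K) • ρ g'⁻¹) * ((d g : K) • ρ g⁻¹) = (d (g * g') : K) • ρ (g * g')⁻¹ := by
          rw [smul_mul_smul_comm, ← map_mul, mul_inv_rev, map_mul d, Units.val_mul, mul_comm (d g' : K)]
        rw [smul_mul_smul_comm, h4, h3, smul_mul_smul_comm, smul_sub, map_mul ρ, smul_smul,
          mul_comm c' c]
  obtain ⟨x, rfl⟩ : ∃ x, Φ x = A := by
    have := (Finsupp.mem_span_range_iff_exists_finsupp (R := K) (v := (ρ : G → Module.End K V))).mp hA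
    obtain ⟨x, hx⟩ := this
    exact ⟨x, hx⟩
  obtain ⟨y, rfl⟩ : ∃ y, Φ y = B := by
    have := (Finsupp.mem_span_range_iff_exists_finsupp (R := K) (v := (ρ : G → Module.End K V))).mp hB
    obtain ⟨y, hy⟩ := this
    exact ⟨y, hy⟩
  obtain ⟨τ, hτ⟩ := key x y
  rw [hΦΨ, hΦΨ] at hτ
  refine ⟨τ - T y * T x, T y, T x, ?_⟩
  have h5 : (T y • (1 : Module.End K V) - Φ y) * (T x • (1 : Module.End K V) - Φ x)
      = (T y * T x) • (1 : Module.End K V) - T y • Φ x - T x • Φ y + Φ y * Φ x := by
    simp only [sub_mul, mul_sub, smul_mul_assoc, mul_smul_comm, one_mul, mul_one, smul_sub, smul_smul]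
    rw [mul_comm (T x) (T y)]
    abel
  rw [h5] at hτ
  rw [sub_smul]
  rw [← sub_eq_zero] at hτ ⊢
  rw [← hτ]
  abel

/-- A finite-dimensional irreducible representation over an algebraically closed field in which
every group element is quadratic (with multiplicative constant coefficient) has dimension at
most two. -/
theorem finrank_le_two_of_quadratic [IsAlgClosed K] [FiniteDimensional K V] [Nontrivial V]
    (ρ : G →* Module.End K V) (t : G → K) (d : G →* Kˣ)
    (h : ∀ g, ρ g * ρ g - t g • ρ g + (d g : K) • (1 : Module.End K V) = 0)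
    (hirr : ∀ W : Submodule K V, (∀ g, ∀ x ∈ W, ρ g x ∈ W) → W = ⊥ ∨ W = ⊤) :
    finrank K V ≤ 2 := by
  classical
  by_contra hcon
  push Not at hcon
  have hspan := span_range_eq_top ρ hirr
  let b := Module.finBasis K V
  let i0 : Fin (finrank K V) := ⟨0, by omega⟩
  let i1 : Fin (finrank K V) := ⟨1, by omega⟩
  let i2 : Fin (finrank K V) := ⟨2, by omega⟩
  have h01 : i0 ≠ i1 := by simp [i0, i1, Fin.ext_iff]
  have h12 : i1 ≠ i2 := by simp [i1, i2, Fin.ext_iff]
  have h02 : i0 ≠ i2 := by simp [i0, i2, Fin.ext_iff]
  let A : Module.End K V := b.constr K fun i => if i = i1 then b i0 else 0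
  let B : Module.End K V := b.constr K fun i => if i = i2 then b i1 else 0
  have hA : ∀ i, A (b i) = if i = i1 then b i0 else 0 := fun i => by simp [A, Basis.constr_basis]
  have hB : ∀ i, B (b i) = if i = i2 then b i1 else 0 := fun i => by simp [B, Basis.constr_basis]
  obtain ⟨α, β, γ, hαβγ⟩ := exists_anticomm_of_quadratic ρ t d h (A := A) (B := B)
    (hspan ▸ Submodule.mem_top) (hspan ▸ Submodule.mem_top)
  have h1 := congrArg (fun f => f (b i2)) hαβγ
  simp only [LinearMap.add_apply, Module.End.mul_apply, LinearMap.smul_apply,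
    Module.End.one_apply, hA, hB, if_true, if_neg h12.symm, map_zero, add_zero, smul_zero] at h1
  have h2 := congrArg (fun v => b.repr v i0) h1
  simp [Finsupp.single_apply, h01.symm, h02.symm] at h2

end Quadratic

end Fermat.Agent.RepTwo
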