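import Mathlib
import Fermat.Agent.RepTwo.Burnside
import Fermat.Prelude.Def_GaloisRep_Adic

/-!
# Nondegeneracy of the trace form, and spanning of the image of a residually absolutely
irreducible representation.
-/

set_option autoImplicit false

open scoped TensorProduct

namespace Fermat.Agent.RepTwo

section TraceForm

variable {R V : Type*} [CommRing R] [AddCommGroup V] [Module R V] [Module.Free R V]
  [Module.Finite R V]

/-- Nondegeneracy of the trace form on `End V`. -/
theorem eq_zero_of_trace_mul_eq_zero (f : Module.End R V)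
    (h : ∀ g : Module.End R V, LinearMap.trace R V (g * f) = 0) : f = 0 := by
  classical
  let b := Module.Free.chooseBasis R V
  have hM : LinearMap.toMatrixAlgEquiv b f = 0 := by
    rw [Matrix.ext_iff_trace_mul_left]
    intro x
    obtain ⟨g, rfl⟩ := (LinearMap.toMatrixAlgEquiv b).surjective x
    have := h g
    rw [LinearMap.trace_eq_matrix_trace R b] at this
    rw [← map_mul, mul_zero, Matrix.trace_zero]
    exact this
  exact (LinearMap.toMatrixAlgEquiv b).injective (by rw [hM, map_zero])

/-- the trace form, mod an ideal: if all `tr (g f) ∈ I` then `f V ⊆ I V`. -/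
theorem mem_smul_of_trace_mul_mem (I : Ideal R) (f : Module.End R V)
    (h : ∀ g : Module.End R V, LinearMap.trace R V (g * f) ∈ I) (v : V) :
    f v ∈ I • (⊤ : Submodule R V) := by
  classical
  let b := Module.Free.chooseBasis R V
  have key : ∀ i j, LinearMap.toMatrixAlgEquiv b f i j ∈ I := by
    intro i j
    have := h ((LinearMap.toMatrixAlgEquiv b).symm (Matrix.single j i 1))
    rw [LinearMap.trace_eq_matrix_trace R b] at this
    have e : LinearMap.toMatrix b b ((LinearMap.toMatrixAlgEquiv b).symm (Matrix.single j i 1) * f)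
        = Matrix.single j i 1 * LinearMap.toMatrixAlgEquiv b f := by
      change LinearMap.toMatrixAlgEquiv b _ = _
      rw [map_mul, AlgEquiv.apply_symm_apply]
    rw [e, Matrix.trace_single_mul] at this
    simpa using this
  rw [← b.sum_repr v, map_sum]
  refine Submodule.sum_mem _ fun j _ => ?_
  rw [map_smul]
  refine Submodule.smul_mem _ _ ?_
  rw [← b.sum_repr (f (b j))]
  refine Submodule.sum_mem _ fun i _ => ?_
  refine Submodule.smul_mem_smul ?_ Submodule.mem_top
  have := key i j
  rwa [LinearMap.toMatrixAlgEquiv_apply] at this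

end TraceForm

section Spanning

/-- descent of spanning sets along field extensions -/
theorem span_eq_top_of_field_ext {k K : Type*} [Field k] [Field K] [Algebra k K] {ι : Type*}
    [Finite ι] (X : Set (ι → k))
    (h : Submodule.span K ((fun x : ι → k => fun i => algebraMap k K (x i)) '' X) = ⊤) :
    Submodule.span k X = ⊤ := by
  classical
  cases nonempty_fintype ι
  by_contra hne
  obtain ⟨φ, hφ0, hφ⟩ := Submodule.exists_le_ker_of_lt_top _ (lt_top_iff_ne_top.mpr hne)
  -- `φ x = ∑ x i * c i`
  set c : ι → k := fun i => φ (Pi.single i 1) with hc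
  have hφc : ∀ x : ι → k, φ x = ∑ i, x i * c i := by
    intro x
    conv_lhs => rw [pi_eq_sum_univ' x]
    rw [map_sum]
    refine Finset.sum_congr rfl fun i _ => ?_
    rw [map_smul, smul_eq_mul, hc]
  let ψ : (ι → K) →ₗ[K] K :=
    { toFun := fun x => ∑ i, x i * algebraMap k K (c i)
      map_add' := fun x y => by simp [add_mul, Finset.sum_add_distrib]
      map_smul' := fun a x => by simp [Finset.mul_sum, mul_assoc] }
  have hψ : (⊤ : Submodule K (ι → K)) ≤ LinearMap.ker ψ := by
    rw [← h, Submodule.span_le]
    rintro _ ⟨x, hx, rfl⟩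
    have h1 : φ x = 0 := hφ (Submodule.subset_span hx)
    rw [hφc] at h1
    change ∑ i, algebraMap k K (x i) * algebraMap k K (c i) = 0
    have := congrArg (algebraMap k K) h1
    rw [map_sum, map_zero] at this
    simpa using this
  apply hφ0
  ext i
  have h2 : ψ (Pi.single i 1) = 0 := hψ Submodule.mem_top
  have h3 : ψ (Pi.single i 1) = algebraMap k K (c i) := by
    change ∑ j, (Pi.single i (1 : K) : ι → K) j * algebraMap k K (c j) = _
    rw [Finset.sum_eq_single i]
    · simp
    · intro j _ hj; simp [hj]
    · simp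
  rw [h3] at h2
  have h4 : c i = 0 := (map_eq_zero (algebraMap k K)).mp h2
  simpa [hc] using h4

/-- Nakayama: a set spanning modulo the maximal ideal spans. -/
theorem span_eq_top_of_residue {T : Type*} [CommRing T] [IsLocalRing T] {ι : Type*} [Finite ι]
    (X : Set (ι → T))
    (h : Submodule.span (IsLocalRing.ResidueField T)
      ((fun x : ι → T => fun i => IsLocalRing.residue T (x i)) '' X) = ⊤) :
    Submodule.span T X = ⊤ := by
  classical
  cases nonempty_fintype ι
  have hfg : (⊤ : Submodule T (ι → T)).FG := Module.Finite.fg_top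
  refine top_le_iff.mp (Submodule.le_of_le_smul_of_le_jacobson_bot (I := IsLocalRing.maximalIdeal T)
    hfg (by rw [IsLocalRing.jacobson_eq_maximalIdeal ⊥ bot_ne_top]) ?_)
  intro x _
  -- the reduction of `x` is a combination of reductions of elements of `X`
  have key : ∀ y ∈ Submodule.span (IsLocalRing.ResidueField T)
      ((fun x : ι → T => fun i => IsLocalRing.residue T (x i)) '' X),
      ∃ z ∈ Submodule.span T X, (fun i => IsLocalRing.residue T (z i)) = y := by
    intro y hy
    induction hy using Submodule.span_induction with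
    | mem y hy =>
      obtain ⟨x, hx, rfl⟩ := hy
      exact ⟨x, Submodule.subset_span hx, rfl⟩
    | zero => exact ⟨0, Submodule.zero_mem _, by ext i; simp⟩
    | add y y' _ _ hy hy' =>
      obtain ⟨z, hz, rfl⟩ := hy
      obtain ⟨z', hz', rfl⟩ := hy'
      exact ⟨z + z', Submodule.add_mem _ hz hz', by ext i; simp⟩
    | smul a y _ hy =>
      obtain ⟨z, hz, rfl⟩ := hy
      obtain ⟨a, rfl⟩ := IsLocalRing.residue_surjective a
      exact ⟨a • z, Submodule.smul_mem _ _ hz, by ext i; simp⟩
  obtain ⟨z, hz, hzx⟩ := key (fun i => IsLocalRing.residue T (x i)) (h ▸ Submodule.mem_top)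
  rw [Submodule.mem_sup]
  refine ⟨z, hz, x - z, ?_, by abel⟩
  rw [pi_eq_sum_univ' (x - z)]
  refine Submodule.sum_mem _ fun i _ => Submodule.smul_mem_smul ?_ Submodule.mem_top
  rw [← IsLocalRing.residue_eq_zero_iff, Pi.sub_apply, map_sub, sub_eq_zero]
  exact (congrFun hzx i).symm

/-- matrix coordinates as a linear equivalence onto functions -/
noncomputable def coordEquiv {R V : Type*} [CommRing R] [AddCommGroup V] [Module R V]
    (b : Module.Basis (Fin 2) R V) : Module.End R V ≃ₗ[R] (Fin 2 × Fin 2 → R) :=
  (LinearMap.toMatrixAlgEquiv b).toLinearEquiv ≪≫ₗ (LinearEquiv.curry R R (Fin 2) (Fin 2)).symm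

theorem coordEquiv_apply {R V : Type*} [CommRing R] [AddCommGroup V] [Module R V]
    (b : Module.Basis (Fin 2) R V) (f : Module.End R V) (p : Fin 2 × Fin 2) :
    coordEquiv b f p = LinearMap.toMatrix b b f p.1 p.2 := rfl

theorem span_eq_top_iff_coord {R V : Type*} [CommRing R] [AddCommGroup V] [Module R V]
    (b : Module.Basis (Fin 2) R V) (X : Set (Module.End R V)) :
    Submodule.span R X = ⊤ ↔ Submodule.span R (coordEquiv b '' X) = ⊤ := by
  have h1 : Submodule.span R (coordEquiv b '' X) =
      (Submodule.span R X).map (coordEquiv b : Module.End R V →ₗ[R] (Fin 2 × Fin 2 → R)) := by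
    rw [Submodule.map_span]; rfl
  rw [h1]
  constructor
  · intro h
    rw [h, Submodule.map_top, LinearEquiv.range]
  · intro h
    rw [eq_top_iff]
    intro x _
    have : (coordEquiv b) x ∈ (Submodule.span R X).map
        (coordEquiv b : Module.End R V →ₗ[R] (Fin 2 × Fin 2 → R)) := h ▸ Submodule.mem_top
    obtain ⟨y, hy, hyx⟩ := this
    exact (coordEquiv b).injective hyx ▸ hy

/-- The image of a residually absolutely irreducible two-dimensional representation spans
the endomorphism algebra. -/
theorem span_range_eq_top_of_absIrr {T : Type} [CommRing T] [IsLocalRing T] (ρ : GaloisRepAdic T)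
    (h : ρ.residual.IsAbsolutelyIrreducible) : Submodule.span T (Set.range ρ.ρ) = ⊤ := by
  classical
  set k := IsLocalRing.ResidueField T with hk
  set K := AlgebraicClosure k with hK
  let b : Module.Basis (Fin 2) T ρ.V := Module.finBasisOfFinrankEq T ρ.V ρ.finrank_eq
  let b1 : Module.Basis (Fin 2) k (k ⊗[T] ρ.V) := Algebra.TensorProduct.basis k b
  let b2 : Module.Basis (Fin 2) K (ρ.residual.baseChange K).V := Algebra.TensorProduct.basis K b1
  have hfr : Module.finrank K (ρ.residual.baseChange K).V = 2 :=
    (ρ.residual.baseChange K).finrank_eq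
  have : Nontrivial (ρ.residual.baseChange K).V :=
    Module.nontrivial_of_finrank_pos (R := K) (by rw [hfr]; norm_num)
  have hB : Submodule.span K (Set.range (ρ.residual.baseChange K).ρ) = ⊤ :=
    span_range_eq_top (K := K) (V := (ρ.residual.baseChange K).V) (ρ.residual.baseChange K).ρ h
  rw [span_eq_top_iff_coord b2] at hB
  rw [span_eq_top_iff_coord b]
  apply span_eq_top_of_residue
  apply span_eq_top_of_field_ext (K := K)
  have hmat : ∀ g p, coordEquiv b2 ((ρ.residual.baseChange K).ρ g) p =
      algebraMap k K (IsLocalRing.residue T (coordEquiv b (ρ.ρ g) p)) := by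
    intro g p
    have h1 := LinearMap.toMatrix_baseChange K ((ρ.ρ g).baseChange k) b1 b1
    have h2 := LinearMap.toMatrix_baseChange k (ρ.ρ g) b b
    calc coordEquiv b2 ((ρ.residual.baseChange K).ρ g) p
        = LinearMap.toMatrix (Algebra.TensorProduct.basis K b1)
          (Algebra.TensorProduct.basis K b1) (((ρ.ρ g).baseChange k).baseChange K) p.1 p.2 := rfl
      _ = algebraMap k K (LinearMap.toMatrix b1 b1 ((ρ.ρ g).baseChange k) p.1 p.2) := by
          rw [h1]; rfl
      _ = algebraMap k K (LinearMap.toMatrix (Algebra.TensorProduct.basis k b)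
          (Algebra.TensorProduct.basis k b) ((ρ.ρ g).baseChange k) p.1 p.2) := rfl
      _ = _ := by rw [h2]; rfl
  have himg : (fun x : Fin 2 × Fin 2 → k => fun i => algebraMap k K (x i)) ''
      ((fun x : Fin 2 × Fin 2 → T => fun i => IsLocalRing.residue T (x i)) ''
        (coordEquiv b '' Set.range ρ.ρ)) =
      coordEquiv b2 '' Set.range (ρ.residual.baseChange K).ρ := by
    ext x
    constructor
    · rintro ⟨_, ⟨_, ⟨_, ⟨g, rfl⟩, rfl⟩, rfl⟩, rfl⟩
      refine ⟨_, ⟨g, rfl⟩, ?_⟩
      ext p
      rw [hmat]
    · rintro ⟨_, ⟨g, rfl⟩, rfl⟩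
      refine ⟨_, ⟨_, ⟨_, ⟨g, rfl⟩, rfl⟩, rfl⟩, ?_⟩
      ext p
      rw [hmat]
  rw [himg]
  exact hB

end Spanning

end Fermat.Agent.RepTwo
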