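import Mathlib
import Fermat.Agent.RepTwo.Approx
import Fermat.Agent.RepTwo.TraceForm
import Fermat.Agent.Cheb.Bridge
import Fermat.Prelude.Def_GaloisRep_ComplexConjugation

/-!
# The trace function attached to a compatible family of Eichler–Shimura modules
-/

set_option autoImplicit false

open Polynomial

namespace Fermat.Agent.RepTwo

/-- The Frobenius density theorem. -/
theorem frobeniusDensity : FrobeniusDensity := by
  intro L hL σ B
  obtain ⟨ℓ, hℓ, hℓS, -, A, hA, φ, hφ, ⟨k, hk⟩, -⟩ :=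
    Fermat.Agent.Cheb.exists_frobenius L σ (Finset.range (B + 1))
  refine ⟨ℓ, hℓ, ?_, A, hA, φ, hφ, k, hk⟩
  by_contra h
  exact hℓS (Finset.mem_range.mpr (by omega))

variable {N p : ℕ} [NeZero N] {S : Set ℕ}

/-- An Eichler–Shimura module together with a finite extension of `ℚ` trivialising it. -/
structure Level (N p : ℕ) [NeZero N] (S : Set ℕ) (n : ℕ) where
  E : ESModule N p S n
  m : ℕ
  le : n ≤ m
  torsion : ∀ x : E.V, (p ^ m : ℕ) • x = 0
  ζ : AlgebraicClosure ℚ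
  prim : IsPrimitiveRoot ζ (p ^ m)
  L : IntermediateField ℚ (AlgebraicClosure ℚ)
  fin : FiniteDimensional ℚ L
  ζ_mem : ζ ∈ L
  act_eq : ∀ σ : GQ, (∀ x ∈ L, σ x = x) → E.act σ = 1

theorem ESModule.exists_level (hp : p.Prime) {n : ℕ} (E : ESModule N p S n) :
    Nonempty (Level N p S n) := by
  obtain ⟨m, hm⟩ := E.torsion
  obtain ⟨L1, hL1f, hL1⟩ := E.finiteLevel
  set M := max n m with hM
  have : NeZero ((p ^ M : ℕ) : AlgebraicClosure ℚ) :=
    ⟨by exact_mod_cast pow_ne_zero M hp.ne_zero⟩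
  obtain ⟨ζ, hζ⟩ := HasEnoughRootsOfUnity.exists_primitiveRoot (AlgebraicClosure ℚ) (p ^ M)
  have : FiniteDimensional ℚ (IntermediateField.adjoin ℚ {ζ}) :=
    IntermediateField.adjoin.finiteDimensional (Algebra.IsIntegral.isIntegral ζ)
  exact ⟨{
    E := E
    m := M
    le := le_max_left _ _
    torsion := fun x => by
      obtain ⟨k, hk⟩ := Nat.exists_eq_add_of_le (le_max_right n m)
      rw [hM, hk, pow_add, mul_comm, mul_smul, hm, smul_zero]
    ζ := ζ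
    prim := hζ
    L := L1 ⊔ IntermediateField.adjoin ℚ {ζ}
    fin := IntermediateField.finiteDimensional_sup _ _
    ζ_mem := (le_sup_right : IntermediateField.adjoin ℚ {ζ} ≤ L1 ⊔ _)
      (IntermediateField.mem_adjoin_simple_self ℚ ζ)
    act_eq := fun σ hσ => hL1 σ fun x hx => hσ x ((le_sup_left : L1 ≤ L1 ⊔ _) hx) }⟩

/-- `g` acts with trace `r` and determinant `c`. -/
def Level.Quad {n : ℕ} (Λ : Level N p S n) (g : GQ) (r : HeckePoly N S) (c : ℕ) : Prop :=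
  Λ.E.act g * Λ.E.act g - algebraMap (HeckePoly N S) _ r * Λ.E.act g
    + algebraMap (HeckePoly N S) _ (c : HeckePoly N S) = 0 ∧ g Λ.ζ = Λ.ζ ^ c

theorem Level.modEq {n : ℕ} (hp : p.Prime) (Λ : Level N p S n) {c c' : ℕ}
    (h : Λ.ζ ^ c = Λ.ζ ^ c') : c ≡ c' [MOD p ^ Λ.m] :=
  modEq_of_apply_root (pow_ne_zero _ hp.ne_zero) Λ.prim h

theorem Level.smul_eq {n : ℕ} (Λ : Level N p S n) {c c' : ℕ}
    (h : c ≡ c' [MOD p ^ Λ.m]) (v : Λ.E.V) :
    (c : HeckePoly N S) • v = (c' : HeckePoly N S) • v := by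
  rw [Nat.cast_smul_eq_nsmul, Nat.cast_smul_eq_nsmul]
  have key : ∀ a b : ℕ, a ≤ b → a ≡ b [MOD (p ^ Λ.m)] → a • v = b • v := by
    intro a b hab h
    obtain ⟨d, hd⟩ := (Nat.modEq_iff_dvd' hab).mp h
    have : b = a + p ^ Λ.m * d := by omega
    rw [this, add_smul, mul_comm, mul_smul, Λ.torsion, smul_zero, add_zero]
  rcases le_total c c' with h' | h'
  · exact key c c' h' h
  · exact (key c' c h' h.symm).symm

theorem Level.congr {n : ℕ} (hp : p.Prime) (Λ : Level N p S n) {g g' : GQ}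
    (hact : Λ.E.act g = Λ.E.act g') (hroot : g Λ.ζ = g' Λ.ζ) {r r' : HeckePoly N S} {c c' : ℕ}
    (h : Λ.Quad g r c) (h' : Λ.Quad g' r' c') :
    (∃ u : CuspForm.heckeAlgebra N 2 S,
      evalHecke N S r - evalHecke N S r' = (p ^ n : ℕ) • u) ∧ c ≡ c' [MOD p ^ Λ.m] := by
  obtain ⟨h1, e1⟩ := h
  obtain ⟨h2, e2⟩ := h'
  have hcc : c ≡ c' [MOD (p ^ Λ.m)] := Λ.modEq hp (by rw [← e1, ← e2, hroot])
  refine ⟨?_, hcc⟩
  rw [← map_sub]
  apply Λ.E.faithful
  have hc := Λ.smul_eq hcc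
  intro v
  obtain ⟨w, rfl⟩ : ∃ w, Λ.E.act g w = v := ⟨Λ.E.act g⁻¹ v, by
    rw [← Module.End.mul_apply, ← map_mul, mul_inv_cancel, map_one, Module.End.one_apply]⟩
  have e1 := LinearMap.congr_fun h1 w
  have e2 := LinearMap.congr_fun h2 w
  rw [← hact] at e2
  simp only [LinearMap.add_apply, LinearMap.sub_apply, Module.End.mul_apply,
    Module.algebraMap_end_apply, LinearMap.zero_apply] at e1 e2
  rw [hc] at e1
  rw [sub_smul]
  have e3 : Λ.E.act g (Λ.E.act g w) + (c' : HeckePoly N S) • w = r • Λ.E.act g w := by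
    rw [← sub_eq_zero, ← e1]; abel
  have e4 : Λ.E.act g (Λ.E.act g w) + (c' : HeckePoly N S) • w = r' • Λ.E.act g w := by
    rw [← sub_eq_zero, ← e2]; abel
  rw [← e3, ← e4, sub_self]

theorem Level.quad_of_isApprox {n : ℕ} (hp : p.Prime) (Λ : Level N p S n)
    {L : IntermediateField ℚ (AlgebraicClosure ℚ)} (hL : Λ.L ≤ L) {g : GQ}
    {r : HeckePoly N S} {c : ℕ} {ℓ : GoodPrime N S} {A : ValuationSubring (AlgebraicClosure ℚ)}
    {F : GQ} {k : ℕ} (H : IsApprox N p S L g r c ℓ A F k) : Λ.Quad g r c :=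
  ⟨Λ.E.quadratic Λ.act_eq (H.mono hL), (H.mono hL).apply_root hp Λ.ζ_mem Λ.prim.pow_eq_one⟩

theorem Level.quad_one {n : ℕ} (Λ : Level N p S n) : Λ.Quad 1 2 1 := by
  refine ⟨?_, by simp⟩
  rw [map_one]
  have : algebraMap (HeckePoly N S) (Module.End (HeckePoly N S) Λ.E.V) 2 = 2 := map_ofNat _ 2
  rw [this]
  simp only [mul_one, Nat.cast_one, map_one]
  norm_num

theorem Level.quad_conj {n : ℕ} (hp : p.Prime) (Λ : Level N p S n) {g h : GQ}
    {r : HeckePoly N S} {c : ℕ} (H : Λ.Quad (g * h) r c) : Λ.Quad (h * g) r c := by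
  obtain ⟨h1, h2⟩ := H
  constructor
  · have e : Λ.E.act (h * g) = Λ.E.act h * Λ.E.act (g * h) * Λ.E.act h⁻¹ := by
      rw [← map_mul, ← map_mul]; congr 1; group
    have hi : Λ.E.act h⁻¹ * Λ.E.act h = 1 := by rw [← map_mul, inv_mul_cancel, map_one]
    have hi' : Λ.E.act h * Λ.E.act h⁻¹ = 1 := by rw [← map_mul, mul_inv_cancel, map_one]
    have h3 := congrArg (fun z => Λ.E.act h * z * Λ.E.act h⁻¹) h1
    simp only [mul_zero, zero_mul, mul_add, mul_sub, add_mul, sub_mul] at h3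
    rw [← h3, e]
    congr 1
    · congr 1
      · calc Λ.E.act h * Λ.E.act (g * h) * Λ.E.act h⁻¹ * (Λ.E.act h * Λ.E.act (g * h) * Λ.E.act h⁻¹)
            = Λ.E.act h * Λ.E.act (g * h) * (Λ.E.act h⁻¹ * Λ.E.act h) * Λ.E.act (g * h)
              * Λ.E.act h⁻¹ := by noncomm_ring
          _ = _ := by rw [hi]; noncomm_ring
      · rw [← mul_assoc, ← mul_assoc, ← mul_assoc, Algebra.commutes r (Λ.E.act h)]
    · rw [← Algebra.commutes, mul_assoc, hi', mul_one]
  · -- commutativity of the cyclotomic action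
    have hp0 : p ^ Λ.m ≠ 0 := pow_ne_zero _ hp.ne_zero
    have hpow : ∀ σ : GQ, ∃ i : ℕ, σ Λ.ζ = Λ.ζ ^ i := by
      intro σ
      have h5 : (σ Λ.ζ) ^ (p ^ Λ.m) = 1 := by rw [← map_pow, Λ.prim.pow_eq_one, map_one]
      have : NeZero (p ^ Λ.m) := ⟨hp0⟩
      obtain ⟨i, -, hi⟩ := Λ.prim.eq_pow_of_pow_eq_one h5
      exact ⟨i, hi.symm⟩
    obtain ⟨i, hi⟩ := hpow g
    obtain ⟨j, hj⟩ := hpow h
    rw [AlgEquiv.mul_apply, hi, map_pow, hj, ← pow_mul, mul_comm, pow_mul, ← hi,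
      ← map_pow, ← hj, ← AlgEquiv.mul_apply]
    exact h2

/-- the pseudocharacter relation modulo `p ^ n`. -/
theorem Level.mul_rel {n : ℕ} (hp : p.Prime) (Λ : Level N p S n) {g h : GQ}
    {rg rh r3 r4 : HeckePoly N S} {cg ch c3 c4 : ℕ} (Hg : Λ.Quad g rg cg) (Hh : Λ.Quad h rh ch)
    (H3 : Λ.Quad (g * h) r3 c3) (H4 : Λ.Quad (g * h⁻¹) r4 c4) :
    (∃ u : CuspForm.heckeAlgebra N 2 S,
      evalHecke N S (r3 + (ch : HeckePoly N S) * r4 - rg * rh) = (p ^ n : ℕ) • u) ∧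
      c3 ≡ cg * ch [MOD p ^ Λ.m] := by
  -- cyclotomic part
  have k3 : c3 ≡ cg * ch [MOD p ^ Λ.m] := by
    apply Λ.modEq hp
    rw [← H3.2, AlgEquiv.mul_apply, Hh.2, map_pow, Hg.2, pow_mul]
  have k4 : ch * c4 ≡ cg [MOD p ^ Λ.m] := by
    apply Λ.modEq hp
    have e1 : g Λ.ζ = (g * h⁻¹) (h Λ.ζ) := by
      rw [← AlgEquiv.mul_apply]; congr 1; group
    rw [← Hg.2, e1, Hh.2, map_pow, H4.2, ← pow_mul, mul_comm]
  refine ⟨?_, k3⟩
  apply Λ.E.faithful
  set a := Λ.E.act g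
  set a' := Λ.E.act g⁻¹
  set b := Λ.E.act h
  set b' := Λ.E.act h⁻¹
  have haa' : a * a' = 1 := by rw [← map_mul, mul_inv_cancel, map_one]
  have hbb' : b * b' = 1 := by rw [← map_mul, mul_inv_cancel, map_one]
  have ha'a : a' * a = 1 := by rw [← map_mul, inv_mul_cancel, map_one]
  have hb'b : b' * b = 1 := by rw [← map_mul, inv_mul_cancel, map_one]
  -- `x + c x⁻¹ = r`
  have hlin : ∀ {x x' : Module.End (HeckePoly N S) Λ.E.V} {r : HeckePoly N S} {c : ℕ},
      x * x' = 1 → x * x - algebraMap (HeckePoly N S) _ r * x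
        + algebraMap (HeckePoly N S) _ (c : HeckePoly N S) = 0 →
      ∀ v, r • v = x v + (c : HeckePoly N S) • x' v := by
    intro x x' r c hx hq v
    have h1 := LinearMap.congr_fun hq (x' v)
    have hxv : x (x' v) = v := by
      rw [← Module.End.mul_apply, hx, Module.End.one_apply]
    simp only [LinearMap.add_apply, LinearMap.sub_apply, Module.End.mul_apply,
      Module.algebraMap_end_apply, LinearMap.zero_apply, hxv] at h1
    rw [← sub_eq_zero, ← neg_eq_zero, ← h1]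
    abel
  have E1 := hlin haa' Hg.1
  have E2 := hlin hbb' Hh.1
  have E3 := hlin (x := Λ.E.act (g * h)) (x' := b' * a') (by
    rw [map_mul, mul_assoc, ← mul_assoc b, hbb', one_mul, haa']) H3.1
  have E4 := hlin (x := Λ.E.act (g * h⁻¹)) (x' := b * a') (by
    rw [map_mul, mul_assoc, ← mul_assoc b', hb'b, one_mul, haa']) H4.1
  intro v
  have s3 := Λ.smul_eq k3
  have s4 := Λ.smul_eq k4
  have T1 : rg • rh • v = a (b v) + (ch : HeckePoly N S) • a (b' v)
      + ((cg : HeckePoly N S) • b (a' v) + (cg : HeckePoly N S) • (ch : HeckePoly N S) • b' (a' v)) := by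
    rw [smul_comm, E1 v, smul_add, ← map_smul a rh v, E2 v, map_add, map_smul, smul_comm rh,
      E2 (a' v), smul_add]
  have T3 : r3 • v = a (b v) + (cg : HeckePoly N S) • (ch : HeckePoly N S) • b' (a' v) := by
    rw [E3 v, s3, Nat.cast_mul, mul_smul, map_mul]
    rfl
  have T4 : (ch : HeckePoly N S) • r4 • v = (ch : HeckePoly N S) • a (b' v)
      + (cg : HeckePoly N S) • b (a' v) := by
    rw [E4 v, smul_add, ← mul_smul, ← Nat.cast_mul, map_mul]
    congr 1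
    exact s4 _
  rw [sub_smul, add_smul, mul_smul, mul_smul, T1, T3, T4]
  abel

end Fermat.Agent.RepTwo
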