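import Mathlib
import Fermat.Prelude.Def_CuspForm_HeckeGaloisRepDatum
import Fermat.Agent.RepTwo.TraceForm
import Fermat.Agent.RepTwo.Approx

/-!
# S31 from abstract Eichler–Shimura data
-/

set_option autoImplicit false

open Polynomial

namespace Fermat.Agent.RepTwo

section Charpoly

variable {R V : Type*} [CommRing R] [AddCommGroup V] [Module R V] [Module.Free R V]
  [Module.Finite R V]

theorem trace_det_of_charpoly (h2 : Module.finrank R V = 2) [Nontrivial R] {f : Module.End R V}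
    {t d : R} (h : f.charpoly = X ^ 2 - C t * X + C d) :
    LinearMap.trace R V f = t ∧ LinearMap.det f = d := by
  classical
  let b := Module.finBasisOfFinrankEq R V h2
  have hc : (LinearMap.toMatrix b b f).charpoly = X ^ 2 - C t * X + C d := by
    rw [LinearMap.charpoly_toMatrix, h]
  constructor
  · rw [LinearMap.trace_eq_matrix_trace R b, Matrix.trace_eq_neg_charpoly_coeff, hc]
    simp [coeff_C]
  · rw [← LinearMap.det_toMatrix b, Matrix.det_eq_sign_charpoly_coeff, hc]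
    simp

/-- If `f V ⊆ I V` then `tr f ∈ I`. -/
theorem trace_mem_of_mem_smul (I : Ideal R) (f : Module.End R V)
    (h : ∀ v, f v ∈ I • (⊤ : Submodule R V)) : LinearMap.trace R V f ∈ I := by
  classical
  let b := Module.Free.chooseBasis R V
  rw [LinearMap.trace_eq_matrix_trace R b, Matrix.trace]
  refine Ideal.sum_mem _ fun i _ => ?_
  rw [Matrix.diag_apply, LinearMap.toMatrix_apply]
  have h1 := h (b i)
  have : ∀ w ∈ I • (⊤ : Submodule R V), b.repr w i ∈ I := by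
    intro w hw
    refine Submodule.smul_induction_on hw (fun r hr n _ => ?_) fun x y hx hy => ?_
    · rw [map_smul, Finsupp.smul_apply, smul_eq_mul]
      exact I.mul_mem_right _ hr
    · rw [map_add, Finsupp.add_apply]
      exact I.add_mem hx hy
  exact this _ h1

end Charpoly

/-- the trace of an adic Galois representation with the Eichler–Shimura charpolys is approximated
by Hecke polynomials. -/
theorem trace_sub_mem {N p : ℕ} [NeZero N] {S : Set ℕ} {T : Type} [CommRing T] [IsLocalRing T]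
    (ρ : GaloisRepAdic T) (π : CuspForm.heckeAlgebra N 2 S →+* T)
    (hρ : ∀ (ℓ : ℕ) (hℓ : ℓ.Prime) (hℓN : ¬ ℓ ∣ N) (hℓS : ℓ ∉ S), ℓ ≠ p →
      ∀ A : ValuationSubring (AlgebraicClosure ℚ), A.LiesOverPrime ℓ →
      ∀ σ : AlgebraicClosure ℚ ≃ₐ[ℚ] AlgebraicClosure ℚ, A.IsFrobeniusAt σ ℓ →
        LinearMap.charpoly (ρ.ρ σ) =
          X ^ 2 - C (π (CuspForm.heckeAlgebra.T hℓ hℓN hℓS)) * X + C ((ℓ : T)))
    (I : Ideal T) {L : IntermediateField ℚ (AlgebraicClosure ℚ)}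
    (hL : ∀ σ : GQ, (∀ x ∈ L, σ x = x) → ∀ v : ρ.V, ρ.ρ σ v - v ∈ I • (⊤ : Submodule T ρ.V))
    {g : GQ} {r : HeckePoly N S} {c : ℕ} {ℓ : GoodPrime N S}
    {A : ValuationSubring (AlgebraicClosure ℚ)} {F : GQ} {k : ℕ}
    (H : IsApprox N p S L g r c ℓ A F k) :
    ρ.trace g - π (evalHecke N S r) ∈ I := by
  have h1 := hρ ℓ ℓ.2.1 ℓ.2.2.1 ℓ.2.2.2 H.ne A H.lies F H.frob
  obtain ⟨ht, hd⟩ := trace_det_of_charpoly ρ.finrank_eq h1
  have h2 : LinearMap.trace T ρ.V (ρ.ρ (F ^ k)) = π (evalHecke N S r) := by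
    rw [map_pow, trace_pow_of_finrank_two ρ.finrank_eq, ht, hd, H.hr]
    change _ = (π.comp (evalHecke N S : HeckePoly N S →+* _)) _
    rw [map_dick]
    congr 1
    · rw [RingHom.comp_apply]
      change _ = π (evalHecke N S (MvPolynomial.X ℓ))
      rw [evalHecke_X]
    · rw [map_natCast]
  rw [← h2, GaloisRepAdic.trace, ← map_sub]
  apply trace_mem_of_mem_smul
  intro v
  -- `ρ g v - ρ (F^k) v = ρ (F^k) (ρ ((F^k)⁻¹ g) v - v)`
  have h3 : ∀ x ∈ L, ((F ^ k)⁻¹ * g) x = x := by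
    intro x hx
    rw [AlgEquiv.mul_apply, H.eqOn x hx]
    exact (F ^ k).symm_apply_apply x
  have h4 := hL _ h3 v
  have h5 : (ρ.ρ g - ρ.ρ (F ^ k)) v = ρ.ρ (F ^ k) (ρ.ρ ((F ^ k)⁻¹ * g) v - v) := by
    rw [map_sub, LinearMap.sub_apply, ← Module.End.mul_apply, ← map_mul, mul_inv_cancel_left]
  rw [h5]
  refine Submodule.smul_induction_on h4 (fun r hr n _ => ?_) fun x y hx hy => ?_
  · rw [map_smul]
    exact Submodule.smul_mem_smul hr Submodule.mem_top
  · rw [map_add]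
    exact Submodule.add_mem _ hx hy

/-- **S31 from abstract Eichler–Shimura data.** -/
theorem isUnramifiedAt_of_ES (hFD : FrobeniusDensity) {p : ℕ} {N : ℕ} [NeZero N] {S : Finset ℕ}
    {T : Type} [CommRing T] [IsLocalRing T] [IsAdicComplete (IsLocalRing.maximalIdeal T) T]
    (hp : p.Prime) (hpT : (p : T) ∈ IsLocalRing.maximalIdeal T) (hpS : p ∈ S)
    (hNS : ∀ q : ℕ, q.Prime → q ∣ N → q ∈ S)
    (hES : ∀ n, Nonempty (ESModule N p (↑S : Set ℕ) n))
    (π : CuspForm.heckeAlgebra N 2 (↑S : Set ℕ) →+* T) (ρ : GaloisRepAdic T)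
    (hρ : ∀ (ℓ : ℕ) (hℓ : ℓ.Prime) (hℓN : ¬ ℓ ∣ N) (hℓS : ℓ ∉ (↑S : Set ℕ)), ℓ ≠ p →
      ∀ A : ValuationSubring (AlgebraicClosure ℚ), A.LiesOverPrime ℓ →
      ∀ σ : AlgebraicClosure ℚ ≃ₐ[ℚ] AlgebraicClosure ℚ, A.IsFrobeniusAt σ ℓ →
        LinearMap.charpoly (ρ.ρ σ) =
          X ^ 2 - C (π (CuspForm.heckeAlgebra.T hℓ hℓN hℓS)) * X + C ((ℓ : T)))
    (habs : ρ.residual.IsAbsolutelyIrreducible)
    (q : ℕ) (hq : q.Prime) (hqN : ¬ q ∣ N) (hqp : q ≠ p) :
    ρ.IsUnramifiedAt q := by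
  intro A hA τ hτ
  -- it suffices to show that all traces vanish
  suffices htr : ∀ g : GQ, ρ.trace (g * τ) = ρ.trace g by
    have h0 : ρ.ρ τ - 1 = 0 := by
      apply eq_zero_of_trace_mul_eq_zero
      intro g
      have hg : g ∈ Submodule.span T (Set.range ρ.ρ) := by
        rw [span_range_eq_top_of_absIrr ρ habs]; exact Submodule.mem_top
      induction hg using Submodule.span_induction with
      | mem x hx =>
        obtain ⟨σ, rfl⟩ := hx
        rw [mul_sub, mul_one, ← map_mul, map_sub, sub_eq_zero]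
        exact htr σ
      | zero => rw [zero_mul, map_zero]
      | add x y _ _ hx hy => rw [add_mul, map_add, hx, hy, add_zero]
      | smul a x _ hx => rw [smul_mul_assoc, map_smul, hx, smul_zero]
    exact sub_eq_zero.mp h0
  intro g
  rw [← sub_eq_zero]
  apply IsHausdorff.haus (I := IsLocalRing.maximalIdeal T) inferInstance
  intro n
  rw [SModEq.zero, smul_eq_mul, Ideal.mul_top]
  obtain ⟨E⟩ := hES n
  obtain ⟨m, hm⟩ := E.torsion
  obtain ⟨L1, hL1f, hL1⟩ := E.finiteLevel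
  obtain ⟨L2, hL2f, hL2⟩ := ρ.isAdicContinuous n
  -- a primitive root of unity
  have : NeZero ((p ^ m : ℕ) : AlgebraicClosure ℚ) :=
    ⟨by exact_mod_cast pow_ne_zero m hp.ne_zero⟩
  obtain ⟨ζ, hζ⟩ := HasEnoughRootsOfUnity.exists_primitiveRoot (AlgebraicClosure ℚ) (p ^ m)
  have hζint : IsIntegral ℚ ζ := Algebra.IsIntegral.isIntegral ζ
  have : FiniteDimensional ℚ (IntermediateField.adjoin ℚ {ζ}) :=
    IntermediateField.adjoin.finiteDimensional hζint
  have : FiniteDimensional ℚ ↥(L1 ⊔ L2) := IntermediateField.finiteDimensional_sup L1 L2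
  set L : IntermediateField ℚ (AlgebraicClosure ℚ) :=
    (L1 ⊔ L2) ⊔ IntermediateField.adjoin ℚ {ζ} with hLdef
  have : FiniteDimensional ℚ L := IntermediateField.finiteDimensional_sup _ _
  have hζL : ζ ∈ L := by
    have : ζ ∈ IntermediateField.adjoin ℚ {ζ} := IntermediateField.mem_adjoin_simple_self ℚ ζ
    exact (le_sup_right : IntermediateField.adjoin ℚ {ζ} ≤ L) this
  have hLE : ∀ σ : GQ, (∀ x ∈ L, σ x = x) → E.act σ = 1 := fun σ hσ =>
    hL1 σ fun x hx => hσ x ((le_sup_left.trans le_sup_left : L1 ≤ L) hx)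
  have hLρ : ∀ σ : GQ, (∀ x ∈ L, σ x = x) → ∀ v : ρ.V,
      ρ.ρ σ v - v ∈ (IsLocalRing.maximalIdeal T ^ n) • (⊤ : Submodule T ρ.V) := fun σ hσ =>
    hL2 σ fun x hx => hσ x ((le_sup_right.trans le_sup_left : L2 ≤ L) hx)
  obtain ⟨r, c, ℓ, B, F, k, H⟩ := exists_isApprox (p := p) hFD hpS hNS L g
  obtain ⟨r', c', ℓ', B', F', k', H'⟩ := exists_isApprox (p := p) hFD hpS hNS L (g * τ)
  have hqNp : ¬ q ∣ N * p := by
    intro h
    rcases (Nat.Prime.dvd_mul hq).mp h with h | h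
    · exact hqN h
    · exact hqp ((Nat.prime_dvd_prime_iff_eq hq hp).mp h)
  have hact : E.act g = E.act (g * τ) := by
    rw [map_mul, E.unramified q hq hqNp A hA τ hτ, mul_one]
  have hroot : g ζ = (g * τ) ζ := by
    rw [AlgEquiv.mul_apply, inertia_apply_root hq hp hqp hA hτ hζ.pow_eq_one]
  obtain ⟨u, hu⟩ := E.eval_sub_eval hp hm hLE hζL hζ hact hroot H H'
  have e1 := trace_sub_mem ρ π hρ _ hLρ H
  have e2 := trace_sub_mem ρ π hρ _ hLρ H'
  have e3 : π (evalHecke N _ r) - π (evalHecke N _ r') ∈ IsLocalRing.maximalIdeal T ^ n := by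
    rw [← map_sub, hu, map_nsmul, nsmul_eq_mul]
    apply Ideal.mul_mem_right
    push_cast
    exact Ideal.pow_mem_pow hpT n
  have e4 : ρ.trace (g * τ) - ρ.trace g =
      (ρ.trace (g * τ) - π (evalHecke N _ r')) - (π (evalHecke N _ r) - π (evalHecke N _ r'))
        - (ρ.trace g - π (evalHecke N _ r)) := by ring
  rw [e4]
  exact Ideal.sub_mem _ (Ideal.sub_mem _ e2 e3) e1

end Fermat.Agent.RepTwo
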