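import Mathlib
import Fermat.Agent.RepTwo.S31Core
import Fermat.Agent.RepTwo.Level
import Fermat.Prelude.Def_GaloisRep_LocalConditions

/-!
# Traces and determinants of adic representations from Eichler–Shimura modules
-/

set_option autoImplicit false

open Polynomial

namespace Fermat.Agent.RepTwo

section Det

variable {R V : Type*} [CommRing R] [AddCommGroup V] [Module R V] [Module.Free R V]
  [Module.Finite R V]

/-- Congruent endomorphisms have congruent determinants. -/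
theorem det_sub_det_mem (I : Ideal R) (f g : Module.End R V)
    (h : ∀ v, f v - g v ∈ I • (⊤ : Submodule R V)) : LinearMap.det f - LinearMap.det g ∈ I := by
  classical
  let b := Module.Free.chooseBasis R V
  rw [← LinearMap.det_toMatrix b, ← LinearMap.det_toMatrix b, ← Ideal.Quotient.mk_eq_mk_iff_sub_mem,
    RingHom.map_det, RingHom.map_det]
  congr 1
  ext i j
  rw [RingHom.mapMatrix_apply, RingHom.mapMatrix_apply, Matrix.map_apply, Matrix.map_apply,
    Ideal.Quotient.mk_eq_mk_iff_sub_mem, LinearMap.toMatrix_apply, LinearMap.toMatrix_apply]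
  have : ∀ w ∈ I • (⊤ : Submodule R V), b.repr w i ∈ I := by
    intro w hw
    refine Submodule.smul_induction_on hw (fun r hr n _ => ?_) fun x y hx hy => ?_
    · rw [map_smul, Finsupp.smul_apply, smul_eq_mul]
      exact I.mul_mem_right _ hr
    · rw [map_add, Finsupp.add_apply]
      exact I.add_mem hx hy
  have h1 := this _ (h (b j))
  rwa [map_sub, Finsupp.sub_apply] at h1

end Det

theorem det_sub_mem {N p : ℕ} [NeZero N] {S : Set ℕ} {T : Type} [CommRing T] [IsLocalRing T]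
    (ρ : GaloisRepAdic T) (π : CuspForm.heckeAlgebra N 2 S →+* T)
    (hρ : ∀ (ℓ : ℕ) (hℓ : ℓ.Prime) (hℓN : ¬ ℓ ∣ N) (hℓS : ℓ ∉ S), ℓ ≠ p →
      ∀ A : ValuationSubring (AlgebraicClosure ℚ), A.LiesOverPrime ℓ →
      ∀ σ : AlgebraicClosure ℚ ≃ₐ[ℚ] AlgebraicClosure ℚ, A.IsFrobeniusAt σ ℓ →
        LinearMap.charpoly (ρ.ρ σ) =
          X ^ 2 - C (π (CuspForm.heckeAlgebra.T hℓ hℓN hℓS)) * X + C ((ℓ : T)))
    (I : Ideal T) {L : IntermediateField ℚ (AlgebraicClosure ℚ)}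
    (hL : ∀ σ : GQ, (∀ x ∈ L, σ x = x) → ∀ v : ρ.V, ρ.ρ σ v - v ∈ I • (⊤ : Submodule T ρ.V))
    {g : GQ} {r : HeckePoly N S} {c : ℕ} {ℓ : GoodPrime N S}
    {A : ValuationSubring (AlgebraicClosure ℚ)} {F : GQ} {k : ℕ}
    (H : IsApprox N p S L g r c ℓ A F k) :
    LinearMap.det (ρ.ρ g) - (c : T) ∈ I := by
  have h1 := hρ ℓ ℓ.2.1 ℓ.2.2.1 ℓ.2.2.2 H.ne A H.lies F H.frob
  obtain ⟨ht, hd⟩ := trace_det_of_charpoly ρ.finrank_eq h1
  have h2 : LinearMap.det (ρ.ρ (F ^ k)) = (c : T) := by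
    rw [map_pow, map_pow, hd, H.hc]
    push_cast
    rfl
  rw [← h2]
  apply det_sub_det_mem
  intro v
  have h3 : ∀ x ∈ L, ((F ^ k)⁻¹ * g) x = x := by
    intro x hx
    rw [AlgEquiv.mul_apply, H.eqOn x hx]
    exact (F ^ k).symm_apply_apply x
  have h4 := hL _ h3 v
  have h5 : ρ.ρ g v - ρ.ρ (F ^ k) v = ρ.ρ (F ^ k) (ρ.ρ ((F ^ k)⁻¹ * g) v - v) := by
    rw [map_sub, ← Module.End.mul_apply, ← map_mul, mul_inv_cancel_left]
  rw [h5]
  refine Submodule.smul_induction_on h4 (fun r hr n _ => ?_) fun x y hx hy => ?_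
  · rw [map_smul]
    exact Submodule.smul_mem_smul hr Submodule.mem_top
  · rw [map_add]
    exact Submodule.add_mem _ hx hy

/-- **Traces and determinants of a representation are determined modulo `p ^ n` by the quadratic
relations on an Eichler–Shimura module.** -/
theorem trace_det_sub_mem_of_quad {p : ℕ} {N : ℕ} [NeZero N] {S : Finset ℕ}
    {T : Type} [CommRing T] [IsLocalRing T]
    (hp : p.Prime) (hpT : (p : T) ∈ IsLocalRing.maximalIdeal T) (hpS : p ∈ S)
    (hNS : ∀ q : ℕ, q.Prime → q ∣ N → q ∈ S)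
    (π : CuspForm.heckeAlgebra N 2 (↑S : Set ℕ) →+* T) (ρ : GaloisRepAdic T)
    (hρ : ∀ (ℓ : ℕ) (hℓ : ℓ.Prime) (hℓN : ¬ ℓ ∣ N) (hℓS : ℓ ∉ (↑S : Set ℕ)), ℓ ≠ p →
      ∀ A : ValuationSubring (AlgebraicClosure ℚ), A.LiesOverPrime ℓ →
      ∀ σ : AlgebraicClosure ℚ ≃ₐ[ℚ] AlgebraicClosure ℚ, A.IsFrobeniusAt σ ℓ →
        LinearMap.charpoly (ρ.ρ σ) =
          X ^ 2 - C (π (CuspForm.heckeAlgebra.T hℓ hℓN hℓS)) * X + C ((ℓ : T)))
    {n : ℕ} (Λ : Level N p (↑S : Set ℕ) n) {g : GQ} {r : HeckePoly N (↑S : Set ℕ)} {c : ℕ}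
    (hq : Λ.Quad g r c) :
    ρ.trace g - π (evalHecke N _ r) ∈ IsLocalRing.maximalIdeal T ^ n ∧
      LinearMap.det (ρ.ρ g) - (c : T) ∈ IsLocalRing.maximalIdeal T ^ n := by
  obtain ⟨L2, hL2f, hL2⟩ := ρ.isAdicContinuous n
  have := Λ.fin
  have : FiniteDimensional ℚ ↥(Λ.L ⊔ L2) := IntermediateField.finiteDimensional_sup Λ.L L2
  have hLρ : ∀ σ : GQ, (∀ x ∈ Λ.L ⊔ L2, σ x = x) → ∀ v : ρ.V,
      ρ.ρ σ v - v ∈ (IsLocalRing.maximalIdeal T ^ n) • (⊤ : Submodule T ρ.V) := fun σ hσ =>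
    hL2 σ fun x hx => hσ x ((le_sup_right : L2 ≤ Λ.L ⊔ L2) hx)
  obtain ⟨r', c', ℓ, B, F, k, H⟩ := exists_isApprox (p := p) frobeniusDensity hpS hNS (Λ.L ⊔ L2) g
  have hq' := Λ.quad_of_isApprox hp le_sup_left H
  obtain ⟨⟨u, hu⟩, hc⟩ := Λ.congr hp rfl rfl hq hq'
  have hpn : ((p ^ n : ℕ) : T) ∈ IsLocalRing.maximalIdeal T ^ n := by
    push_cast
    exact Ideal.pow_mem_pow hpT n
  constructor
  · have e1 := trace_sub_mem ρ π hρ _ hLρ H
    have e3 : π (evalHecke N _ r) - π (evalHecke N _ r') ∈ IsLocalRing.maximalIdeal T ^ n := by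
      rw [← map_sub, hu, map_nsmul, nsmul_eq_mul]
      exact Ideal.mul_mem_right _ _ hpn
    have e4 : ρ.trace g - π (evalHecke N _ r) =
        (ρ.trace g - π (evalHecke N _ r')) - (π (evalHecke N _ r) - π (evalHecke N _ r')) := by
      ring
    rw [e4]
    exact Ideal.sub_mem _ e1 e3
  · have e1 := det_sub_mem ρ π hρ _ hLρ H
    have e3 : (c : T) - (c' : T) ∈ IsLocalRing.maximalIdeal T ^ n := by
      have hdvd : ((p ^ n : ℕ) : ℤ) ∣ (c : ℤ) - (c' : ℤ) := by
        have h1 : ((p ^ Λ.m : ℕ) : ℤ) ∣ (c' : ℤ) - (c : ℤ) := (Nat.modEq_iff_dvd).mp hc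
        have h2 : ((p ^ n : ℕ) : ℤ) ∣ ((p ^ Λ.m : ℕ) : ℤ) := by
          exact_mod_cast pow_dvd_pow p Λ.le
        have h3 := h2.trans h1
        rwa [← dvd_neg, neg_sub] at h3
      obtain ⟨d, hd⟩ := hdvd
      have h4 : (c : T) - (c' : T) = ((p ^ n : ℕ) : T) * (d : T) := by
        have := congrArg (Int.cast : ℤ → T) hd
        push_cast at this ⊢
        exact this
      rw [h4]
      exact Ideal.mul_mem_right _ _ hpn
    have e4 : LinearMap.det (ρ.ρ g) - (c : T) =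
        (LinearMap.det (ρ.ρ g) - (c' : T)) - ((c : T) - (c' : T)) := by ring
    rw [e4]
    exact Ideal.sub_mem _ e1 e3

/-- an endomorphism of a free module of rank two with trace `t` and determinant `d` -/
theorem charpoly_eq_of_trace_det {R V : Type*} [CommRing R] [Nontrivial R] [AddCommGroup V]
    [Module R V] [Module.Free R V] [Module.Finite R V] (h2 : Module.finrank R V = 2)
    (f : Module.End R V) :
    f.charpoly = X ^ 2 - C (LinearMap.trace R V f) * X + C (LinearMap.det f) := by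
  classical
  let b := Module.finBasisOfFinrankEq R V h2
  rw [← LinearMap.charpoly_toMatrix f b, Matrix.charpoly_fin_two, LinearMap.trace_eq_matrix_trace R b,
    LinearMap.det_toMatrix]

/-- **S34 from Eichler–Shimura modules on which inertia at `q` is quadratic unipotent.** -/
theorem isUnipotentOnInertiaAt_of_sq {p : ℕ} {N : ℕ} [NeZero N] {S : Finset ℕ}
    {T : Type} [CommRing T] [IsLocalRing T] [IsAdicComplete (IsLocalRing.maximalIdeal T) T]
    (hp : p.Prime) (hpT : (p : T) ∈ IsLocalRing.maximalIdeal T) (hpS : p ∈ S)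
    (hNS : ∀ q : ℕ, q.Prime → q ∣ N → q ∈ S)
    (π : CuspForm.heckeAlgebra N 2 (↑S : Set ℕ) →+* T) (ρ : GaloisRepAdic T)
    (hρ : ∀ (ℓ : ℕ) (hℓ : ℓ.Prime) (hℓN : ¬ ℓ ∣ N) (hℓS : ℓ ∉ (↑S : Set ℕ)), ℓ ≠ p →
      ∀ A : ValuationSubring (AlgebraicClosure ℚ), A.LiesOverPrime ℓ →
      ∀ σ : AlgebraicClosure ℚ ≃ₐ[ℚ] AlgebraicClosure ℚ, A.IsFrobeniusAt σ ℓ →
        LinearMap.charpoly (ρ.ρ σ) =
          X ^ 2 - C (π (CuspForm.heckeAlgebra.T hℓ hℓN hℓS)) * X + C ((ℓ : T)))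
    (q : ℕ) (hq : q.Prime) (hqp : q ≠ p)
    (hES : ∀ n, ∃ E : ESModule N p (↑S : Set ℕ) n, ∀ A : ValuationSubring (AlgebraicClosure ℚ),
      A.LiesOverPrime q → ∀ s ∈ A.inertiaSubgroupIn ℚ, ∀ v : E.V,
        E.act s (E.act s v) - E.act s v - E.act s v + v = 0) :
    ρ.IsUnipotentOnInertiaAt q := by
  intro A hA s hs
  have key : ∀ n, ρ.trace s - 2 ∈ IsLocalRing.maximalIdeal T ^ n ∧
      LinearMap.det (ρ.ρ s) - 1 ∈ IsLocalRing.maximalIdeal T ^ n := by
    intro n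
    obtain ⟨E, hE⟩ := hES n
    obtain ⟨L1, hL1f, hL1⟩ := E.finiteLevel
    obtain ⟨m, hm⟩ := E.torsion
    set M := max n m with hM
    have : NeZero ((p ^ M : ℕ) : AlgebraicClosure ℚ) :=
      ⟨by exact_mod_cast pow_ne_zero M hp.ne_zero⟩
    obtain ⟨ζ, hζ⟩ := HasEnoughRootsOfUnity.exists_primitiveRoot (AlgebraicClosure ℚ) (p ^ M)
    have : FiniteDimensional ℚ (IntermediateField.adjoin ℚ {ζ}) :=
      IntermediateField.adjoin.finiteDimensional (Algebra.IsIntegral.isIntegral ζ)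
    let Λ : Level N p (↑S : Set ℕ) n := {
      E := E
      m := M
      le := le_max_left _ _
      torsion := fun x => by
        obtain ⟨k, hk⟩ := Nat.exists_eq_add_of_le (le_max_right n m)
        rw [hM, hk, pow_add, mul_comm, mul_smul, hm, smul_zero]
      ζ := ζ
      prim := hζ
      L := L1 ⊔ IntermediateField.adjoin ℚ {ζ}
      fin := IntermediateField.finiteDimensional_sup _ _
      ζ_mem := (le_sup_right : IntermediateField.adjoin ℚ {ζ} ≤ L1 ⊔ _)
        (IntermediateField.mem_adjoin_simple_self ℚ ζ)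
      act_eq := fun σ hσ => hL1 σ fun x hx => hσ x ((le_sup_left : L1 ≤ L1 ⊔ _) hx) }
    have hquad : Λ.Quad s 2 1 := by
      refine ⟨LinearMap.ext fun v => ?_, ?_⟩
      · have h1 := hE A hA s hs v
        simp only [LinearMap.add_apply, LinearMap.sub_apply, Module.End.mul_apply,
          Module.algebraMap_end_apply, LinearMap.zero_apply, Nat.cast_one, one_smul]
        change E.act s (E.act s v) - (2 : HeckePoly N (↑S : Set ℕ)) • E.act s v + v = 0
        rw [two_smul, ← h1]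
        abel
      · rw [pow_one]
        exact inertia_apply_root hq hp hqp hA hs hζ.pow_eq_one
    have h := trace_det_sub_mem_of_quad hp hpT hpS hNS π ρ hρ Λ hquad
    rw [map_ofNat, map_ofNat, Nat.cast_one] at h
    exact h
  have ht : ρ.trace s = 2 := by
    rw [← sub_eq_zero]
    apply IsHausdorff.haus (I := IsLocalRing.maximalIdeal T) inferInstance
    intro n
    rw [SModEq.zero, smul_eq_mul, Ideal.mul_top]
    exact (key n).1
  have hd : LinearMap.det (ρ.ρ s) = 1 := by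
    rw [← sub_eq_zero]
    apply IsHausdorff.haus (I := IsLocalRing.maximalIdeal T) inferInstance
    intro n
    rw [SModEq.zero, smul_eq_mul, Ideal.mul_top]
    exact (key n).2
  rw [charpoly_eq_of_trace_det ρ.finrank_eq, hd]
  have ht' : LinearMap.trace T ρ.V (ρ.ρ s) = 2 := ht
  rw [ht', map_one, map_ofNat]
  ring

end Fermat.Agent.RepTwo
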