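import Mathlib

/-!
# Stable lattices for bounded matrix representations
-/

set_option autoImplicit false

open Matrix

namespace Fermat.Agent.RepTwo

section

variable {O L : Type*} [CommRing O] [IsDomain O] [IsPrincipalIdealRing O] [Field L] [Algebra O L]
  [IsFractionRing O L] {G : Type*} [Group G]

/-- A matrix representation over the fraction field with bounded denominators can be conjugated
into an integral representation. -/
theorem exists_integral_conj (M : G →* Matrix (Fin 2) (Fin 2) L) (D : O) (hD : D ≠ 0)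
    (hM : ∀ g i j, ∃ z : O, algebraMap O L D * M g i j = algebraMap O L z) :
    ∃ P Q : Matrix (Fin 2) (Fin 2) L, P * Q = 1 ∧ Q * P = 1 ∧
      ∀ g i j, ∃ z : O, (Q * M g * P) i j = algebraMap O L z := by
  classical
  have hD' : algebraMap O L D ≠ 0 := by
    rw [Ne, FaithfulSMul.algebraMap_eq_zero_iff]; exact hD
  set Λ : Submodule O (Fin 2 → L) :=
    Submodule.span O (Set.range fun p : G × Fin 2 => (M p.1) *ᵥ (Pi.single p.2 1)) with hΛ
  -- bounding lattice
  let φ : (Fin 2 → O) →ₗ[O] (Fin 2 → L) :=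
    { toFun := fun v i => (algebraMap O L D)⁻¹ * algebraMap O L (v i)
      map_add' := fun v w => by ext i; simp [mul_add]
      map_smul' := fun a v => by
        ext i
        simp only [Pi.smul_apply, smul_eq_mul, map_mul, RingHom.id_apply, Algebra.smul_def]
        ring }
  have hle : Λ ≤ LinearMap.range φ := by
    rw [hΛ, Submodule.span_le]
    rintro _ ⟨⟨g, j⟩, rfl⟩
    choose z hz using fun i => hM g i j
    refine ⟨z, ?_⟩
    ext i
    change (algebraMap O L D)⁻¹ * algebraMap O L (z i) = _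
    rw [← hz i, ← mul_assoc, inv_mul_cancel₀ hD', one_mul]
    simp
  have hfg : Λ.FG := by
    have h1 : IsNoetherian O (LinearMap.range φ) := inferInstance
    have h2 : IsNoetherian O Λ := isNoetherian_of_le hle
    rw [← Module.Finite.iff_fg]
    infer_instance
  have hspan : Submodule.span L (Λ : Set (Fin 2 → L)) = ⊤ := by
    rw [eq_top_iff, ← (Pi.basisFun L (Fin 2)).span_eq, Submodule.span_le]
    rintro _ ⟨j, rfl⟩
    apply Submodule.subset_span
    apply Submodule.subset_span
    refine ⟨(1, j), ?_⟩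
    change (M 1) *ᵥ (Pi.single j 1) = _
    rw [map_one, Matrix.one_mulVec, Pi.basisFun_apply]
  have : Submodule.IsLattice L Λ := ⟨hfg, hspan⟩
  have hstab : ∀ g, ∀ v ∈ Λ, (M g) *ᵥ v ∈ Λ := by
    intro g v hv
    induction hv using Submodule.span_induction with
    | mem v hv =>
      obtain ⟨⟨h, j⟩, rfl⟩ := hv
      apply Submodule.subset_span
      refine ⟨(g * h, j), ?_⟩
      change (M (g * h)) *ᵥ _ = (M g) *ᵥ ((M h) *ᵥ _)
      rw [map_mul, ← Matrix.mulVec_mulVec]
    | zero => rw [Matrix.mulVec_zero]; exact Λ.zero_mem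
    | add v w _ _ hv hw => rw [Matrix.mulVec_add]; exact Λ.add_mem hv hw
    | smul a v _ hv => rw [Matrix.mulVec_smul]; exact Λ.smul_mem a hv
  let b : Module.Basis (Fin 2) O Λ := Module.finBasisOfFinrankEq O Λ
    (by rw [Submodule.IsLattice.finrank_of_pi L Λ]; rfl)
  let b' : Module.Basis (Fin 2) L (Fin 2 → L) := b.extendOfIsLattice L
  let P : Matrix (Fin 2) (Fin 2) L := (Pi.basisFun L (Fin 2)).toMatrix b'
  let Q : Matrix (Fin 2) (Fin 2) L := b'.toMatrix (Pi.basisFun L (Fin 2))
  refine ⟨P, Q, Module.Basis.toMatrix_mul_toMatrix_flip _ _,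
    Module.Basis.toMatrix_mul_toMatrix_flip _ _, ?_⟩
  intro g i j
  have h1 : Q * M g * P = LinearMap.toMatrix b' b' (Matrix.toLin' (M g)) := by
    have := basis_toMatrix_mul_linearMap_toMatrix_mul_basis_toMatrix b'
      (Pi.basisFun L (Fin 2)) b' (Pi.basisFun L (Fin 2)) (Matrix.toLin' (M g))
    rw [← this]
    congr 2
    rw [LinearMap.toMatrix_eq_toMatrix', LinearMap.toMatrix'_toLin']
  rw [h1, LinearMap.toMatrix_apply, Matrix.toLin'_apply]
  have hb : b' j = (b j : Fin 2 → L) := Module.Basis.extendOfIsLattice_apply L b j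
  have hv : (M g) *ᵥ (b' j) ∈ Λ := by rw [hb]; exact hstab g _ (b j).2
  refine ⟨b.repr ⟨_, hv⟩ i, ?_⟩
  -- expand in the basis `b`
  have h2 : (M g) *ᵥ (b' j) = ∑ k, (algebraMap O L (b.repr ⟨_, hv⟩ k)) • b' k := by
    have h3 : ((∑ k, (b.repr ⟨_, hv⟩ k) • b k : Λ) : Fin 2 → L) = (M g) *ᵥ (b' j) :=
      congrArg (Subtype.val) (b.sum_repr ⟨_, hv⟩)
    refine h3.symm.trans ?_
    simp only [Submodule.coe_sum, Submodule.coe_smul]
    refine Finset.sum_congr rfl fun k _ => ?_
    have hbk : b' k = (b k : Fin 2 → L) := Module.Basis.extendOfIsLattice_apply L b k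
    rw [algebraMap_smul, hbk]
  conv_lhs => rw [h2]
  rw [map_sum, Finsupp.finsetSum_apply]
  simp only [map_smul, Module.Basis.repr_self, Finsupp.smul_apply, Finsupp.single_apply,
    smul_eq_mul, mul_ite, mul_one, mul_zero, Finset.sum_ite_eq', Finset.mem_univ, if_true]

end

end Fermat.Agent.RepTwo
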