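import Mathlib
import Fermat.Agent.RepTwo.PseudoChar
import Fermat.Agent.RepTwo.StableLattice

/-!
# Integral representations from integral pseudocharacters
-/

set_option autoImplicit false

open Matrix

namespace Fermat.Agent.RepTwo

section

variable {O : Type*} [CommRing O] [IsDomain O] {G : Type*} [Group G]

/-- clearing denominators in `traceLin`. -/
theorem exists_denominator (L : Type*) [Field L] [Algebra O L] [IsFractionRing O L] (t : G → O)
    (w : Fin 2 → Fin 2 → MonoidAlgebra L G) :
    ∃ E : O, E ≠ 0 ∧ ∃ y : Fin 2 → Fin 2 → (G →₀ O), ∀ g i j,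
      algebraMap O L E * traceLin (fun k => algebraMap O L (t k)) (w i j * MonoidAlgebra.of L G g) =
        algebraMap O L ((y i j).sum fun k a => a * t (k * g)) := by
  classical
  -- finitely many coefficients
  set s : Finset L := Finset.univ.biUnion fun i : Fin 2 => Finset.univ.biUnion fun j : Fin 2 =>
    (w i j).coeff.support.image fun k => (w i j).coeff k with hs
  obtain ⟨E, hE⟩ := IsLocalization.exist_integer_multiples_of_finset (nonZeroDivisors O) s
  have key : ∀ i j k, ∃ z : O, algebraMap O L z = algebraMap O L E * (w i j).coeff k := by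
    intro i j k
    by_cases hk : (w i j).coeff k = 0
    · exact ⟨0, by rw [hk, mul_zero, map_zero]⟩
    · obtain ⟨z, hz⟩ := hE ((w i j).coeff k) (by
        rw [hs]
        simp only [Finset.mem_biUnion, Finset.mem_univ, true_and, Finset.mem_image]
        exact ⟨i, j, k, Finsupp.mem_support_iff.mpr hk, rfl⟩)
      exact ⟨z, by rw [hz, Algebra.smul_def]⟩
  choose z hz using key
  refine ⟨E, nonZeroDivisors.coe_ne_zero E, fun i j =>
    Finsupp.onFinset (w i j).coeff.support (z i j) fun k hk => ?_, fun g i j => ?_⟩
  · rw [Finsupp.mem_support_iff]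
    intro h0
    apply hk
    have := hz i j k
    rw [h0, mul_zero, FaithfulSMul.algebraMap_eq_zero_iff] at this
    exact this
  · rw [Finsupp.onFinset_sum]
    · have hlin : ∀ u : MonoidAlgebra L G,
          traceLin (fun k => algebraMap O L (t k)) (u * MonoidAlgebra.of L G g) =
          u.coeff.sum fun k a => a * algebraMap O L (t (k * g)) := by
        intro u
        induction u using MonoidAlgebra.induction_linear with
        | zero => simp
        | add x y hx hy =>
          rw [add_mul, map_add, hx, hy, MonoidAlgebra.coeff_add, Finsupp.sum_add_index']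
          · simp
          · intros; ring
        | single k r =>
          rw [MonoidAlgebra.of_apply, MonoidAlgebra.single_mul_single, traceLin_single,
            MonoidAlgebra.coeff_single, Finsupp.sum_single_index]
          · simp
          · simp
      rw [hlin, Finsupp.sum, Finset.mul_sum, map_sum]
      refine Finset.sum_congr rfl fun k _ => ?_
      rw [map_mul, hz, mul_assoc]
    · simp

variable [IsPrincipalIdealRing O] [CharZero O]

theorem exists_integral_rep (t : G → O) (c : G → O) (one : t 1 = 2)
    (comm : ∀ g h, t (g * h) = t (h * g))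
    (mul : ∀ g h, t (g * h) + c h * t (g * h⁻¹) = t g * t h)
    (c_one : c 1 = 1) (c_mul : ∀ g h, c (g * h) = c g * c h)
    {κ : G} (hκ : κ * κ = 1) (hcκ : c κ = -1) :
    ∃ (M : G →* Matrix (Fin 2) (Fin 2) O) (E : O) (y : Fin 2 → Fin 2 → (G →₀ O)), E ≠ 0 ∧
      (∀ g, (M g).trace = t g) ∧ (∀ g, (M g).det = c g) ∧
      ∀ g i j, E * M g i j = (y i j).sum fun k a => a * t (k * g) := by
  classical
  let L := FractionRing O
  have hinj : Function.Injective (algebraMap O L) := IsFractionRing.injective O L
  let t' : G → L := fun k => algebraMap O L (t k)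
  let c' : G →* L :=
    { toFun := fun g => algebraMap O L (c g)
      map_one' := by rw [c_one, map_one]
      map_mul' := fun g h => by rw [c_mul, map_mul] }
  have hps : IsPseudoChar t' c' :=
    { one := by simp only [t']; rw [one, map_ofNat]
      comm := fun g h => by simp only [t']; rw [comm]
      mul := fun g h => by
        change algebraMap O L _ + algebraMap O L _ * algebraMap O L _ = algebraMap O L _ * _
        rw [← map_mul, ← map_add, mul, map_mul] }
  have h2 : (2 : L) ≠ 0 := by
    rw [← map_ofNat (algebraMap O L) 2, Ne, map_eq_zero_iff _ hinj]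
    exact two_ne_zero
  obtain ⟨M, w, htr, hdet, hM⟩ := hps.exists_matrix_rep h2 hκ (by
    change algebraMap O L (c κ) = -1
    rw [hcκ, map_neg, map_one])
  obtain ⟨D, hD, y, hy⟩ := exists_denominator L t w
  obtain ⟨P, Q, hPQ, hQP, hint⟩ := exists_integral_conj M D hD (fun g i j =>
    ⟨_, by rw [hM]; exact hy g i j⟩)
  -- the matrix coefficients of the conjugated representation
  set w' : Fin 2 → Fin 2 → MonoidAlgebra L G := fun i j =>
    ∑ a, ∑ b, (Q i a * P b j) • w a b with hw'
  obtain ⟨E, hE, y', hy'⟩ := exists_denominator L t w'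
  choose N hN using hint
  have hNM : ∀ g, (Matrix.of (N g)).map (algebraMap O L) = Q * M g * P := by
    intro g
    ext i j
    rw [Matrix.map_apply, Matrix.of_apply, ← hN]
  have hinj' : ∀ {A B : Matrix (Fin 2) (Fin 2) O},
      A.map (algebraMap O L) = B.map (algebraMap O L) → A = B := by
    intro A B h
    ext i j
    exact hinj (congrFun (congrFun h i) j)
  refine ⟨{ toFun := fun g => Matrix.of (N g), map_one' := ?_, map_mul' := ?_ }, E, y', hE, ?_, ?_,
    ?_⟩
  · apply hinj'
    rw [hNM, map_one, mul_one, hQP, Matrix.map_one _ (map_zero _) (map_one _)]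
  · intro g h
    apply hinj'
    rw [Matrix.map_mul, hNM, hNM, hNM, map_mul]
    calc Q * (M g * M h) * P = Q * M g * 1 * M h * P := by noncomm_ring
      _ = Q * M g * (P * Q) * M h * P := by rw [hPQ]
      _ = _ := by noncomm_ring
  · intro g
    apply hinj
    change algebraMap O L (Matrix.of (N g)).trace = _
    have : algebraMap O L (Matrix.of (N g)).trace
        = ((Matrix.of (N g)).map (algebraMap O L)).trace := by
      simp [Matrix.trace]
    rw [this, hNM, Matrix.trace_mul_comm, ← mul_assoc, hPQ, one_mul, htr]
  · intro g
    apply hinj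
    change algebraMap O L (Matrix.of (N g)).det = _
    have : algebraMap O L (Matrix.of (N g)).det
        = ((Matrix.of (N g)).map (algebraMap O L)).det := by
      rw [RingHom.map_det]; rfl
    rw [this, hNM, Matrix.det_mul, Matrix.det_mul, mul_right_comm, ← Matrix.det_mul, hQP,
      Matrix.det_one, one_mul, hdet]
    rfl
  · intro g i j
    apply hinj
    rw [map_mul]
    change algebraMap O L E * algebraMap O L (N g i j) = _
    rw [← hN, ← hy']
    congr 1
    rw [Matrix.mul_apply]
    simp only [Matrix.mul_apply, hM, hw', Finset.sum_mul, map_sum, smul_mul_assoc, map_smul,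
      smul_eq_mul]
    rw [Finset.sum_comm]
    refine Finset.sum_congr rfl fun a _ => Finset.sum_congr rfl fun b _ => ?_
    ring

end

end Fermat.Agent.RepTwo
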