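import Mathlib
import Fermat.Agent.RepTwo.Level
import Fermat.Agent.RepTwo.IntegralRep

/-!
# The `p`-adic Galois representation attached to a point of the Hecke algebra
(S30 from abstract Eichler–Shimura data)
-/

set_option autoImplicit false

open Polynomial

namespace Fermat.Agent.RepTwo

section Limit

variable {A : Type*} [CommRing A]

/-- limits of compatible sequences. -/
theorem exists_limit (I : Ideal A) [IsPrecomplete I A] (x : ℕ → A)
    (hx : ∀ m n, m ≤ n → x m - x n ∈ I ^ m) : ∃ a, ∀ n, x n - a ∈ I ^ n := by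
  obtain ⟨a, ha⟩ := IsPrecomplete.prec (I := I) (M := A) inferInstance (f := x) (by
    intro m n hmn
    rw [SModEq.sub_mem, smul_eq_mul, Ideal.mul_top]
    exact hx m n hmn)
  refine ⟨a, fun n => ?_⟩
  have := ha n
  rwa [SModEq.sub_mem, smul_eq_mul, Ideal.mul_top] at this

theorem eq_of_sub_mem (I : Ideal A) [IsHausdorff I A] {x y : A}
    (h : ∀ n, x - y ∈ I ^ n) : x = y := by
  rw [← sub_eq_zero]
  apply IsHausdorff.haus (I := I) (M := A) inferInstance
  intro n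
  rw [SModEq.zero, smul_eq_mul, Ideal.mul_top]
  exact h n

end Limit

variable {N p : ℕ} [NeZero N] {S : Finset ℕ}

/-- the union of the first `n` trivialising fields. -/
noncomputable def bigField (Λ : ∀ n, Level N p (↑S : Set ℕ) n) :
    ℕ → IntermediateField ℚ (AlgebraicClosure ℚ)
  | 0 => (Λ 0).L
  | n + 1 => bigField Λ n ⊔ (Λ (n + 1)).L

theorem bigField_finite (Λ : ∀ n, Level N p (↑S : Set ℕ) n) (n : ℕ) :
    FiniteDimensional ℚ (bigField Λ n) := by
  induction n with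
  | zero => exact (Λ 0).fin
  | succ n ih =>
    have := ih
    have := (Λ (n + 1)).fin
    exact IntermediateField.finiteDimensional_sup _ _

theorem le_bigField (Λ : ∀ n, Level N p (↑S : Set ℕ) n) {k n : ℕ} (h : k ≤ n) :
    (Λ k).L ≤ bigField Λ n := by
  induction n with
  | zero =>
    obtain rfl : k = 0 := by omega
    exact le_rfl
  | succ n ih =>
    rcases Nat.le_succ_iff.mp h with h | h
    · exact (ih h).trans le_sup_left
    · subst h
      exact le_sup_right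

theorem exists_quad (hp : p.Prime) (hpS : p ∈ S) (hNS : ∀ q : ℕ, q.Prime → q ∣ N → q ∈ S)
    (Λ : ∀ n, Level N p (↑S : Set ℕ) n) (n : ℕ) (g : GQ) :
    ∃ (r : HeckePoly N (↑S : Set ℕ)) (c : ℕ), ∀ k, k ≤ n → (Λ k).Quad g r c := by
  have := bigField_finite Λ n
  obtain ⟨r, c, ℓ, A, F, k, H⟩ := exists_isApprox frobeniusDensity hpS hNS (bigField Λ n) g
  exact ⟨r, c, fun k hk => (Λ k).quad_of_isApprox hp (le_bigField Λ hk) H⟩

section Adic

variable {A : Type*} [CommRing A] (I : Ideal A)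

theorem nsmul_mem_pow (hpI : (p : A) ∈ I) (χ : CuspForm.heckeAlgebra N 2 (↑S : Set ℕ) →+* A)
    {n : ℕ} {x : CuspForm.heckeAlgebra N 2 (↑S : Set ℕ)}
    (h : ∃ u : CuspForm.heckeAlgebra N 2 (↑S : Set ℕ), x = (p ^ n : ℕ) • u) : χ x ∈ I ^ n := by
  obtain ⟨u, rfl⟩ := h
  rw [nsmul_eq_mul, map_mul, map_natCast, Nat.cast_pow]
  exact Ideal.mul_mem_right _ _ (Ideal.pow_mem_pow hpI n)

omit [NeZero N] in
theorem sub_mem_of_modEq (hpI : (p : A) ∈ I) {n m c c' : ℕ} (hnm : n ≤ m)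
    (h : c ≡ c' [MOD p ^ m]) : (c : A) - (c' : A) ∈ I ^ n := by
  have h1 : ((p ^ m : ℕ) : ℤ) ∣ (c : ℤ) - (c' : ℤ) := (Nat.modEq_iff_dvd.mp h.symm)
  obtain ⟨d, hd⟩ := h1
  have h2 : (c : A) - (c' : A) = (p : A) ^ m * (d : A) := by
    have := congrArg (Int.cast : ℤ → A) hd
    push_cast at this
    exact this
  rw [h2]
  exact Ideal.mul_mem_right _ _ (Ideal.pow_le_pow_right hnm (Ideal.pow_mem_pow hpI m))

/-- The limiting trace and determinant functions. -/
theorem exists_trace_det (hp : p.Prime) (hpS : p ∈ S)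
    (hNS : ∀ q : ℕ, q.Prime → q ∣ N → q ∈ S)
    (Λ : ∀ n, Level N p (↑S : Set ℕ) n) [IsPrecomplete I A] (hpI : (p : A) ∈ I)
    (χ : CuspForm.heckeAlgebra N 2 (↑S : Set ℕ) →+* A) :
    ∃ t c : GQ → A, ∀ (n : ℕ) (g : GQ) (r : HeckePoly N (↑S : Set ℕ)) (d : ℕ),
      (Λ n).Quad g r d → χ (evalHecke N _ r) - t g ∈ I ^ n ∧ (d : A) - c g ∈ I ^ n := by
  choose r d hrd using exists_quad hp hpS hNS Λ
  have hcompat : ∀ g m n, m ≤ n → χ (evalHecke N _ (r m g)) - χ (evalHecke N _ (r n g)) ∈ I ^ m ∧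
      (d m g : A) - (d n g : A) ∈ I ^ m := by
    intro g m n hmn
    obtain ⟨h1, h2⟩ := (Λ m).congr hp rfl rfl (hrd m g m le_rfl) (hrd n g m hmn)
    rw [← map_sub]
    exact ⟨nsmul_mem_pow I hpI χ h1, sub_mem_of_modEq I hpI (Λ m).le h2⟩
  choose t ht using fun g => exists_limit I (fun n => χ (evalHecke N _ (r n g)))
    (fun m n hmn => (hcompat g m n hmn).1)
  choose c hc using fun g => exists_limit I (fun n => (d n g : A))
    (fun m n hmn => (hcompat g m n hmn).2)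
  refine ⟨t, c, fun n g r' d' hq => ?_⟩
  obtain ⟨h1, h2⟩ := (Λ n).congr hp rfl rfl hq (hrd n g n le_rfl)
  rw [← map_sub] at *
  have h3 := nsmul_mem_pow I hpI χ h1
  have h4 := sub_mem_of_modEq I hpI (Λ n).le h2
  constructor
  · have := Ideal.add_mem _ h3 (ht g n)
    rwa [map_sub, map_sub, sub_add_sub_cancel] at this
  · have := Ideal.add_mem _ h4 (hc g n)
    rwa [sub_add_sub_cancel] at this

/-- two elements with the same quadratic data. -/
theorem sub_mem_of_sub_mem {x y z : A} {n : ℕ} (h1 : x - y ∈ I ^ n) (h2 : x - z ∈ I ^ n) :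
    y - z ∈ I ^ n := by
  have := Ideal.sub_mem _ h2 h1
  rwa [sub_sub_sub_cancel_left] at this

/-- The properties of the limiting trace and determinant functions. -/
structure IsTraceDet (Λ : ∀ n, Level N p (↑S : Set ℕ) n)
    (χ : CuspForm.heckeAlgebra N 2 (↑S : Set ℕ) →+* A) (t c : GQ → A) : Prop where
  one : t 1 = 2
  comm : ∀ g h, t (g * h) = t (h * g)
  mul : ∀ g h, t (g * h) + c h * t (g * h⁻¹) = t g * t h
  c_one : c 1 = 1
  c_mul : ∀ g h, c (g * h) = c g * c h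
  odd : c complexConjugation = -1
  frob : ∀ (ℓ : GoodPrime N (↑S : Set ℕ)) (B : ValuationSubring (AlgebraicClosure ℚ)),
    B.LiesOverPrime (ℓ : ℕ) → ∀ σ : GQ, B.IsFrobeniusAt σ (ℓ : ℕ) →
      t σ = χ (CuspForm.heckeAlgebra.T ℓ.2.1 ℓ.2.2.1 ℓ.2.2.2) ∧ c σ = ((ℓ : ℕ) : A)
  congr : ∀ n, ∀ σ : GQ, (Λ n).E.act σ = 1 → σ (Λ n).ζ = (Λ n).ζ → ∀ g,
    t (g * σ) - t g ∈ I ^ n ∧ c (g * σ) - c g ∈ I ^ n

theorem exists_isTraceDet (hp : p.Prime) (hpS : p ∈ S)
    (hNS : ∀ q : ℕ, q.Prime → q ∣ N → q ∈ S)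
    (Λ : ∀ n, Level N p (↑S : Set ℕ) n) [IsPrecomplete I A] [IsHausdorff I A]
    (hpI : (p : A) ∈ I) (χ : CuspForm.heckeAlgebra N 2 (↑S : Set ℕ) →+* A) :
    ∃ t c : GQ → A, IsTraceDet I Λ χ t c := by
  obtain ⟨t, c, htc⟩ := exists_trace_det I hp hpS hNS Λ hpI χ
  have hquad : ∀ n g, ∃ (r : HeckePoly N (↑S : Set ℕ)) (d : ℕ), (Λ n).Quad g r d := fun n g => by
    obtain ⟨r, d, h⟩ := exists_quad hp hpS hNS Λ n g
    exact ⟨r, d, h n le_rfl⟩
  -- membership computations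
  have e_cast : ∀ (d : ℕ), χ (evalHecke N (↑S : Set ℕ) (d : HeckePoly N (↑S : Set ℕ))) = (d : A) :=
    fun d => by rw [map_natCast, map_natCast]
  refine ⟨t, c, ?_, ?_, ?_, ?_, ?_, ?_, ?_, ?_⟩
  · -- `t 1 = 2`
    apply eq_of_sub_mem I
    intro n
    have h := (htc n 1 2 1 (Λ n).quad_one).1
    have h2 : χ (evalHecke N (↑S : Set ℕ) (2 : HeckePoly N (↑S : Set ℕ))) = 2 := by
      rw [map_ofNat, map_ofNat]
    rw [h2] at h
    rw [← neg_sub]
    exact neg_mem h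
  · intro g h
    apply eq_of_sub_mem I
    intro n
    obtain ⟨r, d, hrd⟩ := hquad n (g * h)
    exact sub_mem_of_sub_mem I (htc n _ r d hrd).1 (htc n _ r d ((Λ n).quad_conj hp hrd)).1
  · intro g h
    apply eq_of_sub_mem I
    intro n
    obtain ⟨rg, cg, Hg⟩ := hquad n g
    obtain ⟨rh, ch, Hh⟩ := hquad n h
    obtain ⟨r3, c3, H3⟩ := hquad n (g * h)
    obtain ⟨r4, c4, H4⟩ := hquad n (g * h⁻¹)
    have h5 := nsmul_mem_pow I hpI χ ((Λ n).mul_rel hp Hg Hh H3 H4).1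
    simp only [map_sub, map_add, map_mul, e_cast] at h5
    have a1 := (htc n _ _ _ Hg).1
    have a2 := (htc n _ _ _ Hh).1
    have a3 := (htc n _ _ _ H3).1
    have a4 := (htc n _ _ _ H4).1
    have b2 := (htc n _ _ _ Hh).2
    rw [← Ideal.Quotient.eq_zero_iff_mem] at h5 a1 a2 a3 a4 b2 ⊢
    simp only [map_sub, map_add, map_mul, sub_eq_zero] at h5 a1 a2 a3 a4 b2 ⊢
    rw [← a1, ← a2, ← a3, ← a4, ← b2]
    exact h5
  · apply eq_of_sub_mem I
    intro n
    have h := (htc n 1 2 1 (Λ n).quad_one).2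
    rw [← neg_sub]
    rw [Nat.cast_one] at h
    exact neg_mem h
  · intro g h
    apply eq_of_sub_mem I
    intro n
    obtain ⟨rg, cg, Hg⟩ := hquad n g
    obtain ⟨rh, ch, Hh⟩ := hquad n h
    obtain ⟨r3, c3, H3⟩ := hquad n (g * h)
    obtain ⟨r4, c4, H4⟩ := hquad n (g * h⁻¹)
    have h5 := sub_mem_of_modEq I hpI (Λ n).le ((Λ n).mul_rel hp Hg Hh H3 H4).2
    rw [Nat.cast_mul] at h5
    have a1 := (htc n _ _ _ Hg).2
    have a2 := (htc n _ _ _ Hh).2
    have a3 := (htc n _ _ _ H3).2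
    rw [← Ideal.Quotient.eq_zero_iff_mem] at h5 a1 a2 a3 ⊢
    simp only [map_sub, map_mul, sub_eq_zero] at h5 a1 a2 a3 ⊢
    rw [← a1, ← a2, ← a3]
    exact h5
  · apply eq_of_sub_mem I
    intro n
    obtain ⟨r, d, H⟩ := hquad n complexConjugation
    have hζ : complexConjugation (Λ n).ζ * (Λ n).ζ = 1 := by
      have h1 := (Λ n).prim.pow_eq_one
      have hne : p ^ (Λ n).m ≠ 0 := pow_ne_zero _ hp.ne_zero
      apply (complexEmbedding : AlgebraicClosure ℚ →+* ℂ).injective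
      have h2 : (complexEmbedding (Λ n).ζ) ^ (p ^ (Λ n).m) = 1 := by
        rw [← map_pow, h1, map_one]
      have h3 : ‖complexEmbedding (Λ n).ζ‖ = 1 := Complex.norm_eq_one_of_pow_eq_one h2 hne
      rw [map_mul, map_one]
      change complexEmbedding _ * complexEmbedding _ = 1
      rw [complexEmbedding_complexConjugation, mul_comm, Complex.mul_conj, Complex.normSq_eq_norm_sq,
        h3]
      simp
    have h4 : d + 1 ≡ 0 [MOD p ^ (Λ n).m] := by
      apply (Λ n).modEq hp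
      rw [pow_succ, ← H.2, hζ, pow_zero]
    have h5 := sub_mem_of_modEq I hpI (Λ n).le h4
    have h6 := (htc n _ _ _ H).2
    rw [← Ideal.Quotient.eq_zero_iff_mem] at h5 h6 ⊢
    simp only [map_sub, sub_eq_zero] at h6 ⊢
    rw [← h6]
    push_cast at h5
    rw [sub_zero, map_add, map_one] at h5
    rw [map_neg, map_one]
    exact eq_neg_of_add_eq_zero_left h5
  · intro ℓ B hB σ hσ
    have hne : (ℓ : ℕ) ≠ p := fun h => ℓ.2.2.2 (by rw [h]; exact hpS)
    have hq : ∀ n, (Λ n).Quad σ (MvPolynomial.X ℓ) (ℓ : ℕ) := fun n =>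
      ⟨(Λ n).E.frobenius ℓ hne B hB σ hσ,
        frobenius_apply_root ℓ.2.1 hp hne hB hσ (Λ n).prim.pow_eq_one⟩
    constructor
    · symm
      apply eq_of_sub_mem I
      intro n
      have := (htc n _ _ _ (hq n)).1
      rwa [evalHecke_X] at this
    · symm
      apply eq_of_sub_mem I
      intro n
      exact (htc n _ _ _ (hq n)).2
  · intro n σ h1 h2 g
    obtain ⟨r, d, H⟩ := hquad n (g * σ)
    obtain ⟨r', d', H'⟩ := hquad n g
    have hact : (Λ n).E.act (g * σ) = (Λ n).E.act g := by rw [map_mul, h1, mul_one]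
    have hroot : (g * σ) (Λ n).ζ = g (Λ n).ζ := by rw [AlgEquiv.mul_apply, h2]
    have H'' : (Λ n).Quad g r d := ⟨by rw [← hact]; exact H.1, by rw [← hroot]; exact H.2⟩
    exact ⟨sub_mem_of_sub_mem I (htc n _ _ _ H).1 (htc n _ _ _ H'').1 |> fun h => h,
      sub_mem_of_sub_mem I (htc n _ _ _ H).2 (htc n _ _ _ H'').2⟩

end Adic

end Fermat.Agent.RepTwo
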