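import Mathlib
import Fermat.Agent.RepTwo.PadicRep
import Fermat.Prelude.Def_GaloisRep_Adic

/-!
# S30 from abstract Eichler–Shimura data
-/

set_option autoImplicit false

open Polynomial

namespace Fermat.Agent.RepTwo

section DVR

variable {O : Type*} [CommRing O] [IsDomain O] [IsDiscreteValuationRing O]

/-- In a DVR, dividing by a fixed nonzero element costs a bounded power of the maximal ideal. -/
theorem mem_pow_of_mul_mem {E : O} (hE : E ≠ 0) : ∃ e : ℕ, ∀ (n : ℕ) (x : O),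
    E * x ∈ IsLocalRing.maximalIdeal O ^ (n + e) → x ∈ IsLocalRing.maximalIdeal O ^ n := by
  obtain ⟨ϖ, hϖ⟩ := IsDiscreteValuationRing.exists_irreducible O
  obtain ⟨e, u, hu⟩ := IsDiscreteValuationRing.eq_unit_mul_pow_irreducible hE hϖ
  refine ⟨e, fun n x hx => ?_⟩
  rw [hϖ.maximalIdeal_eq, Ideal.span_singleton_pow, Ideal.mem_span_singleton] at hx ⊢
  obtain ⟨d, hd⟩ := hx
  refine ⟨(↑u⁻¹ : O) * d, ?_⟩
  have h0 : ϖ ^ e ≠ 0 := pow_ne_zero _ hϖ.ne_zero
  apply mul_left_cancel₀ h0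
  have : ϖ ^ e * x = (↑u⁻¹ : O) * (E * x) := by
    rw [hu]
    calc ϖ ^ e * x = (↑u⁻¹ * ↑u : O) * (ϖ ^ e * x) := by rw [Units.inv_mul, one_mul]
      _ = _ := by ring
  rw [this, hd, pow_add]
  ring

end DVR

theorem mem_smul_top_of_forall_mem {O : Type*} [CommRing O] (I : Ideal O) (v : Fin 2 → O)
    (hv : ∀ i, v i ∈ I) : v ∈ I • (⊤ : Submodule O (Fin 2 → O)) := by
  rw [pi_eq_sum_univ' v]
  exact Submodule.sum_mem _ fun i _ => Submodule.smul_mem_smul (hv i) Submodule.mem_top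

variable {N p : ℕ} [NeZero N] {S : Finset ℕ}

/-- **S30 from Eichler–Shimura modules.** -/
theorem exists_padic_rep (hp : p.Prime) (hpS : p ∈ S) (hNS : ∀ q : ℕ, q.Prime → q ∣ N → q ∈ S)
    (hES : ∀ n, Nonempty (ESModule N p (↑S : Set ℕ) n))
    (O : Type) [CommRing O] [IsDomain O] [IsDiscreteValuationRing O]
    [IsAdicComplete (IsLocalRing.maximalIdeal O) O] [CharZero O]
    (hpO : (p : O) ∈ IsLocalRing.maximalIdeal O)
    (χ : CuspForm.heckeAlgebra N 2 (↑S : Set ℕ) →+* O) :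
    ∃ ρ : GaloisRepAdic O,
      (∀ (ℓ : ℕ) (hℓ : ℓ.Prime) (hℓN : ¬ ℓ ∣ N) (hℓS : ℓ ∉ (↑S : Set ℕ)),
        ∀ A : ValuationSubring (AlgebraicClosure ℚ), A.LiesOverPrime ℓ →
          ∀ σ : AlgebraicClosure ℚ ≃ₐ[ℚ] AlgebraicClosure ℚ, A.IsFrobeniusAt σ ℓ →
            LinearMap.charpoly (ρ.ρ σ) =
              X ^ 2 - C (χ (CuspForm.heckeAlgebra.T hℓ hℓN hℓS)) * X + C ((ℓ : O))) ∧
      (∀ q : ℕ, q.Prime → ¬ q ∣ N → q ≠ p → ρ.IsUnramifiedAt q) := by
  classical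
  have hlev : ∀ n, Nonempty (Level N p (↑S : Set ℕ) n) := fun n =>
    (hES n).elim fun E => E.exists_level hp
  let Λ : ∀ n, Level N p (↑S : Set ℕ) n := fun n => (hlev n).some
  obtain ⟨t, c, H⟩ := exists_isTraceDet (IsLocalRing.maximalIdeal O) hp hpS hNS Λ hpO χ
  obtain ⟨M, E, y, hE, htr, hdet, hM⟩ := exists_integral_rep t c H.one H.comm H.mul H.c_one H.c_mul
    complexConjugation_mul_self H.odd
  obtain ⟨e, he⟩ := mem_pow_of_mul_mem hE
  -- difference of matrix coefficients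
  have hdiff : ∀ σ i j, E * (M σ i j - (1 : Matrix (Fin 2) (Fin 2) O) i j) =
      (y i j).sum fun k a => a * (t (k * σ) - t k) := by
    intro σ i j
    rw [mul_sub, hM, ← map_one M, hM]
    simp only [Finsupp.sum, mul_one, ← Finset.sum_sub_distrib, mul_sub]
  -- continuity
  have hcont : ∀ n, ∀ σ : GQ, (∀ x ∈ (Λ (n + e)).L, σ x = x) → ∀ i j,
      M σ i j - (1 : Matrix (Fin 2) (Fin 2) O) i j ∈ IsLocalRing.maximalIdeal O ^ n := by
    intro n σ hσ i j
    apply he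
    rw [hdiff]
    refine Ideal.sum_mem _ fun k _ => Ideal.mul_mem_left _ _ ?_
    exact (H.congr (n + e) σ ((Λ (n + e)).act_eq σ hσ) (hσ _ (Λ (n + e)).ζ_mem) k).1
  let ρ : GaloisRepAdic O :=
    { V := Fin 2 → O
      finrank_eq := by simp
      ρ := (Matrix.toLinAlgEquiv' : Matrix (Fin 2) (Fin 2) O ≃ₐ[O] _).toAlgHom.toMonoidHom.comp M
      isAdicContinuous := by
        intro n
        refine ⟨(Λ (n + e)).L, (Λ (n + e)).fin, fun σ hσ v => ?_⟩
        apply mem_smul_top_of_forall_mem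
        intro i
        change (Matrix.toLinAlgEquiv' (M σ) v - v) i ∈ _
        rw [Matrix.toLinAlgEquiv'_apply]
        have h1 : ((M σ).mulVec v - v) i = ∑ j, (M σ i j - (1 : Matrix (Fin 2) (Fin 2) O) i j) * v j
            := by
          simp only [Pi.sub_apply, Matrix.mulVec, dotProduct, sub_mul, Finset.sum_sub_distrib]
          congr 1
          simp [Matrix.one_apply]
        rw [h1]
        exact Ideal.sum_mem _ fun j _ => Ideal.mul_mem_right _ _ (hcont n σ hσ i j) }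
  refine ⟨ρ, ?_, ?_⟩
  · intro ℓ hℓ hℓN hℓS A hA σ hσ
    obtain ⟨h1, h2⟩ := H.frob ⟨ℓ, hℓ, hℓN, hℓS⟩ A hA σ hσ
    change LinearMap.charpoly (Matrix.toLin' (M σ)) = _
    rw [← LinearMap.charpoly_toMatrix _ (Pi.basisFun O (Fin 2)), LinearMap.toMatrix_eq_toMatrix',
      LinearMap.toMatrix'_toLin', Matrix.charpoly_fin_two, htr, hdet, h1, h2]
  · intro q hq hqN hqp P hP σ hσ
    have hM1 : M σ = 1 := by
      ext i j
      have h0 : E * (M σ i j - (1 : Matrix (Fin 2) (Fin 2) O) i j) = 0 := by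
        rw [hdiff]
        apply Finset.sum_eq_zero
        intro k _
        have : t (k * σ) = t k := by
          apply eq_of_sub_mem (IsLocalRing.maximalIdeal O)
          intro n
          refine (H.congr n σ ((Λ n).E.unramified q hq ?_ P hP σ hσ) ?_ k).1
          · intro hdvd
            rcases (Nat.Prime.dvd_mul hq).mp hdvd with h | h
            · exact hqN h
            · exact hqp ((Nat.prime_dvd_prime_iff_eq hq hp).mp h)
          · exact inertia_apply_root hq hp hqp hP hσ (Λ n).prim.pow_eq_one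
        change (y i j) k * (t (k * σ) - t k) = 0
        rw [this, sub_self, mul_zero]
      rcases mul_eq_zero.mp h0 with h | h
      · exact absurd h hE
      · exact sub_eq_zero.mp h
    change Matrix.toLinAlgEquiv' (M σ) = 1
    rw [hM1, map_one]

/-- The statement of S30, from Eichler–Shimura modules (with `𝒪'' = 𝒪'`). -/
theorem exists_galoisRep_of_point_of_ES (hp : p.Prime) (hpS : p ∈ S)
    (hNS : ∀ q : ℕ, q.Prime → q ∣ N → q ∈ S)
    (hES : ∀ n, Nonempty (ESModule N p (↑S : Set ℕ) n))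
    (𝒪' : Type) [CommRing 𝒪'] [IsDomain 𝒪'] [IsDiscreteValuationRing 𝒪']
    [IsAdicComplete (IsLocalRing.maximalIdeal 𝒪') 𝒪'] [Finite (IsLocalRing.ResidueField 𝒪')]
    [CharZero 𝒪'] (hp𝒪' : (p : 𝒪') ∈ IsLocalRing.maximalIdeal 𝒪')
    (χ : CuspForm.heckeAlgebra N 2 (↑S : Set ℕ) →+* 𝒪') :
    ∃ (𝒪'' : Type) (_ : CommRing 𝒪'') (_ : IsDomain 𝒪'') (_ : IsDiscreteValuationRing 𝒪'')
      (_ : IsAdicComplete (IsLocalRing.maximalIdeal 𝒪'') 𝒪'')
      (_ : Finite (IsLocalRing.ResidueField 𝒪'')) (_ : CharZero 𝒪'')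
      (_ : Algebra 𝒪' 𝒪'') (_ : Module.Finite 𝒪' 𝒪'') (_ : IsLocalHom (algebraMap 𝒪' 𝒪'')),
    Function.Injective (algebraMap 𝒪' 𝒪'') ∧
    ∃ ρ : GaloisRepAdic 𝒪'',
      (∀ (ℓ : ℕ) (hℓ : ℓ.Prime) (hℓN : ¬ ℓ ∣ N) (hℓS : ℓ ∉ (↑S : Set ℕ)),
        ∀ A : ValuationSubring (AlgebraicClosure ℚ), A.LiesOverPrime ℓ →
          ∀ σ : AlgebraicClosure ℚ ≃ₐ[ℚ] AlgebraicClosure ℚ, A.IsFrobeniusAt σ ℓ →
            LinearMap.charpoly (ρ.ρ σ) =
              X ^ 2 - C (algebraMap 𝒪' 𝒪'' (χ (CuspForm.heckeAlgebra.T hℓ hℓN hℓS))) * X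
                + C ((ℓ : 𝒪''))) ∧
      (∀ q : ℕ, q.Prime → ¬ q ∣ N → q ≠ p → ρ.IsUnramifiedAt q) := by
  obtain ⟨ρ, h1, h2⟩ := exists_padic_rep hp hpS hNS hES 𝒪' hp𝒪' χ
  exact ⟨𝒪', inferInstance, inferInstance, inferInstance, inferInstance, inferInstance,
    inferInstance, Algebra.id 𝒪', Module.Finite.self 𝒪', ⟨fun a ha => ha⟩,
    Function.injective_id, ρ, h1, h2⟩

end Fermat.Agent.RepTwo
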