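import Mathlib

/-!
Eigenvectors after base change: a commutative algebra `A` of endomorphisms of a finite-dimensional
`k`-vector space `U` and a character `χ : A → K` to a field extension; then `K ⊗ U` contains a
nonzero `χ`-eigenvector.
-/

set_option autoImplicit false

namespace Fermat.Agent.RepTwo

open Module TensorProduct

/-- In a commutative ring which is a finite-dimensional algebra, every prime is the annihilator of
an element. -/
theorem exists_annihilator_eq_of_isPrime {B : Type*} [CommRing B] [IsArtinianRing B]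
    (q : Ideal B) [hq : q.IsPrime] : ∃ b : B, b ≠ 0 ∧ ∀ z ∈ q, z * b = 0 := by
  have : IsNoetherianRing B := inferInstance
  have hann : Module.annihilator B B = ⊥ := by
    rw [eq_bot_iff]
    intro a ha
    rw [Module.mem_annihilator] at ha
    have := ha 1
    simpa using this
  have hqmin : q ∈ (Module.annihilator B B).minimalPrimes := by
    rw [hann]
    exact IsArtinianRing.mem_minimalPrimes bot_le
  obtain ⟨_, v, hv⟩ := (isAssociatedPrime_iff ..).mp
    (Module.associatedPrimes.minimalPrimes_annihilator_subset_associatedPrimes B B hqmin)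
  have hv' : ∀ a : B, a ∈ q ↔ a * v = 0 := by
    intro a
    rw [hv, Submodule.mem_colon_singleton, Submodule.mem_bot]
    rfl
  refine ⟨v, ?_, fun z hz => (hv' z).mp hz⟩
  rintro rfl
  exact hq.ne_top ((Ideal.eq_top_iff_one q).mpr ((hv' 1).mpr (mul_zero _)))

/-- Existence of eigenvectors after base change, for a commutative subalgebra. -/
theorem exists_eigenvector_baseChange {k : Type*} [Field k] {U : Type*} [AddCommGroup U]
    [Module k U] [FiniteDimensional k U] (A : Type*) [CommRing A] [Algebra k A]
    [Module.Finite k A] (φ : A →ₐ[k] Module.End k U) (hφ : Function.Injective φ)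
    {K : Type*} [Field K] [Algebra k K] (χ : A →ₐ[k] K) :
    ∃ x : K ⊗[k] U, x ≠ 0 ∧ ∀ a : A, (φ a).baseChange K x = χ a • x := by
  classical
  -- the ring `B = K ⊗ A` and the prime ideal given by `χ`
  let B := K ⊗[k] A
  let ev : B →ₐ[K] K := Algebra.TensorProduct.lift (AlgHom.id K K) χ (fun _ _ => Commute.all _ _)
  have hev : ∀ (c : K) (a : A), ev (c ⊗ₜ a) = c * χ a := fun c a =>
    Algebra.TensorProduct.lift_tmul (AlgHom.id K K) χ (fun _ _ => Commute.all _ _) c a
  have : Module.Finite K B := inferInstance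
  have : IsArtinianRing B := IsArtinianRing.of_finite K B
  let q : Ideal B := RingHom.ker ev
  have hq : q.IsPrime := RingHom.ker_isPrime _
  obtain ⟨b, hb0, hb⟩ := exists_annihilator_eq_of_isPrime q
  -- the orbit maps
  let f : U → (B →ₗ[K] K ⊗[k] U) := fun u =>
    ((LinearMap.applyₗ u : Module.End k U →ₗ[k] U) ∘ₗ φ.toLinearMap).baseChange K
  have hf : ∀ u (c : K) (a : A), f u (c ⊗ₜ a) = c ⊗ₜ (φ a u) := fun u c a =>
    LinearMap.baseChange_tmul _ _ _
  have hfmul : ∀ u (a : A) (z : B), f u ((1 ⊗ₜ a) * z) = (φ a).baseChange K (f u z) := by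
    intro u a z
    induction z using TensorProduct.induction_on with
    | zero => simp
    | tmul c a' =>
      rw [Algebra.TensorProduct.tmul_mul_tmul, one_mul, hf, hf, LinearMap.baseChange_tmul, map_mul]
      rfl
    | add x y hx hy => rw [mul_add, map_add, map_add, map_add, hx, hy]
  -- some orbit map does not kill `b`
  have hex : ∃ u, f u b ≠ 0 := by
    by_contra hcon
    push Not at hcon
    apply hb0
    let ℬ := Module.Basis.ofVectorSpace k K
    obtain ⟨c, rfl⟩ := TensorProduct.eq_repr_basis_left ℬ b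
    have hc : c = 0 := by
      ext i
      apply hφ
      rw [Finsupp.zero_apply, map_zero]
      ext u
      have h1 := hcon u
      rw [Finsupp.sum, map_sum] at h1
      simp only [hf] at h1
      have h2 := TensorProduct.sum_tmul_basis_left_eq_zero ℬ
        (c.mapRange (fun a => φ a u) (by simp)) (by
          rw [Finsupp.sum_mapRange_index (by simp)]
          exact h1)
      have h3 := DFunLike.congr_fun h2 i
      simpa using h3
    rw [hc]
    simp
  obtain ⟨u, hu⟩ := hex
  refine ⟨f u b, hu, fun a => ?_⟩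
  have hmem : (1 : K) ⊗ₜ[k] a - (χ a) ⊗ₜ[k] (1 : A) ∈ q := by
    rw [RingHom.mem_ker, map_sub, hev, hev, map_one, one_mul, mul_one, sub_self]
  have h1 := hb _ hmem
  rw [sub_mul, sub_eq_zero] at h1
  rw [← hfmul, h1]
  have h2 : (χ a) ⊗ₜ[k] (1 : A) = (χ a) • (1 : B) := by
    rw [Algebra.TensorProduct.one_def, TensorProduct.smul_tmul', smul_eq_mul, mul_one]
  rw [h2, smul_mul_assoc, one_mul, map_smul]

/-- Existence of eigenvectors after base change from `ZMod p`. -/
theorem exists_eigenvector_of_ker_le {p : ℕ} [Fact p.Prime] {U : Type*} [AddCommGroup U]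
    [Module (ZMod p) U] [FiniteDimensional (ZMod p) U] {R : Type*} [CommRing R]
    (φ : R →+* Module.End (ZMod p) U) {K : Type*} [Field K] [Algebra (ZMod p) K]
    (χ : R →+* K) (h : RingHom.ker φ ≤ RingHom.ker χ) :
    ∃ x : K ⊗[ZMod p] U, x ≠ 0 ∧ ∀ r : R, (φ r).baseChange K x = χ r • x := by
  classical
  let A := R ⧸ RingHom.ker φ
  have hpmem : ((p : ℕ) : R) ∈ RingHom.ker φ := by
    rw [RingHom.mem_ker, map_natCast]
    ext u
    rw [Module.End.natCast_apply, ← Nat.cast_smul_eq_nsmul (ZMod p)]
    simp
  have hchar : ((p : ℕ) : A) = 0 := by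
    rw [← map_natCast (Ideal.Quotient.mk (RingHom.ker φ)), Ideal.Quotient.eq_zero_iff_mem]
    exact hpmem
  have hmod : ∀ a : A, p • a = 0 := fun a => by rw [nsmul_eq_mul, hchar, zero_mul]
  let _ : Module (ZMod p) A := AddCommGroup.zmodModule hmod
  have hsmul : ∀ (c : ℕ) (a : A), (c : ZMod p) • a = (c : A) * a := fun c a => by
    rw [Nat.cast_smul_eq_nsmul, nsmul_eq_mul]
  let _ : Algebra (ZMod p) A := Algebra.ofModule
    (fun r x y => by
      obtain ⟨c, rfl⟩ := ZMod.natCast_zmod_surjective r
      rw [hsmul, hsmul, mul_assoc])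
    (fun r x y => by
      obtain ⟨c, rfl⟩ := ZMod.natCast_zmod_surjective r
      rw [hsmul, hsmul]; ring)
  let φA : A →+* Module.End (ZMod p) U := RingHom.kerLift φ
  have hφA : Function.Injective φA := RingHom.kerLift_injective φ
  let φA' : A →ₐ[ZMod p] Module.End (ZMod p) U :=
    { φA with
      commutes' := fun r => by
        obtain ⟨c, rfl⟩ := ZMod.natCast_zmod_surjective r
        simp }
  let χA : A →+* K := Ideal.Quotient.lift (RingHom.ker φ) χ (fun a ha => h ha)
  let χA' : A →ₐ[ZMod p] K :=
    { χA with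
      commutes' := fun r => by
        obtain ⟨c, rfl⟩ := ZMod.natCast_zmod_surjective r
        simp }
  have hfin : Module.Finite (ZMod p) A :=
    Module.Finite.of_injective φA'.toLinearMap hφA
  obtain ⟨x, hx0, hx⟩ := exists_eigenvector_baseChange A φA' hφA χA'
  refine ⟨x, hx0, fun r => ?_⟩
  exact hx (Ideal.Quotient.mk _ r)

end Fermat.Agent.RepTwo
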