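import Mathlib
import Fermat.Agent.RepTwo.Eigen

/-!
Eigenvectors after base change from `ℤ`: a commutative ring `R` acting on a finitely generated
free abelian group `L` and a character `χ : R → K` to a field of characteristic zero which kills
the kernel of the action; then `K ⊗ L` contains a nonzero `χ`-eigenvector.
-/

set_option autoImplicit false

namespace Fermat.Agent.RepTwo

open Module TensorProduct

theorem exists_eigenvector_of_ker_le_int {L : Type*} [AddCommGroup L] [Module.Finite ℤ L]
    [Module.Free ℤ L] {R : Type*} [CommRing R] (φ : R →+* Module.End ℤ L) {K : Type*} [Field K]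
    [CharZero K] (χ : R →+* K) (h : RingHom.ker φ ≤ RingHom.ker χ) :
    ∃ x : K ⊗[ℤ] L, x ≠ 0 ∧ ∀ r : R, (φ r).baseChange K x = χ r • x := by
  classical
  let A := R ⧸ RingHom.ker φ
  let φA : A →+* Module.End ℤ L := RingHom.kerLift φ
  have hφA : Function.Injective φA := RingHom.kerLift_injective φ
  let χA : A →+* K := Ideal.Quotient.lift (RingHom.ker φ) χ (fun a ha => h ha)
  have : Module.Finite ℤ A :=
    Module.Finite.of_injective φA.toAddMonoidHom.toIntLinearMap hφA
  have : Module.Flat ℤ K := inferInstance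
  -- the ring `B = K ⊗ A` and the prime ideal given by `χ`
  let B := K ⊗[ℤ] A
  let ev : B →ₐ[K] K := Algebra.TensorProduct.lift (AlgHom.id K K) χA.toIntAlgHom
    (fun _ _ => Commute.all _ _)
  have hev : ∀ (c : K) (a : A), ev (c ⊗ₜ a) = c * χA a := fun c a =>
    Algebra.TensorProduct.lift_tmul (AlgHom.id K K) χA.toIntAlgHom (fun _ _ => Commute.all _ _) c a
  have : Module.Finite K B := inferInstance
  have : IsArtinianRing B := IsArtinianRing.of_finite K B
  let q : Ideal B := RingHom.ker ev
  have hq : q.IsPrime := RingHom.ker_isPrime _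
  obtain ⟨b, hb0, hb⟩ := exists_annihilator_eq_of_isPrime q
  -- the orbit maps
  let f : L → (B →ₗ[K] K ⊗[ℤ] L) := fun u =>
    ((LinearMap.applyₗ u : Module.End ℤ L →ₗ[ℤ] L) ∘ₗ φA.toAddMonoidHom.toIntLinearMap).baseChange K
  have hf : ∀ u (c : K) (a : A), f u (c ⊗ₜ a) = c ⊗ₜ (φA a u) := fun u c a =>
    LinearMap.baseChange_tmul _ _ _
  have hfmul : ∀ u (a : A) (z : B), f u ((1 ⊗ₜ a) * z) = (φA a).baseChange K (f u z) := by
    intro u a z
    induction z using TensorProduct.induction_on with
    | zero => simp
    | tmul c a' =>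
      rw [Algebra.TensorProduct.tmul_mul_tmul, one_mul, hf, hf, LinearMap.baseChange_tmul, map_mul]
      rfl
    | add x y hx hy => rw [mul_add, map_add, map_add, map_add, hx, hy]
  -- some orbit map does not kill `b`
  have hex : ∃ u, f u b ≠ 0 := by
    by_contra hcon
    push Not at hcon
    apply hb0
    let β := Module.Free.chooseBasis ℤ L
    -- the joint orbit map on the basis
    let g : A →ₗ[ℤ] (Module.Free.ChooseBasisIndex ℤ L → L) :=
      LinearMap.pi fun i => (LinearMap.applyₗ (β i) : Module.End ℤ L →ₗ[ℤ] L) ∘ₗ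
        φA.toAddMonoidHom.toIntLinearMap
    have hg : Function.Injective g := by
      intro a a' haa
      apply hφA
      refine β.ext fun i => ?_
      exact congrFun haa i
    have hgK : Function.Injective (g.baseChange K) :=
      Module.Flat.lTensor_preserves_injective_linearMap (M := K) g hg
    apply hgK
    rw [map_zero]
    let e : K ⊗[ℤ] (Module.Free.ChooseBasisIndex ℤ L → L) ≃ₗ[K]
        (Module.Free.ChooseBasisIndex ℤ L → K ⊗[ℤ] L) :=
      TensorProduct.piRight ℤ K K _
    apply e.injective
    rw [map_zero]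
    ext i
    have h1 : ∀ z : B, e (g.baseChange K z) i = f (β i) z := by
      intro z
      induction z using TensorProduct.induction_on with
      | zero => simp
      | tmul c a =>
        rw [LinearMap.baseChange_tmul, hf]
        rfl
      | add x y hx hy => rw [map_add, map_add, Pi.add_apply, hx, hy, map_add]
    rw [h1, hcon]
    rfl
  obtain ⟨u, hu⟩ := hex
  refine ⟨f u b, hu, fun r => ?_⟩
  set a : A := Ideal.Quotient.mk _ r with ha
  have hmem : (1 : K) ⊗ₜ[ℤ] a - (χA a) ⊗ₜ[ℤ] (1 : A) ∈ q := by
    rw [RingHom.mem_ker, map_sub, hev, hev, map_one, one_mul, mul_one, sub_self]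
  have h1 := hb _ hmem
  rw [sub_mul, sub_eq_zero] at h1
  have h3 : (φA a).baseChange K (f u b) = χA a • f u b := by
    rw [← hfmul, h1]
    have h2 : (χA a) ⊗ₜ[ℤ] (1 : A) = (χA a) • (1 : B) := by
      rw [Algebra.TensorProduct.one_def, TensorProduct.smul_tmul', smul_eq_mul, mul_one]
    rw [h2, smul_mul_assoc, one_mul, map_smul]
  exact h3

end Fermat.Agent.RepTwo
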