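import Mathlib

/-!
Residue fields of the ring of all algebraic integers are algebraically closed.
-/

set_option autoImplicit false

namespace Fermat.Agent.RepTwo

open Polynomial

local notation "ℤbar" => integralClosure ℤ ℂ

/-- every monic non-constant polynomial over `ℤbar` has a root in `ℤbar`. -/
theorem exists_root_of_monic {f : Polynomial ℤbar} (hf : f.Monic) (hdeg : f.natDegree ≠ 0) :
    ∃ x : ℤbar, f.eval x = 0 := by
  have h1 : (f.map (algebraMap ℤbar ℂ)).natDegree ≠ 0 := by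
    rwa [hf.natDegree_map]
  have h2 : (f.map (algebraMap ℤbar ℂ)).degree ≠ 0 := fun h =>
    h1 (natDegree_eq_of_degree_eq_some h)
  obtain ⟨z, hz⟩ := IsAlgClosed.exists_root _ h2
  have h3 : aeval z f = 0 := by
    rw [IsRoot.def, eval_map] at hz
    exact hz
  have h4 : IsIntegral ℤbar z := ⟨f, hf, h3⟩
  have h5 : IsIntegral ℤ z := isIntegral_trans (R := ℤ) (A := ℤbar) z h4
  refine ⟨⟨z, h5⟩, ?_⟩
  apply Subtype.ext
  have h6 := congrArg id h3
  rw [aeval_def] at h6
  have h7 : eval₂ (algebraMap ℤbar ℂ) (algebraMap ℤbar ℂ ⟨z, h5⟩) f = 0 := h6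
  rw [eval₂_at_apply] at h7
  exact h7

theorem isAlgClosed_quotient (𝔪 : Ideal ℤbar) [h𝔪 : 𝔪.IsMaximal] :
    letI := Ideal.Quotient.field 𝔪
    IsAlgClosed (ℤbar ⧸ 𝔪) := by
  letI := Ideal.Quotient.field 𝔪
  apply IsAlgClosed.of_exists_root
  intro f hf hirr
  obtain ⟨F, hF, hFdeg, hFm⟩ := Polynomial.lifts_and_natDegree_eq_and_monic
    (f := Ideal.Quotient.mk 𝔪) (p := f) (by
      rw [Polynomial.mem_lifts]
      obtain ⟨g, hg⟩ := Polynomial.map_surjective (Ideal.Quotient.mk 𝔪)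
        Ideal.Quotient.mk_surjective f
      exact ⟨g, hg⟩) hf
  obtain ⟨x, hx⟩ := exists_root_of_monic hFm (by
    rw [hFdeg]
    exact hirr.natDegree_pos.ne')
  refine ⟨Ideal.Quotient.mk 𝔪 x, ?_⟩
  rw [← hF, eval_map, eval₂_at_apply, hx, map_zero]

/-- a prime ideal of `ℤbar` containing a prime number is maximal. -/
theorem isMaximal_of_natCast_mem {p : ℕ} (hp : p.Prime) (P : Ideal ℤbar) [hP : P.IsPrime]
    (h : (p : ℤbar) ∈ P) : P.IsMaximal := by
  have h1 : (P.comap (algebraMap ℤ ℤbar)).IsMaximal := by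
    have h2 : (P.comap (algebraMap ℤ ℤbar)).IsPrime := inferInstance
    refine Ideal.IsPrime.isMaximal h2 ?_
    intro h3
    have h4 : (p : ℤ) ∈ P.comap (algebraMap ℤ ℤbar) := by
      rw [Ideal.mem_comap, map_natCast]; exact h
    rw [h3, Ideal.mem_bot] at h4
    exact hp.ne_zero (by exact_mod_cast h4)
  exact Ideal.isMaximal_of_isIntegral_of_isMaximal_comap P h1

theorem isMaximal_ker {p : ℕ} (hp : p.Prime) {k : Type*} [Field k] [CharP k p]
    (φ : ℤbar →+* k) : (RingHom.ker φ).IsMaximal := by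
  haveI := RingHom.ker_isPrime φ
  refine isMaximal_of_natCast_mem hp _ ?_
  rw [RingHom.mem_ker, map_natCast, CharP.cast_eq_zero]

end Fermat.Agent.RepTwo
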