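import Mathlib
import Fermat.Agent.RepTwo.EigenInt

/-!
Eigenvectors over a domain of characteristic zero.
-/

set_option autoImplicit false

namespace Fermat.Agent.RepTwo

open Module TensorProduct

theorem exists_eigenvector_aux {L : Type*} [AddCommGroup L] [Module.Finite ℤ L]
    [Module.Free ℤ L] {R : Type*} [CommRing R] (φ : R →+* Module.End ℤ L) {O : Type*} [CommRing O]
    [IsDomain O] [CharZero O] (K : Type*) [Field K] [Algebra O K] [IsFractionRing O K]
    (χ : R →+* O) (h : RingHom.ker φ ≤ RingHom.ker χ) :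
    ∃ x : O ⊗[ℤ] L, x ≠ 0 ∧ ∀ r : R, (φ r).baseChange O x = χ r • x := by
  classical
  have hinj : Function.Injective (algebraMap O K) := IsFractionRing.injective O K
  have hK : CharZero K := charZero_of_injective_algebraMap hinj
  obtain ⟨xK, hxK0, hxK⟩ := exists_eigenvector_of_ker_le_int φ ((algebraMap O K).comp χ)
    (fun r hr => by
      rw [RingHom.mem_ker, RingHom.comp_apply, RingHom.mem_ker.mp (h hr), map_zero])
  let Θ : O ⊗[ℤ] L →ₗ[ℤ] K ⊗[ℤ] L :=
    (AddMonoidHom.toIntLinearMap (algebraMap O K).toAddMonoidHom).rTensor L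
  have hΘ : Function.Injective Θ := Module.Flat.rTensor_preserves_injective_linearMap _ hinj
  have hΘt : ∀ (a : O) (l : L), Θ (a ⊗ₜ l) = (algebraMap O K a) ⊗ₜ l := fun a l => rfl
  have hΘs : ∀ (a : O) (z : O ⊗[ℤ] L), Θ (a • z) = algebraMap O K a • Θ z := by
    intro a z
    induction z using TensorProduct.induction_on with
    | zero => simp
    | tmul c l =>
      rw [TensorProduct.smul_tmul', hΘt, hΘt, TensorProduct.smul_tmul', smul_eq_mul, map_mul,
        smul_eq_mul]
    | add x y hx hy => rw [smul_add, map_add, hx, hy, map_add, smul_add]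
  have hΘb : ∀ (f : Module.End ℤ L) (z : O ⊗[ℤ] L),
      Θ (f.baseChange O z) = f.baseChange K (Θ z) := by
    intro f z
    induction z using TensorProduct.induction_on with
    | zero => simp
    | tmul c l =>
      rw [LinearMap.baseChange_tmul, hΘt, hΘt, LinearMap.baseChange_tmul]
    | add x y hx hy => rw [map_add, map_add, hx, hy, map_add, map_add]
  -- clear denominators
  let β := Module.Free.chooseBasis ℤ L
  let βK := β.baseChange K
  have hβK : ∀ i, βK i = (1 : K) ⊗ₜ β i := fun i => Module.Basis.baseChange_apply ..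
  obtain ⟨b, hb⟩ := IsLocalization.exist_integer_multiples (nonZeroDivisors O) Finset.univ
    (fun i => βK.repr xK i)
  have hb' : ∀ i, ∃ o : O, algebraMap O K o = (b : O) • βK.repr xK i := fun i =>
    hb i (Finset.mem_univ i)
  choose o ho using hb'
  let x : O ⊗[ℤ] L := ∑ i, o i • ((1 : O) ⊗ₜ β i)
  have hx : Θ x = algebraMap O K b • xK := by
    have h1 : Θ x = ∑ i, algebraMap O K (o i) • βK i := by
      rw [map_sum]
      refine Finset.sum_congr rfl fun i _ => ?_
      rw [hΘs, hΘt, map_one, hβK]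
    rw [h1]
    conv_rhs => rw [← βK.sum_repr xK]
    rw [Finset.smul_sum]
    refine Finset.sum_congr rfl fun i _ => ?_
    rw [ho, Algebra.smul_def, mul_smul]
  refine ⟨x, ?_, fun r => ?_⟩
  · intro h0
    rw [h0, map_zero] at hx
    have hb0 : algebraMap O K b ≠ 0 := by
      rw [Ne, ← map_zero (algebraMap O K), hinj.eq_iff]
      exact nonZeroDivisors.coe_ne_zero b
    exact hxK0 ((smul_eq_zero.mp hx.symm).resolve_left hb0)
  · apply hΘ
    rw [hΘb, hx, map_smul, hxK, hΘs, hx, RingHom.comp_apply, smul_comm]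

theorem exists_eigenvector_of_ker_le_domain {L : Type*} [AddCommGroup L] [Module.Finite ℤ L]
    [Module.Free ℤ L] {R : Type*} [CommRing R] (φ : R →+* Module.End ℤ L) {O : Type*} [CommRing O]
    [IsDomain O] [CharZero O] (χ : R →+* O) (h : RingHom.ker φ ≤ RingHom.ker χ) :
    ∃ x : O ⊗[ℤ] L, x ≠ 0 ∧ ∀ r : R, (φ r).baseChange O x = χ r • x :=
  exists_eigenvector_aux φ (FractionRing O) χ h

end Fermat.Agent.RepTwo
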