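import Fermat.Agent.RepTwo.Residual
import Fermat.Agent.RepTwo.ResidueField
import Fermat.Agent.Eigenform.Converse
import Fermat.Prelude.Def_GaloisRep_Residual

/-!
Assembly of the residual Galois representation attached to an eigenform, from abstract
Eichler–Shimura data.
-/

set_option autoImplicit false

namespace Fermat.Agent.RepTwo

open Module TensorProduct CuspForm ModularFormClass

local notation "Γℚ" => (AlgebraicClosure ℚ ≃ₐ[ℚ] AlgebraicClosure ℚ)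
local notation "ℤbar" => integralClosure ℤ ℂ

/-- The residual Galois representation given by matrices. -/
noncomputable def residualOfMatrix {k : Type} [Field k] (M : Γℚ →* Matrix (Fin 2) (Fin 2) k)
    (hM : GaloisFactorsThroughFiniteLevel M) : ResidualGaloisRep k where
  V := Fin 2 → k
  finrank_eq := by simp
  ρ := (Matrix.toLinAlgEquiv' : Matrix (Fin 2) (Fin 2) k ≃ₐ[k] _).toAlgHom.toMonoidHom.comp M
  factorsThroughFiniteLevel := by
    obtain ⟨L, hL, h⟩ := hM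
    refine ⟨L, hL, fun σ hσ => ?_⟩
    rw [MonoidHom.comp_apply, h σ hσ, map_one]

theorem residualOfMatrix_ρ {k : Type} [Field k] (M : Γℚ →* Matrix (Fin 2) (Fin 2) k)
    (hM : GaloisFactorsThroughFiniteLevel M) (σ : Γℚ) :
    (residualOfMatrix M hM).ρ σ = Matrix.toLin' (M σ) := rfl

theorem charpoly_residualOfMatrix {k : Type} [Field k] (M : Γℚ →* Matrix (Fin 2) (Fin 2) k)
    (hM : GaloisFactorsThroughFiniteLevel M) (σ : Γℚ) :
    LinearMap.charpoly ((residualOfMatrix M hM).ρ σ) =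
      Polynomial.X ^ 2 - Polynomial.C (M σ).trace * Polynomial.X + Polynomial.C (M σ).det := by
  rw [residualOfMatrix_ρ]
  have h1 : (Matrix.toLin' (M σ)).charpoly = (M σ).charpoly := by
    rw [← LinearMap.charpoly_toMatrix _ (Pi.basisFun k (Fin 2))]
    congr 1
    rw [LinearMap.toMatrix_eq_toMatrix', LinearMap.toMatrix'_toLin']
  exact h1.trans (Matrix.charpoly_fin_two _)

/-- The trivial residual Galois representation. -/
theorem exists_trivial_residual (k : Type) [Field k] :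
    ∃ ρ : ResidualGaloisRep k, ∀ σ, ρ.ρ σ = 1 := by
  have h1 : GaloisFactorsThroughFiniteLevel (1 : Γℚ →* Matrix (Fin 2) (Fin 2) k) :=
    ⟨⊥, inferInstance, fun σ _ => rfl⟩
  refine ⟨residualOfMatrix 1 h1, fun σ => ?_⟩
  have h2 := residualOfMatrix_ρ (k := k) 1 h1 σ
  rw [MonoidHom.one_apply, Matrix.toLin'_one] at h2
  exact h2

/-- **Abstract Eichler–Shimura input** for a normalised eigenform `g` of level `N` and a ring
homomorphism `φ` from the algebraic integers to an algebraically closed field `K` of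
characteristic `p`: a finite mod `p` Galois module with Hecke operators, containing the
eigensystem of `g` after base change to `K`. -/
def HasESEigen (p : ℕ) [Fact p.Prime] (N : ℕ) (g : CuspForm (CongruenceSubgroup.Gamma0 N) 2)
    (K : Type) [Field K] [Algebra (ZMod p) K] (φ : ℤbar →+* K) : Prop :=
  ∃ (U : Type) (_ : AddCommGroup U) (_ : Module (ZMod p) U) (_ : Finite U)
    (ρ : Γℚ →* Module.End (ZMod p) U) (T : ℕ → Module.End (ZMod p) U),
    IsESMod p (N * p) ρ T ∧ ∃ x : K ⊗[ZMod p] U, x ≠ 0 ∧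
      ∀ ℓ : ℕ, ℓ.Prime → ¬ ℓ ∣ N * p → ∀ a : ℤbar, (a : ℂ) = qCoeff g ℓ →
        (T ℓ).baseChange K x = φ a • x

/-- The residual representation of matrices attached to an eigenform (algebraically closed
coefficients). -/
theorem exists_matrix_of_hasESEigen {p : ℕ} [Fact p.Prime] {N : ℕ} [NeZero N]
    {g : CuspForm (CongruenceSubgroup.Gamma0 N) 2} (hg : g.IsNormalizedEigenform)
    {K : Type} [Field K] [IsAlgClosed K] [Algebra (ZMod p) K] (φ : ℤbar →+* K)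
    (h : HasESEigen p N g K φ) :
    ∃ M : Γℚ →* Matrix (Fin 2) (Fin 2) K, GaloisFactorsThroughFiniteLevel M ∧
      (∀ ℓ : ℕ, ℓ.Prime → ¬ ℓ ∣ N * p → ∀ A : ValuationSubring (AlgebraicClosure ℚ),
        A.LiesOverPrime ℓ → ∀ σ ∈ A.inertiaSubgroupIn ℚ, M σ = 1) ∧
      (∀ ℓ : ℕ, ℓ.Prime → ¬ ℓ ∣ N * p → ∀ A : ValuationSubring (AlgebraicClosure ℚ),
        A.LiesOverPrime ℓ → ∀ σ : Γℚ, A.IsFrobeniusAt σ ℓ →
          ∃ a : ℤbar, (a : ℂ) = qCoeff g ℓ ∧ (M σ).trace = φ a ∧ (M σ).det = (ℓ : K)) := by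
  classical
  obtain ⟨U, _, _, _, ρ, T, hES, x, hx0, hx⟩ := h
  have hint : ∀ ℓ : ℕ, ∃ a : ℤbar, ℓ.Prime → (a : ℂ) = qCoeff g ℓ := by
    intro ℓ
    by_cases hℓ : ℓ.Prime
    · exact ⟨⟨qCoeff g ℓ, Eigenform.isIntegral_qCoeff_prime hg hℓ⟩, fun _ => rfl⟩
    · exact ⟨0, fun h => absurd h hℓ⟩
  choose a ha using hint
  have hp : p.Prime := Fact.out
  obtain ⟨M, hM1, hM2, hM3⟩ := exists_rep_of_isESMod (B := N * p)
    (mul_ne_zero (NeZero.ne N) hp.ne_zero) (dvd_mul_left p N) hES (fun ℓ => φ (a ℓ)) hx0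
    (fun ℓ hℓ hℓB => hx ℓ hℓ hℓB (a ℓ) (ha ℓ hℓ))
  exact ⟨M, hM1, hM2, fun ℓ hℓ hℓB A hA σ hσ =>
    ⟨a ℓ, ha ℓ hℓ, (hM3 ℓ hℓ hℓB A hA σ hσ).1, (hM3 ℓ hℓ hℓB A hA σ hσ).2⟩⟩

/-- `Matrix.map` along a ring homomorphism, on representations. -/
theorem exists_map_matrix {K k : Type} [Field K] [Field k] (ι : K →+* k)
    (M : Γℚ →* Matrix (Fin 2) (Fin 2) K) (hM : GaloisFactorsThroughFiniteLevel M) :
    ∃ M' : Γℚ →* Matrix (Fin 2) (Fin 2) k, GaloisFactorsThroughFiniteLevel M' ∧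
      ∀ σ, M' σ = (M σ).map ι := by
  refine ⟨(ι.mapMatrix : Matrix (Fin 2) (Fin 2) K →+* _).toMonoidHom.comp M, ?_, fun σ => rfl⟩
  obtain ⟨L, hL, h⟩ := hM
  refine ⟨L, hL, fun σ hσ => ?_⟩
  rw [MonoidHom.comp_apply, h σ hσ, map_one]

/-- **The residual Galois representation attached to a normalised eigenform** (conclusion of
`S29`), from the abstract Eichler–Shimura input over the residue field of `ℤbar` at `ker φ`. -/
theorem exists_residualGaloisRep_isAttachedTo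
    {N : ℕ} {g : CuspForm (CongruenceSubgroup.Gamma0 N) 2} (hg : g.IsNormalizedEigenform)
    {p : ℕ} (hp : p.Prime) {k : Type} [Field k] [CharP k p]
    (φ : ℤbar →+* k)
    (H : ∀ [Fact p.Prime] [NeZero N] (K : Type) [Field K] [IsAlgClosed K] [Algebra (ZMod p) K]
      (ψ : ℤbar →+* K), HasESEigen p N g K ψ) :
    ∃ ρ : ResidualGaloisRep k, ρ.IsAttachedTo g φ ∧
      ∀ ℓ : ℕ, ℓ.Prime → ¬ ℓ ∣ N * p → ρ.IsUnramifiedAt ℓ := by
  by_cases hN : N = 0
  · subst hN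
    obtain ⟨ρ, hρ⟩ := exists_trivial_residual k
    exact ⟨ρ, fun ℓ _ h0 => absurd (dvd_zero ℓ) h0, fun ℓ _ _ A _ σ _ => hρ σ⟩
  haveI : NeZero N := ⟨hN⟩
  haveI : Fact p.Prime := ⟨hp⟩
  haveI h𝔪 : (RingHom.ker φ).IsMaximal := isMaximal_ker hp φ
  letI : Field (ℤbar ⧸ RingHom.ker φ) := Ideal.Quotient.field _
  haveI : IsAlgClosed (ℤbar ⧸ RingHom.ker φ) := isAlgClosed_quotient _
  have hpk : ((p : ℕ) : ℤbar ⧸ RingHom.ker φ) = 0 := by
    rw [← map_natCast (Ideal.Quotient.mk (RingHom.ker φ)), Ideal.Quotient.eq_zero_iff_mem,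
      RingHom.mem_ker, map_natCast, CharP.cast_eq_zero]
  haveI : CharP (ℤbar ⧸ RingHom.ker φ) p := by
    rw [CharP.charP_iff_prime_eq_zero hp]
    exact hpk
  letI : Algebra (ZMod p) (ℤbar ⧸ RingHom.ker φ) := ZMod.algebra _ p
  let ι : (ℤbar ⧸ RingHom.ker φ) →+* k := RingHom.kerLift φ
  have hι : ∀ a : ℤbar, ι (Ideal.Quotient.mk (RingHom.ker φ) a) = φ a := fun a =>
    RingHom.kerLift_mk φ a
  obtain ⟨M, hM1, hM2, hM3⟩ := exists_matrix_of_hasESEigen hg
    (Ideal.Quotient.mk (RingHom.ker φ)) (H (ℤbar ⧸ RingHom.ker φ) (Ideal.Quotient.mk (RingHom.ker φ)))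
  obtain ⟨M', hM'1, hM'⟩ := exists_map_matrix ι M hM1
  have hunr : ∀ ℓ : ℕ, ℓ.Prime → ¬ ℓ ∣ N * p → (residualOfMatrix M' hM'1).IsUnramifiedAt ℓ := by
    intro ℓ hℓ hℓB A hA σ hσ
    have h1 : M' σ = 1 := by
      rw [hM', hM2 ℓ hℓ hℓB A hA σ hσ]
      exact Matrix.map_one ι (map_zero ι) (map_one ι)
    have h2 := residualOfMatrix_ρ M' hM'1 σ
    rw [h1, Matrix.toLin'_one] at h2
    exact h2
  refine ⟨residualOfMatrix M' hM'1, ?_, hunr⟩
  intro ℓ hℓ hℓN hℓk A hA σ hσ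
  have hℓp : ¬ ℓ ∣ N * p := by
    intro h
    rcases hℓ.dvd_mul.mp h with h | h
    · exact hℓN h
    · rw [Nat.prime_dvd_prime_iff_eq hℓ hp] at h
      subst h
      exact hℓk (CharP.cast_eq_zero k _)
  obtain ⟨a, ha, htr, hdet⟩ := hM3 ℓ hℓ hℓp A hA σ hσ
  refine ⟨a, ha, ?_⟩
  rw [charpoly_residualOfMatrix, hM']
  have h1 : ((M σ).map ι).trace = φ a := by
    have h2 : ((M σ).map ι).trace = ι ((M σ).trace) := by
      exact (AddMonoidHom.map_trace ι.toAddMonoidHom (M σ)).symm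
    rw [h2, htr, hι]
  have h3 : ((M σ).map ι).det = (ℓ : k) := by
    have h4 : ((M σ).map ι).det = ι ((M σ).det) := by
      rw [RingHom.map_det]; rfl
    rw [h4, hdet, map_natCast]
  rw [h1, h3]

end Fermat.Agent.RepTwo
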