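import Fermat.Agent.RepTwo.FiniteLevel
import Fermat.Prelude.Def_FreyPackage_EigenformResidualAttachment

/-!
Assembly of `EigenformResidualAttachmentAt` (`S42`) from abstract Eichler–Shimura data and
finiteness of the torsion of the Frey curve.
-/

set_option autoImplicit false

namespace Fermat.Agent.RepTwo

open Module TensorProduct CuspForm ModularFormClass
open scoped WeierstrassCurve.Affine

local notation "Γℚ" => (AlgebraicClosure ℚ ≃ₐ[ℚ] AlgebraicClosure ℚ)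
local notation "ℤbar" => integralClosure ℤ ℂ

theorem eigenformResidualAttachmentAt (P : FreyPackage) {N : ℕ} (hN : 0 < N)
    (hfin : Finite (Submodule.torsionBy ℤ
      (WeierstrassCurve.Affine.Point (P.freyCurve⁄(AlgebraicClosure ℚ))) P.p))
    (H : ∀ (g : CuspForm (CongruenceSubgroup.Gamma0 N) 2), g.IsNormalizedEigenform →
      ∀ [Fact P.p.Prime] (K : Type) [Field K] [IsAlgClosed K] [Algebra (ZMod P.p) K]
      (ψ : ℤbar →+* K), HasESEigen P.p N g K ψ) :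
    P.EigenformResidualAttachmentAt N := by
  intro g hg 𝔪 h𝔪 hp𝔪
  have hp : P.p.Prime := P.pp
  haveI : NeZero N := ⟨hN.ne'⟩
  haveI : Fact P.p.Prime := ⟨hp⟩
  letI : Field (ℤbar ⧸ 𝔪) := Ideal.Quotient.field _
  haveI : IsAlgClosed (ℤbar ⧸ 𝔪) := isAlgClosed_quotient _
  have hpk : ((P.p : ℕ) : ℤbar ⧸ 𝔪) = 0 := by
    rw [← map_natCast (Ideal.Quotient.mk 𝔪), Ideal.Quotient.eq_zero_iff_mem]
    exact hp𝔪
  haveI : CharP (ℤbar ⧸ 𝔪) P.p := by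
    rw [CharP.charP_iff_prime_eq_zero hp]
    exact hpk
  letI : Algebra (ZMod P.p) (ℤbar ⧸ 𝔪) := ZMod.algebra _ P.p
  obtain ⟨M, hM1, hM2, hM3⟩ := exists_matrix_of_hasESEigen hg
    (Ideal.Quotient.mk 𝔪) (H g hg (ℤbar ⧸ 𝔪) (Ideal.Quotient.mk 𝔪))
  have hcurve := factors_galoisRepModuleEnd P.freyCurve P.p
  let ρ := residualOfMatrix M hM1
  obtain ⟨F, _, _, _, _, _, hF⟩ := exists_numberField hcurve ρ.factorsThroughFiniteLevel
  have hℓ' : ∀ ℓ : ℕ, ℓ.Prime → ¬ ℓ ∣ N → ℓ ≠ P.p → ¬ ℓ ∣ N * P.p := by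
    intro ℓ hℓ hℓN hℓp h
    rcases hℓ.dvd_mul.mp h with h | h
    · exact hℓN h
    · exact hℓp ((Nat.prime_dvd_prime_iff_eq hℓ hp).mp h)
  refine ⟨ℤbar ⧸ 𝔪, inferInstance, inferInstance, ρ.V, inferInstance, inferInstance, ρ.ρ,
    Ideal.Quotient.mk 𝔪, F, inferInstance, inferInstance, inferInstance, inferInstance,
    inferInstance, ?_, ρ.finrank_eq, ?_, ?_, ?_⟩
  · rw [Ideal.mk_ker]
  · exact hF
  · intro ℓ hℓ hℓN hℓp A hA τ hτ
    obtain ⟨a, ha, htr, -⟩ := hM3 ℓ hℓ (hℓ' ℓ hℓ hℓN hℓp) A hA τ hτ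
    refine ⟨a, ha, ?_⟩
    rw [← htr]
    exact Matrix.trace_toLin'_eq (M τ)
  · intro ℓ hℓ hℓN hℓp A hA τ hτ
    obtain ⟨a, ha, -, hdet⟩ := hM3 ℓ hℓ (hℓ' ℓ hℓ hℓN hℓp) A hA τ hτ
    rw [← hdet]
    exact LinearMap.det_toLin' (M τ)

end Fermat.Agent.RepTwo
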