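import Fermat.Agent.RepTwo.JZeroES
import Fermat.Agent.RepTwo.Attachment
import Fermat.Agent.DivPoly.Rank
import Fermat.Agent.Wiring.FreyModel

/-!
`S29` and `S42` from the geometry of `JZero N`.
-/

set_option autoImplicit false

namespace Fermat.Agent.RepTwo

open Module TensorProduct CuspForm ModularFormClass AlgebraicCurve ModularCurve Fermat.Agent.Top

local notation "Γℚ" => (AlgebraicClosure ℚ ≃ₐ[ℚ] AlgebraicClosure ℚ)
local notation "ℤbar" => integralClosure ℤ ℂ

/-- The geometric facts on `JZero N` at a prime `p` used for residual representations. -/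
structure JZeroGeometry (N p : ℕ) [NeZero N] : Prop where
  finite : Finite (pTor (JZero N) p)
  level : TorsionLevel N p
  comm : HeckeOperatorsCommuteBar N
  es : JZeroES N p
  support : SupportMap N p

theorem hasESEigen_of_geometry {N p : ℕ} [NeZero N] [Fact p.Prime] (G : JZeroGeometry N p)
    {g : CuspForm (CongruenceSubgroup.Gamma0 N) 2} (hg : g.IsNormalizedEigenform)
    (K : Type) [Field K] [Algebra (ZMod p) K] (ψ : ℤbar →+* K) : HasESEigen p N g K ψ :=
  hasESEigen_of_jzero G.finite G.level G.comm G.es G.support hg K ψ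

/-- conclusion of `S29` from the geometry of `JZero N`. -/
theorem s29_of_geometry (G : ∀ (N p : ℕ) [NeZero N], p.Prime → JZeroGeometry N p)
    {N : ℕ} {g : CuspForm (CongruenceSubgroup.Gamma0 N) 2} (hg : g.IsNormalizedEigenform)
    {p : ℕ} (hp : p.Prime) {k : Type} [Field k] [CharP k p]
    (φ : integralClosure ℤ ℂ →+* k) :
    ∃ ρ : ResidualGaloisRep k, ρ.IsAttachedTo g φ ∧
      ∀ ℓ : ℕ, ℓ.Prime → ¬ ℓ ∣ N * p → ρ.IsUnramifiedAt ℓ :=
  exists_residualGaloisRep_isAttachedTo hg hp φ fun K _ _ _ ψ =>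
    hasESEigen_of_geometry (G N p hp) hg K ψ

/-- `S42` from the geometry of `JZero N`. -/
theorem s42_of_geometry (G : ∀ (N p : ℕ) [NeZero N], p.Prime → JZeroGeometry N p)
    (P : FreyPackage) : ∀ M : ℕ, 0 < M → P.EigenformResidualAttachmentAt M := by
  intro M hM
  have : NeZero M := ⟨hM.ne'⟩
  have hΔ : P.freyCurve.Δ ≠ 0 := by
    rw [← Wiring.freyCurveInt_map, WeierstrassCurve.map_Δ]
    have h := Wiring.freyCurveInt_Δ_ne_zero P
    simpa using h
  refine eigenformResidualAttachmentAt P hM ?_ fun g hg _ K _ _ _ ψ =>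
    hasESEigen_of_geometry (G M P.p P.pp) hg K ψ
  have hΔ' : (P.freyCurve.map (algebraMap ℚ (AlgebraicClosure ℚ))).Δ ≠ 0 := by
    rw [WeierstrassCurve.map_Δ]
    exact (map_ne_zero _).mpr hΔ
  exact DivPoly.finite_torsionBy_baseChange (K := AlgebraicClosure ℚ) P.freyCurve hΔ' P.p
    P.pp.ne_zero

end Fermat.Agent.RepTwo
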