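import Fermat.Agent.RepTwo.Burnside

/-!
A group acting on a nonzero finite-dimensional space over an algebraically closed field such that
every group element satisfies `g² - t(g) g + d(g) = 0` with `d` a character gives rise to a
two-dimensional representation with trace `t` and determinant `d`.
-/

set_option autoImplicit false

namespace Fermat.Agent.RepTwo

open Module

variable {K : Type*} [Field K] {G : Type*} [Group G]
variable {V : Type*} [AddCommGroup V] [Module K V]

/-- A quadratic relation for `2 × 2` matrices. -/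
theorem matrix_two_quadratic {R : Type*} [CommRing R] (M : Matrix (Fin 2) (Fin 2) R) :
    M * M - M.trace • M + M.det • (1 : Matrix (Fin 2) (Fin 2) R) = 0 := by
  ext i j
  fin_cases i <;> fin_cases j <;>
    simp [Matrix.mul_apply, Fin.sum_univ_two, Matrix.trace_fin_two, Matrix.det_fin_two] <;> ring

/-- If a `2 × 2` matrix satisfies `M² - t M + d = 0` and is not scalar, then `t` is its trace and
`d` its determinant. -/
theorem trace_det_of_quadratic_of_not_scalar (M : Matrix (Fin 2) (Fin 2) K) (t d : K)
    (h : M * M - t • M + d • (1 : Matrix (Fin 2) (Fin 2) K) = 0)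
    (hM : ∀ c : K, M ≠ c • (1 : Matrix (Fin 2) (Fin 2) K)) : M.trace = t ∧ M.det = d := by
  have h1 := matrix_two_quadratic M
  have h2 : (M.trace - t) • M = (M.det - d) • (1 : Matrix (Fin 2) (Fin 2) K) := by
    rw [sub_smul, sub_smul]
    have h3 := h1.trans h.symm
    have h4 : (M * M - M.trace • M + M.det • (1 : Matrix (Fin 2) (Fin 2) K)) -
        (M * M - t • M + d • (1 : Matrix (Fin 2) (Fin 2) K)) = 0 := by rw [h3, sub_self]
    rw [← sub_eq_zero, ← neg_eq_zero, ← h4]
    abel
  have h5 : M.trace = t := by
    by_contra hne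
    have hne' : M.trace - t ≠ 0 := sub_ne_zero.mpr hne
    apply hM ((M.trace - t)⁻¹ * (M.det - d))
    rw [mul_smul, ← h2, smul_smul, inv_mul_cancel₀ hne', one_smul]
  refine ⟨h5, ?_⟩
  rw [h5, sub_self, zero_smul] at h2
  have h6 := congrFun (congrFun h2.symm 0) 0
  simpa [sub_eq_zero] using h6

/-- Trace and determinant of a group of quadratic `2 × 2` matrices which are not all scalar. -/
theorem trace_det_of_quadratic (ρ : G →* Matrix (Fin 2) (Fin 2) K) (t : G → K) (d : G →* Kˣ)
    (h : ∀ g, ρ g * ρ g - t g • ρ g + (d g : K) • (1 : Matrix (Fin 2) (Fin 2) K) = 0)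
    (hns : ∃ g, ∀ c : K, ρ g ≠ c • (1 : Matrix (Fin 2) (Fin 2) K)) (g : G) :
    (ρ g).trace = t g ∧ (ρ g).det = d g := by
  by_cases hg : ∀ c : K, ρ g ≠ c • (1 : Matrix (Fin 2) (Fin 2) K)
  · exact trace_det_of_quadratic_of_not_scalar _ _ _ (h g) hg
  · push Not at hg
    obtain ⟨c, hc⟩ := hg
    obtain ⟨k, hk⟩ := hns
    have hc0 : c ≠ 0 := by
      rintro rfl
      have h1 : ρ g * ρ g⁻¹ = 1 := by rw [← map_mul, mul_inv_cancel, map_one]
      rw [hc, zero_smul, zero_mul] at h1
      have := congrFun (congrFun h1 0) 0
      simp at this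
    have hkd := (trace_det_of_quadratic_of_not_scalar _ _ _ (h k) hk).2
    have hgk : ∀ c' : K, ρ (g * k) ≠ c' • (1 : Matrix (Fin 2) (Fin 2) K) := by
      intro c' hc'
      rw [map_mul, hc, smul_mul_assoc, one_mul] at hc'
      apply hk (c⁻¹ * c')
      rw [mul_smul, ← hc', smul_smul, inv_mul_cancel₀ hc0, one_smul]
    have hgkd := (trace_det_of_quadratic_of_not_scalar _ _ _ (h (g * k)) hgk).2
    rw [map_mul, Matrix.det_mul, hkd, map_mul, Units.val_mul] at hgkd
    have hdet : (ρ g).det = d g := mul_right_cancel₀ (d k).ne_zero hgkd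
    refine ⟨?_, hdet⟩
    have hdet' : (d g : K) = c * c := by
      rw [← hdet, hc]; simp [sq]
    have h1 := h g
    rw [hc] at h1
    have h2 := congrFun (congrFun h1 0) 0
    simp only [smul_mul_assoc, one_mul, Matrix.add_apply, Matrix.sub_apply, Matrix.smul_apply,
      Matrix.one_apply_eq, smul_eq_mul, mul_one, Matrix.zero_apply] at h2
    rw [hdet'] at h2
    rw [hc]
    simp only [Matrix.trace_fin_two, Matrix.smul_apply, Matrix.one_apply_eq, smul_eq_mul, mul_one]
    have h3 : c * (c + c - t g) = 0 := by linear_combination h2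
    rcases mul_eq_zero.mp h3 with h4 | h4
    · exact absurd h4 hc0
    · linear_combination h4

/-- The quadratic-algebra lemma. -/
theorem exists_matrix_rep_of_quadratic [IsAlgClosed K] [FiniteDimensional K V] [Nontrivial V]
    (ρ : G →* Module.End K V) (t : G → K) (d : G →* Kˣ)
    (h : ∀ g, ρ g * ρ g - t g • ρ g + (d g : K) • (1 : Module.End K V) = 0) :
    ∃ M : G →* Matrix (Fin 2) (Fin 2) K, (∀ g, (M g).trace = t g) ∧ (∀ g, (M g).det = d g) ∧
      (∀ g, ρ g = 1 → d g = 1 → M g = 1) := by
  classical
  -- a minimal nonzero invariant subspace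
  let S : Set (Submodule K V) := {W | W ≠ ⊥ ∧ ∀ g, ∀ x ∈ W, ρ g x ∈ W}
  have hSne : S.Nonempty := ⟨⊤, fun h => by
    obtain ⟨v, hv⟩ := exists_ne (0 : V)
    have : v ∈ (⊤ : Submodule K V) := Submodule.mem_top
    rw [h] at this
    exact hv ((Submodule.mem_bot _).mp this), fun _ _ _ => Submodule.mem_top⟩
  obtain ⟨W, hWS, hWmin⟩ := (wellFounded_lt (α := Submodule K V)).has_min S hSne
  obtain ⟨hWne, hWinv⟩ := hWS
  have : Nontrivial W := Submodule.nontrivial_iff_ne_bot.mpr hWne
  let ρW : G →* Module.End K W :=
    { toFun := fun g => (ρ g).restrict (hWinv g)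
      map_one' := by ext x; simp
      map_mul' := fun g k => by ext x; simp }
  have hρW : ∀ g (x : W), ((ρW g x : W) : V) = ρ g x := fun g x => rfl
  have hquad : ∀ g, ρW g * ρW g - t g • ρW g + (d g : K) • (1 : Module.End K W) = 0 := by
    intro g
    ext x
    have := congrArg (fun f => f (x : V)) (h g)
    simpa [hρW] using this
  have hirr : ∀ U : Submodule K W, (∀ g, ∀ x ∈ U, ρW g x ∈ U) → U = ⊥ ∨ U = ⊤ := by
    intro U hU
    by_cases hUbot : U = ⊥
    · exact Or.inl hUbot
    · right
      have h1 : U.map W.subtype ∈ S := by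
        refine ⟨fun h0 => hUbot ?_, ?_⟩
        · refine (Submodule.eq_bot_iff _).mpr fun x hx => ?_
          have h6 : W.subtype x ∈ U.map W.subtype := Submodule.mem_map_of_mem hx
          rw [h0, Submodule.mem_bot] at h6
          exact Subtype.ext h6
        · rintro g _ ⟨x, hx, rfl⟩
          exact ⟨ρW g x, hU g x hx, rfl⟩
      have h2 := hWmin _ h1
      have h3 : U.map W.subtype ≤ W := Submodule.map_subtype_le W U
      have h4 : U.map W.subtype = W := by
        by_contra hne
        exact h2 (lt_of_le_of_ne h3 hne)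
      have h5 : U.map W.subtype = (⊤ : Submodule K W).map W.subtype := by
        rw [h4, Submodule.map_subtype_top]
      exact Submodule.map_injective_of_injective W.injective_subtype h5
  have hle := finrank_le_two_of_quadratic ρW t d hquad hirr
  have hpos : 0 < finrank K W := finrank_pos
  have hkerW : ∀ g, ρ g = 1 → ρW g = 1 := by
    intro g hg
    ext x
    rw [hρW, hg]; rfl
  rcases Nat.lt_or_ge (finrank K W) 2 with hlt | hge
  · -- dimension one
    have hone : finrank K W = 1 := by omega
    let α : G →* Kˣ := ((LinearMap.det : Module.End K W →* K).comp ρW).toHomUnits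
    have hα : ∀ g, ρW g = (α g : K) • (1 : Module.End K W) := by
      intro g
      obtain ⟨c, hc, -⟩ := (ρW g).existsUnique_eq_smul_id_of_finrank_eq_one hone
      have h1 : (α g : K) = c := by
        show LinearMap.det (ρW g) = c
        rw [hc, LinearMap.det_smul, LinearMap.det_id, hone]; simp
      rw [h1]; exact hc
    obtain ⟨w, hw⟩ := exists_ne (0 : W)
    have hrel : ∀ g, (α g : K) * α g - t g * α g + d g = 0 := by
      intro g
      have h1 := congrArg (fun f => f w) (hquad g)
      simp only [hα, LinearMap.add_apply, LinearMap.sub_apply, LinearMap.smul_apply,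
        Module.End.mul_apply, Module.End.one_apply, map_smul, LinearMap.zero_apply] at h1
      rw [smul_smul, smul_smul, ← sub_smul, ← add_smul] at h1
      exact (smul_eq_zero.mp h1).resolve_right hw
    let β : G →* Kˣ := d * α⁻¹
    let M : G →* Matrix (Fin 2) (Fin 2) K :=
      { toFun := fun g => Matrix.diagonal ![(α g : K), (β g : K)]
        map_one' := by
          ext i j; fin_cases i <;> fin_cases j <;> simp
        map_mul' := fun g k => by
          ext i j; fin_cases i <;> fin_cases j <;> simp [Matrix.mul_apply, Fin.sum_univ_two] }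
    have hM : ∀ g, M g = Matrix.diagonal ![(α g : K), (β g : K)] := fun g => rfl
    have hβ : ∀ g, (α g : K) * β g = d g := by
      intro g
      simp only [β, MonoidHom.mul_apply, MonoidHom.inv_apply, Units.val_mul]
      rw [mul_left_comm, Units.mul_inv, mul_one]
    refine ⟨M, fun g => ?_, fun g => ?_, fun g hg hdg => ?_⟩
    · rw [hM, Matrix.trace_fin_two]
      simp only [Matrix.diagonal_apply_eq, Matrix.cons_val_zero, Matrix.cons_val_one]
      have h1 := hrel g
      have h2 := hβ g
      have h3 : (α g : K) * ((α g : K) + β g - t g) = 0 := by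
        linear_combination h1 + h2
      rcases mul_eq_zero.mp h3 with h4 | h4
      · exact absurd h4 (α g).ne_zero
      · linear_combination h4
    · rw [hM, Matrix.det_diagonal, Fin.prod_univ_two]
      simpa using hβ g
    · have h1 : α g = 1 := by
        ext
        show LinearMap.det (ρW g) = 1
        rw [hkerW g hg]; simp
      have h2 : β g = 1 := by simp [β, h1, hdg]
      rw [hM, h1, h2]
      ext i j; fin_cases i <;> fin_cases j <;> simp
  · have htwo : finrank K W = 2 := le_antisymm hle hge
    let b : Basis (Fin 2) K W := Module.finBasisOfFinrankEq K W htwo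
    let M : G →* Matrix (Fin 2) (Fin 2) K :=
      ((LinearMap.toMatrixAlgEquiv b : Module.End K W →* Matrix (Fin 2) (Fin 2) K)).comp ρW
    have hM : ∀ g, M g = LinearMap.toMatrixAlgEquiv b (ρW g) := fun g => rfl
    have hMquad : ∀ g, M g * M g - t g • M g + (d g : K) • (1 : Matrix (Fin 2) (Fin 2) K) = 0 := by
      intro g
      have h1 := congrArg (LinearMap.toMatrixAlgEquiv b) (hquad g)
      simp only [map_add, map_sub, map_mul, map_smul, map_one, map_zero] at h1
      rw [hM]
      exact h1
    have hns : ∃ g, ∀ c : K, M g ≠ c • (1 : Matrix (Fin 2) (Fin 2) K) := by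
      by_contra hcon
      push Not at hcon
      have hsc : ∀ g, ∃ c : K, ρW g = c • (1 : Module.End K W) := by
        intro g
        obtain ⟨c, hc⟩ := hcon g
        refine ⟨c, (LinearMap.toMatrixAlgEquiv b).injective ?_⟩
        rw [← hM, hc, map_smul, map_one]
      have hinv : ∀ g, ∀ x ∈ Submodule.span K {b 0}, ρW g x ∈ Submodule.span K {b 0} := by
        intro g x hx
        obtain ⟨c, hc⟩ := hsc g
        rw [hc]
        exact Submodule.smul_mem _ c hx
      rcases hirr _ hinv with h1 | h1
      · rw [Submodule.span_singleton_eq_bot] at h1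
        exact b.ne_zero 0 h1
      · have h2 : finrank K (Submodule.span K {b 0}) = 1 := finrank_span_singleton (b.ne_zero 0)
        rw [h1, finrank_top, htwo] at h2
        omega
    have hTD := trace_det_of_quadratic M t d hMquad hns
    exact ⟨M, fun g => (hTD g).1, fun g => (hTD g).2, fun g hg _ => by
      rw [hM, hkerW g hg, map_one]⟩

end Fermat.Agent.RepTwo
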