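import Fermat.Agent.RepTwo.Quadratic
import Fermat.Agent.RepTwo.Eigen
import Fermat.Agent.CycChar.Basic
import Fermat.Agent.Cheb.Bridge

/-!
Residual Galois representations from abstract (mod `p`) Eichler–Shimura data.
-/

set_option autoImplicit false

namespace Fermat.Agent.RepTwo

open Module TensorProduct

local notation "Γℚ" => (AlgebraicClosure ℚ ≃ₐ[ℚ] AlgebraicClosure ℚ)

section QuadraticPowers

variable {K : Type*} [Field K] {E : Type*} [Ring E] [Algebra K E]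

/-- powers of a quadratic element are quadratic. -/
theorem exists_quadratic_pow {F : E} {t d : K} (h : F * F - t • F + d • (1 : E) = 0) (k : ℕ) :
    ∃ s : K, F ^ k * F ^ k - s • F ^ k + d ^ k • (1 : E) = 0 := by
  -- `F' = t - F` satisfies `F F' = d`
  let F' : E := t • (1 : E) - F
  have hFF' : F * F' = d • (1 : E) := by
    simp only [F', mul_sub, mul_smul_comm, mul_one]
    rw [← sub_eq_zero, ← neg_eq_zero, ← h]; abel
  have hF'F : F' * F = d • (1 : E) := by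
    simp only [F', sub_mul, smul_mul_assoc, one_mul]
    rw [← sub_eq_zero, ← neg_eq_zero, ← h]; abel
  have hcomm : Commute F F' := hFF'.trans hF'F.symm
  have hpow : F ^ k * F' ^ k = d ^ k • (1 : E) := by
    rw [← hcomm.mul_pow, hFF', smul_pow, one_pow]
  have hsum : ∀ k : ℕ, (∃ s : K, F ^ k + F' ^ k = s • (1 : E)) ∧
      ∃ s : K, F ^ (k + 1) + F' ^ (k + 1) = s • (1 : E) := by
    intro k
    induction k with
    | zero =>
      refine ⟨⟨2, ?_⟩, ⟨t, ?_⟩⟩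
      · rw [pow_zero, pow_zero, two_smul]
      · simp only [zero_add, pow_one, F']; abel
    | succ k ih =>
      obtain ⟨⟨s, hs⟩, ⟨s', hs'⟩⟩ := ih
      refine ⟨⟨s', hs'⟩, ⟨t * s' - d * s, ?_⟩⟩
      have h1 : F ^ (k + 1 + 1) + F' ^ (k + 1 + 1) =
          (F + F') * (F ^ (k + 1) + F' ^ (k + 1)) - (F * F' * F' ^ k + F' * F * F ^ k) := by
        simp only [add_mul, mul_add, pow_succ' F (k + 1), pow_succ' F' (k + 1), pow_succ' F k,
          pow_succ' F' k, mul_assoc]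
        abel
      have h2 : F + F' = t • (1 : E) := by simp only [F']; abel
      rw [h1, h2, hs', hFF', hF'F, smul_mul_assoc, one_mul, smul_mul_assoc, smul_mul_assoc,
        one_mul, one_mul, ← smul_add, add_comm (F' ^ k), hs, smul_smul, smul_smul, sub_smul]
  obtain ⟨⟨s, hs⟩, -⟩ := hsum k
  refine ⟨s, ?_⟩
  have h3 : s • F ^ k = (F ^ k + F' ^ k) * F ^ k := by rw [hs, smul_mul_assoc, one_mul]
  have h4 : F' ^ k * F ^ k = d ^ k • (1 : E) := by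
    rw [← hpow]; exact (hcomm.pow_pow k k).symm.eq
  rw [h3, add_mul, h4]; abel

end QuadraticPowers

/-- Residual Eichler–Shimura data: a mod `p` representation of the Galois group of `ℚ` with
commuting operators `T ℓ` satisfying the Eichler–Shimura relation at all primes `ℓ ∤ B`. -/
structure IsESMod (p B : ℕ) [Fact p.Prime] {U : Type} [AddCommGroup U] [Module (ZMod p) U]
    (ρ : Γℚ →* Module.End (ZMod p) U) (T : ℕ → Module.End (ZMod p) U) : Prop where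
  finite_level : GaloisFactorsThroughFiniteLevel ρ
  comm : ∀ (σ : Γℚ) (ℓ : ℕ), ℓ.Prime → ¬ ℓ ∣ B → ρ σ * T ℓ = T ℓ * ρ σ
  unram : ∀ ℓ : ℕ, ℓ.Prime → ¬ ℓ ∣ B → ∀ A : ValuationSubring (AlgebraicClosure ℚ),
    A.LiesOverPrime ℓ → ∀ σ ∈ A.inertiaSubgroupIn ℚ, ρ σ = 1
  frob : ∀ ℓ : ℕ, ℓ.Prime → ¬ ℓ ∣ B → ∀ A : ValuationSubring (AlgebraicClosure ℚ),
    A.LiesOverPrime ℓ → ∀ σ : Γℚ, A.IsFrobeniusAt σ ℓ →
      ρ σ * ρ σ - T ℓ * ρ σ + (ℓ : ZMod p) • (1 : Module.End (ZMod p) U) = 0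

theorem GaloisFactors_prod {M M' : Type} [Monoid M] [Monoid M'] {ρ : Γℚ →* M} {ρ' : Γℚ →* M'}
    (h : GaloisFactorsThroughFiniteLevel ρ) (h' : GaloisFactorsThroughFiniteLevel ρ') :
    GaloisFactorsThroughFiniteLevel (ρ.prod ρ') := by
  obtain ⟨L, hL, h1⟩ := h
  obtain ⟨L', hL', h1'⟩ := h'
  have := hL; have := hL'
  refine ⟨L ⊔ L', inferInstance, fun σ hσ => ?_⟩
  rw [MonoidHom.prod_apply, h1 σ fun x hx => hσ x (le_sup_left (a := L) (b := L') hx),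
    h1' σ fun x hx => hσ x (le_sup_right (a := L) (b := L') hx)]
  rfl

/-- **Residual representation from abstract Eichler–Shimura data**, over an algebraically closed
field, on an abstract vector space. -/
theorem exists_rep_of_quadratic_frobenius {p B : ℕ} [Fact p.Prime] (hB : B ≠ 0) (hp : p ∣ B)
    {K : Type} [Field K] [IsAlgClosed K] [Algebra (ZMod p) K]
    {W : Type} [AddCommGroup W] [Module K W] [FiniteDimensional K W] [Nontrivial W]
    (ρW : Γℚ →* Module.End K W) (hfl : GaloisFactorsThroughFiniteLevel ρW)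
    (hunram : ∀ ℓ : ℕ, ℓ.Prime → ¬ ℓ ∣ B → ∀ A : ValuationSubring (AlgebraicClosure ℚ),
      A.LiesOverPrime ℓ → ∀ σ ∈ A.inertiaSubgroupIn ℚ, ρW σ = 1)
    (a : ℕ → K)
    (hfrob : ∀ ℓ : ℕ, ℓ.Prime → ¬ ℓ ∣ B → ∀ A : ValuationSubring (AlgebraicClosure ℚ),
      A.LiesOverPrime ℓ → ∀ σ : Γℚ, A.IsFrobeniusAt σ ℓ →
        ρW σ * ρW σ - a ℓ • ρW σ + (ℓ : K) • (1 : Module.End K W) = 0) :
    ∃ M : Γℚ →* Matrix (Fin 2) (Fin 2) K, GaloisFactorsThroughFiniteLevel M ∧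
      (∀ ℓ : ℕ, ℓ.Prime → ¬ ℓ ∣ B → ∀ A : ValuationSubring (AlgebraicClosure ℚ),
        A.LiesOverPrime ℓ → ∀ σ ∈ A.inertiaSubgroupIn ℚ, M σ = 1) ∧
      (∀ ℓ : ℕ, ℓ.Prime → ¬ ℓ ∣ B → ∀ A : ValuationSubring (AlgebraicClosure ℚ),
        A.LiesOverPrime ℓ → ∀ σ : Γℚ, A.IsFrobeniusAt σ ℓ →
          (M σ).trace = a ℓ ∧ (M σ).det = (ℓ : K)) := by
  classical
  -- the determinant character
  let d : Γℚ →* Kˣ := (Units.map (algebraMap (ZMod p) K : ZMod p →* K)).comp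
    (ExtCitation.cycloChar p)
  have hd : ∀ σ, ((d σ : Kˣ) : K) = algebraMap (ZMod p) K
      ((ExtCitation.cycloChar p σ : (ZMod p)ˣ) : ZMod p) := fun σ => rfl
  have hdfrob : ∀ ℓ : ℕ, ℓ.Prime → ¬ ℓ ∣ B → ∀ A : ValuationSubring (AlgebraicClosure ℚ),
      A.LiesOverPrime ℓ → ∀ σ : Γℚ, A.IsFrobeniusAt σ ℓ → (d σ : K) = (ℓ : K) := by
    intro ℓ hℓ hℓB A hA σ hσ
    rw [hd, CycChar.cycloChar_frobenius p hℓ (fun h0 => hℓB (h0 ▸ hp)) hA hσ, map_natCast]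
  -- finite level for the pair
  have hcyc : GaloisFactorsThroughFiniteLevel (ExtCitation.cycloChar p) :=
    CycChar.exists_finite_level_cycloChar p
  have hprod := GaloisFactors_prod hfl hcyc
  -- quadratic relation for all elements
  have hquad : ∀ σ : Γℚ, ∃ t : K,
      ρW σ * ρW σ - t • ρW σ + (d σ : K) • (1 : Module.End K W) = 0 := by
    intro σ
    obtain ⟨ℓ, hℓ, hℓS, -, A, hA, φ, hφ, ⟨k, hk⟩, -⟩ :=
      Cheb.exists_frobenius_of_factors _ hprod σ B.primeFactors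
    have hℓB : ¬ ℓ ∣ B := fun h0 => hℓS (Nat.mem_primeFactors.mpr ⟨hℓ, h0, hB⟩)
    have hk1 : ρW σ = ρW φ ^ k := congrArg Prod.fst hk
    have hk2 : ExtCitation.cycloChar p σ = ExtCitation.cycloChar p φ ^ k := congrArg Prod.snd hk
    have hdk : (d σ : K) = (ℓ : K) ^ k := by
      rw [hd, hk2, Units.val_pow_eq_pow_val, map_pow, ← hd, hdfrob ℓ hℓ hℓB A hA φ hφ]
    obtain ⟨s, hs⟩ := exists_quadratic_pow (hfrob ℓ hℓ hℓB A hA φ hφ) k
    exact ⟨s, by rw [hk1, hdk]; exact hs⟩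
  choose t ht using hquad
  obtain ⟨M, htr, hdet, hkerM⟩ := exists_matrix_rep_of_quadratic ρW t d ht
  refine ⟨M, ?_, ?_, ?_⟩
  · obtain ⟨L, hL, h1⟩ := hprod
    refine ⟨L, hL, fun σ hσ => ?_⟩
    have h2 := h1 σ hσ
    have h3 : ρW σ = 1 := congrArg Prod.fst h2
    have h4 : ExtCitation.cycloChar p σ = 1 := congrArg Prod.snd h2
    refine hkerM σ h3 ?_
    show Units.map _ (ExtCitation.cycloChar p σ) = 1
    rw [h4, map_one]
  · intro ℓ hℓ hℓB A hA σ hσ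
    refine hkerM σ (hunram ℓ hℓ hℓB A hA σ hσ) ?_
    show Units.map _ (ExtCitation.cycloChar p σ) = 1
    rw [CycChar.cycloChar_inertia p hℓ (fun h0 => hℓB (h0 ▸ hp)) hA hσ, map_one]
  · intro ℓ hℓ hℓB A hA σ hσ
    refine ⟨?_, by rw [hdet, hdfrob ℓ hℓ hℓB A hA σ hσ]⟩
    rw [htr]
    have h1 := ht σ
    rw [hdfrob ℓ hℓ hℓB A hA σ hσ] at h1
    have h2 := hfrob ℓ hℓ hℓB A hA σ hσ
    have h3 : (t σ - a ℓ) • ρW σ = 0 := by
      rw [sub_smul, ← sub_eq_zero.mpr (h2.trans h1.symm)]; abel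
    have h4 : (t σ - a ℓ) • (1 : Module.End K W) = 0 := by
      have h5 : ρW σ * ρW σ⁻¹ = 1 := by rw [← map_mul, mul_inv_cancel, map_one]
      rw [← h5, ← smul_mul_assoc, h3, zero_mul]
    obtain ⟨w, hw⟩ := exists_ne (0 : W)
    have h6 := congrArg (fun f => f w) h4
    simp only [LinearMap.smul_apply, Module.End.one_apply, LinearMap.zero_apply] at h6
    exact sub_eq_zero.mp ((smul_eq_zero.mp h6).resolve_right hw)

/-- **Residual representation from a common eigenvector**, on an abstract vector space. -/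
theorem exists_rep_of_eigenvector {p B : ℕ} [Fact p.Prime] (hB : B ≠ 0) (hp : p ∣ B)
    {K : Type} [Field K] [IsAlgClosed K] [Algebra (ZMod p) K]
    {X : Type} [AddCommGroup X] [Module K X] [FiniteDimensional K X]
    (ρX : Γℚ →* Module.End K X) (TX : ℕ → Module.End K X)
    (hfl : GaloisFactorsThroughFiniteLevel ρX)
    (hcomm : ∀ (σ : Γℚ) (ℓ : ℕ), ℓ.Prime → ¬ ℓ ∣ B → ρX σ * TX ℓ = TX ℓ * ρX σ)
    (hunram : ∀ ℓ : ℕ, ℓ.Prime → ¬ ℓ ∣ B → ∀ A : ValuationSubring (AlgebraicClosure ℚ),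
      A.LiesOverPrime ℓ → ∀ σ ∈ A.inertiaSubgroupIn ℚ, ρX σ = 1)
    (hfrob : ∀ ℓ : ℕ, ℓ.Prime → ¬ ℓ ∣ B → ∀ A : ValuationSubring (AlgebraicClosure ℚ),
      A.LiesOverPrime ℓ → ∀ σ : Γℚ, A.IsFrobeniusAt σ ℓ →
        ρX σ * ρX σ - TX ℓ * ρX σ + (ℓ : K) • (1 : Module.End K X) = 0)
    (a : ℕ → K) {x : X} (hx0 : x ≠ 0)
    (hx : ∀ ℓ : ℕ, ℓ.Prime → ¬ ℓ ∣ B → TX ℓ x = a ℓ • x) :
    ∃ M : Γℚ →* Matrix (Fin 2) (Fin 2) K, GaloisFactorsThroughFiniteLevel M ∧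
      (∀ ℓ : ℕ, ℓ.Prime → ¬ ℓ ∣ B → ∀ A : ValuationSubring (AlgebraicClosure ℚ),
        A.LiesOverPrime ℓ → ∀ σ ∈ A.inertiaSubgroupIn ℚ, M σ = 1) ∧
      (∀ ℓ : ℕ, ℓ.Prime → ¬ ℓ ∣ B → ∀ A : ValuationSubring (AlgebraicClosure ℚ),
        A.LiesOverPrime ℓ → ∀ σ : Γℚ, A.IsFrobeniusAt σ ℓ →
          (M σ).trace = a ℓ ∧ (M σ).det = (ℓ : K)) := by
  -- the eigenspace
  let W : Submodule K X :=
    { carrier := {y | ∀ ℓ : ℕ, ℓ.Prime → ¬ ℓ ∣ B → TX ℓ y = a ℓ • y}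
      add_mem' := fun {y z} hy hz ℓ hℓ hℓB => by
        rw [map_add, hy ℓ hℓ hℓB, hz ℓ hℓ hℓB, smul_add]
      zero_mem' := fun ℓ _ _ => by rw [map_zero, smul_zero]
      smul_mem' := fun c y hy ℓ hℓ hℓB => by
        rw [map_smul, hy ℓ hℓ hℓB, smul_comm] }
  have hWnt : Nontrivial W := ⟨⟨⟨x, hx⟩, 0, fun h0 => hx0 (congrArg Subtype.val h0)⟩⟩
  have hWinv : ∀ σ, ∀ y ∈ W, ρX σ y ∈ W := by
    intro σ y hy ℓ hℓ hℓB
    have h1 : TX ℓ (ρX σ y) = ρX σ (TX ℓ y) :=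
      (congrArg (fun f => f y) (hcomm σ ℓ hℓ hℓB)).symm
    rw [h1, hy ℓ hℓ hℓB, map_smul]
  let ρW : Γℚ →* Module.End K W :=
    { toFun := fun σ => (ρX σ).restrict (hWinv σ)
      map_one' := by ext y; simp
      map_mul' := fun σ τ => by ext y; simp }
  have hρW : ∀ σ (y : W), ((ρW σ y : W) : X) = ρX σ y := fun σ y => rfl
  have hker : ∀ σ, ρX σ = 1 → ρW σ = 1 := by
    intro σ hσ
    ext y
    rw [hρW, hσ]
    rfl
  refine exists_rep_of_quadratic_frobenius hB hp ρW ?_ ?_ a ?_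
  · obtain ⟨L, hL, h1⟩ := hfl
    exact ⟨L, hL, fun σ hσ => hker σ (h1 σ hσ)⟩
  · intro ℓ hℓ hℓB A hA σ hσ
    exact hker σ (hunram ℓ hℓ hℓB A hA σ hσ)
  · intro ℓ hℓ hℓB A hA σ hσ
    have h2 := hfrob ℓ hℓ hℓB A hA σ hσ
    ext y
    have h3 := congrArg (fun f => f (y : X)) h2
    simp only [LinearMap.add_apply, LinearMap.sub_apply, LinearMap.smul_apply,
      Module.End.mul_apply, Module.End.one_apply, LinearMap.zero_apply] at h3 ⊢
    rw [hWinv σ y y.2 ℓ hℓ hℓB] at h3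
    simpa [hρW] using h3

/-- **Residual representation from abstract Eichler–Shimura data.** -/
theorem exists_rep_of_isESMod {p B : ℕ} [Fact p.Prime] (hB : B ≠ 0) (hp : p ∣ B)
    {U : Type} [AddCommGroup U] [Module (ZMod p) U] [Finite U]
    {ρ : Γℚ →* Module.End (ZMod p) U} {T : ℕ → Module.End (ZMod p) U} (h : IsESMod p B ρ T)
    {K : Type} [Field K] [IsAlgClosed K] [Algebra (ZMod p) K] (a : ℕ → K)
    {x : K ⊗[ZMod p] U} (hx0 : x ≠ 0)
    (hx : ∀ ℓ : ℕ, ℓ.Prime → ¬ ℓ ∣ B → (T ℓ).baseChange K x = a ℓ • x) :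
    ∃ M : Γℚ →* Matrix (Fin 2) (Fin 2) K, GaloisFactorsThroughFiniteLevel M ∧
      (∀ ℓ : ℕ, ℓ.Prime → ¬ ℓ ∣ B → ∀ A : ValuationSubring (AlgebraicClosure ℚ),
        A.LiesOverPrime ℓ → ∀ σ ∈ A.inertiaSubgroupIn ℚ, M σ = 1) ∧
      (∀ ℓ : ℕ, ℓ.Prime → ¬ ℓ ∣ B → ∀ A : ValuationSubring (AlgebraicClosure ℚ),
        A.LiesOverPrime ℓ → ∀ σ : Γℚ, A.IsFrobeniusAt σ ℓ →
          (M σ).trace = a ℓ ∧ (M σ).det = (ℓ : K)) := by
  classical
  have hfinU : Module.Finite (ZMod p) U := Module.Finite.of_finite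
  -- the base changed representation
  let ρK : Γℚ →* Module.End K (K ⊗[ZMod p] U) :=
    { toFun := fun σ => (ρ σ).baseChange K
      map_one' := by rw [map_one, LinearMap.baseChange_one]
      map_mul' := fun σ τ => by rw [map_mul, LinearMap.baseChange_mul] }
  have hρK : ∀ σ, ρK σ = (ρ σ).baseChange K := fun σ => rfl
  have hker : ∀ σ, ρ σ = 1 → ρK σ = 1 := by
    intro σ hσ
    rw [hρK, hσ, LinearMap.baseChange_one]
  refine exists_rep_of_eigenvector hB hp (X := K ⊗[ZMod p] U) ρK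
    (fun ℓ => (T ℓ).baseChange K) ?_ ?_ ?_ ?_ a hx0 hx
  · obtain ⟨L, hL, h1⟩ := h.finite_level
    exact ⟨L, hL, fun σ hσ => hker σ (h1 σ hσ)⟩
  · intro σ ℓ hℓ hℓB
    have h2 := congrArg (fun f => LinearMap.baseChange K f) (h.comm σ ℓ hℓ hℓB)
    simp only [LinearMap.baseChange_mul] at h2
    exact h2
  · intro ℓ hℓ hℓB A hA σ hσ
    exact hker σ (h.unram ℓ hℓ hℓB A hA σ hσ)
  · intro ℓ hℓ hℓB A hA σ hσ
    have h1 := h.frob ℓ hℓ hℓB A hA σ hσ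
    have h2 := congrArg (fun f => LinearMap.baseChange K f) h1
    simp only [LinearMap.baseChange_add, LinearMap.baseChange_sub, LinearMap.baseChange_mul,
      LinearMap.baseChange_smul, LinearMap.baseChange_one, LinearMap.baseChange_zero] at h2
    have h5 : ((ℓ : ZMod p) • (1 : Module.End K (K ⊗[ZMod p] U))) =
        (ℓ : K) • (1 : Module.End K (K ⊗[ZMod p] U)) := by
      rw [Nat.cast_smul_eq_nsmul, Nat.cast_smul_eq_nsmul]
    rw [h5] at h2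
    exact h2

end Fermat.Agent.RepTwo
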